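import Fermat.Agent.LT.Near.Hilb

/-!
# The structure of the near-identity support at a non-split place

`F` (= `L_w`) is a complete ultrametric field, `τ` an isometric automorphism with `τ³ = 1`; "rational"
means `τ`-fixed.  `γ` is a rational non-scalar matrix, `δ` commutes with `γ` and
`δ τ(δ) τ²(δ) = γ`.  A matrix `d` is near one if `‖d - 1‖ ≤ r`.
-/

set_option autoImplicit false
set_option linter.unusedSectionVars false

open Matrix IsUltrametricDist

namespace Fermat.Agent.LT.Near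

variable {F : Type*} [NormedField F] [IsUltrametricDist F] [CompleteSpace F] (τ : F ≃+* F)

attribute [local instance] matNormedRing matNormOne matUltra matComplete

/-- one third as a matrix -/
theorem isThird_mat (h3 : (3 : F) ≠ 0) : IsThird ((3 : F)⁻¹ • (1 : M2 F)) where
  three_mul := by
    have : (3 : M2 F) = (3 : F) • (1 : M2 F) := by
      have h : (3 : F) = 1 + 1 + 1 := by norm_num
      rw [h, add_smul, add_smul, one_smul]; norm_num
    rw [this, smul_mul_smul_comm, mul_one, mul_inv_cancel₀ h3, one_smul]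
  comm := fun a => by rw [smul_mul_assoc, mul_smul_comm, one_mul, mul_one]

theorem norm_third_mat : ‖((3 : F)⁻¹ • (1 : M2 F))‖ = ‖(3 : F)⁻¹‖ := by
  apply le_antisymm
  · rw [mat_norm_le_iff (norm_nonneg _)]
    intro i j
    fin_cases i <;> fin_cases j <;> simp
  · have := mat_entry_le ((3 : F)⁻¹ • (1 : M2 F)) 0 0
    simpa using this

theorem norm_tM (hτn : ∀ a, ‖τ a‖ = ‖a‖) (X : M2 F) : ‖tM τ X‖ = ‖X‖ := by
  apply le_antisymm
  · rw [mat_norm_le_iff (norm_nonneg _)]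
    intro i j
    rw [tM_apply, hτn]
    exact mat_entry_le X i j
  · rw [mat_norm_le_iff (norm_nonneg _)]
    intro i j
    rw [← hτn, ← tM_apply]
    exact mat_entry_le (tM τ X) i j

theorem exists_inv {X : M2 F} (h : IsUnit X) : ∃ Y : M2 F, X * Y = 1 ∧ Y * X = 1 := by
  obtain ⟨u, rfl⟩ := h
  exact ⟨(u⁻¹ : (M2 F)ˣ), u.mul_inv, u.inv_mul⟩

theorem isUnit_of_mul {X Y : M2 F} (h : X * Y = 1) : IsUnit X :=
  ⟨⟨X, Y, h, mul_eq_one_comm.mp h⟩, rfl⟩

theorem IsScalar.conj {A P Q : M2 F} (hA : IsScalar A) (h : P * Q = 1) : IsScalar (P * A * Q) := by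
  rw [isScalar_iff] at hA
  have h1 : P * A * Q = scalar (Fin 2) (A 0 0) := by
    rw [hA, ← Matrix.scalar_comm _ (fun _ => Commute.all _ _), mul_assoc, h, mul_one]
    simp
  rw [h1]
  refine ⟨by simp, by simp, by simp⟩

theorem tM_smul (c : F) (X : M2 F) : tM τ (c • X) = τ c • tM τ X := by
  ext i j
  simp

/-- the norm of a scalar -/
def Nsc (c : F) : F := c * τ c * τ (τ c)

theorem tau_Nsc (hτ3 : ∀ a, τ (τ (τ a)) = a) (c : F) : τ (Nsc τ c) = Nsc τ c := by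
  unfold Nsc
  rw [map_mul, map_mul, hτ3]
  ring

theorem Nsc_ne_zero {c : F} (hc : c ≠ 0) : Nsc τ c ≠ 0 :=
  mul_ne_zero (mul_ne_zero hc ((map_ne_zero τ).mpr hc))
    ((map_ne_zero τ).mpr ((map_ne_zero τ).mpr hc))

/-- The data `(c, k, y)` of the near-identity structure: `δ = c k y τ(y)⁻¹`. -/
structure NearData (ρ : ℝ) (γ δ : M2 F) (c : F) (k y : M2 F) : Prop where
  c_ne : c ≠ 0
  fix : tM τ k = k
  comm : k * γ = γ * k
  small : SS ρ (k - 1)
  unit : IsUnit y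
  commy : y * γ = γ * y
  eq : δ * tM τ y = c • (k * y)
  cube : Nsc τ c • k ^ 3 = γ

variable {τ}

/-- **Step B.** From one `w` with `δ τ(w) = c w h`, `h` rational and spectrally near one. -/
theorem nearData_of_w (hτ3 : ∀ a, τ (τ (τ a)) = a) {γ δ : M2 F} (hγτ : tM τ γ = γ)
    (hns : ¬ IsScalar γ) (hN : δ * tM τ δ * tM τ (tM τ δ) = γ)
    {ρ : ℝ} {c : F} (hc : c ≠ 0) {w h : M2 F} (hw : IsUnit w) (hh : tM τ h = h)
    (hs : SS ρ (h - 1)) (heq : δ * tM τ w = c • (w * h)) :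
    ∃ k y P : M2 F, NearData τ ρ γ δ c k y ∧ IsUnit P ∧ tM τ P = P ∧ w = y * P ∧ k * P = P * h := by
  -- `γ w = N(c) w h³`
  have e1 : tM τ δ * tM τ (tM τ w) = τ c • (tM τ w * h) := by
    rw [← map_mul, heq, tM_smul, map_mul, hh]
  have hw3 : tM τ (tM τ (tM τ w)) = w := by ext i j; simp [hτ3]
  have e2 : tM τ (tM τ δ) * w = τ (τ c) • (tM τ (tM τ w) * h) := by
    have := congrArg (tM τ) e1
    rw [map_mul, hw3, tM_smul, map_mul, hh] at this
    exact this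
  have e3 : γ * w = Nsc τ c • (w * h ^ 3) := by
    rw [← hN, mul_assoc, e2, mul_smul_comm, mul_assoc, ← mul_assoc (tM τ δ), e1, smul_mul_assoc,
      mul_smul_comm, ← mul_assoc, ← mul_assoc, heq, smul_mul_assoc, smul_mul_assoc, smul_smul,
      smul_smul]
    unfold Nsc
    congr 1
    · ring
    · rw [pow_succ, pow_two]; simp only [mul_assoc]
  obtain ⟨w', hww', hw'w⟩ := exists_inv hw
  set B := Nsc τ c • h ^ 3 with hB
  have e4 : γ * w = w * B := by rw [e3, hB, mul_smul_comm]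
  have e5 : B = w' * γ * w := by
    calc B = (w' * w) * B := by rw [hw'w, one_mul]
      _ = w' * (w * B) := by rw [mul_assoc]
      _ = w' * γ * w := by rw [← e4, mul_assoc]
  have hBτ : tM τ B = B := by
    rw [hB, tM_smul, tau_Nsc τ hτ3, map_pow, hh]
  have hBns : ¬ IsScalar B := by
    intro hsc
    apply hns
    have h1 := hsc.conj hww'
    have h2 : w * B * w' = γ := by rw [← e4, mul_assoc, hww', mul_one]
    rwa [h2] at h1
  have htr : γ.trace = B.trace := by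
    rw [e5, Matrix.trace_mul_comm, ← mul_assoc, hww', one_mul]
  have hdet : γ.det = B.det := by
    rw [e5, Matrix.det_mul, Matrix.det_mul]
    have : w'.det * w.det = 1 := by rw [← Matrix.det_mul, hw'w, Matrix.det_one]
    linear_combination -γ.det * this
  obtain ⟨P, hP, hPτ, hPeq⟩ := exists_conj_fixed_of_trace τ hns hBns hγτ hBτ htr hdet
  obtain ⟨P', hPP', hP'P⟩ := exists_inv hP
  have hP'τ : tM τ P' = P' := by
    have h1 : tM τ P' * P = 1 := by
      have : tM τ P' * tM τ P = 1 := by rw [← map_mul, hP'P, map_one]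
      rwa [hPτ] at this
    calc tM τ P' = tM τ P' * (P * P') := by rw [hPP', mul_one]
      _ = (tM τ P' * P) * P' := by rw [mul_assoc]
      _ = P' := by rw [h1, one_mul]
  set y := w * P' with hy
  set k := P * h * P' with hk
  have hyγ : y * γ = γ * y := by
    have h1 : P' * γ = B * P' := by
      calc P' * γ = P' * γ * (P * P') := by rw [hPP', mul_one]
        _ = P' * (γ * P) * P' := by simp only [mul_assoc]
        _ = (P' * P) * B * P' := by rw [hPeq]; simp only [mul_assoc]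
        _ = B * P' := by rw [hP'P, one_mul]
    rw [hy, mul_assoc, h1, ← mul_assoc, ← e4, mul_assoc]
  have hcube : Nsc τ c • k ^ 3 = γ := by
    have h1 : k ^ 3 = P * h ^ 3 * P' := by
      rw [hk, pow_succ, pow_two]
      calc P * h * P' * (P * h * P') * (P * h * P')
          = P * h * (P' * P) * h * (P' * P) * h * P' := by simp only [mul_assoc]
        _ = P * h ^ 3 * P' := by rw [hP'P, pow_succ, pow_two]; simp only [mul_assoc, mul_one]
    calc Nsc τ c • k ^ 3 = P * B * P' := by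
          rw [h1, hB, mul_smul_comm, smul_mul_assoc]
      _ = γ * (P * P') := by rw [← hPeq, mul_assoc]
      _ = γ := by rw [hPP', mul_one]
  have hkγ : k * γ = γ * k := by
    rw [← hcube, mul_smul_comm, smul_mul_assoc]
    congr 1
    rw [← pow_succ', ← pow_succ]
  have hyk : y * k = k * y := commute_of_nonscalar hns hyγ hkγ
  refine ⟨k, y, P, ⟨hc, ?_, hkγ, ?_, ?_, hyγ, ?_, hcube⟩, hP, hPτ, ?_, ?_⟩
  · rw [hk, map_mul, map_mul, hPτ, hh, hP'τ]
  · have : k - 1 = P * (h - 1) * P' := by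
      rw [mul_sub, sub_mul, mul_one, hPP']
    rw [this]
    exact hs.conj hPP'
  · exact hw.mul (isUnit_of_mul hP'P)
  · rw [hy, map_mul, hP'τ, ← mul_assoc, heq, smul_mul_assoc, ← hy, ← hyk, hy, hk]
    congr 1
    calc w * h * P' = w * (P' * P) * h * P' := by rw [hP'P, mul_one]
      _ = w * P' * (P * h * P') := by simp only [mul_assoc]
  · rw [hy, mul_assoc, hP'P, mul_one]
  · rw [hk, mul_assoc, hP'P, mul_one]

/-- **Step A + B.** -/
theorem nearData_of_x (h3 : (3 : F) ≠ 0) (hτ3 : ∀ a, τ (τ (τ a)) = a) (hτn : ∀ a, ‖τ a‖ = ‖a‖)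
    {γ δ : M2 F} (hγτ : tM τ γ = γ)
    (hns : ¬ IsScalar γ) (hN : δ * tM τ δ * tM τ (tM τ δ) = γ)
    {r : ℝ} (hr : ‖(3 : F)⁻¹‖ ^ 2 * r < 1) {c : F} (hc : c ≠ 0) {x d : M2 F} (hx : IsUnit x)
    (hd : ‖d - 1‖ ≤ r) (heq : δ * tM τ x = c • (x * d)) :
    ∃ k y g u h : M2 F, NearData τ (‖(3 : F)⁻¹‖ * r) γ δ c k y ∧ IsUnit g ∧ tM τ g = g ∧
      ‖u - 1‖ ≤ ‖(3 : F)⁻¹‖ ^ 2 * r ∧ x = y * g * u ∧ k * g = g * h ∧ tM τ h = h ∧
      ‖h - 1‖ ≤ ‖(3 : F)⁻¹‖ * r := by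
  have ht := isThird_mat h3
  have htn := norm_third_mat (F := F)
  have hr' : ‖((3 : F)⁻¹ • (1 : M2 F))‖ ^ 2 * r < 1 := by rw [htn]; exact hr
  have hτt : tM τ ((3 : F)⁻¹ • (1 : M2 F)) = (3 : F)⁻¹ • (1 : M2 F) := by
    rw [tM_smul, map_one, map_inv₀, map_ofNat]
  obtain ⟨v, h, hvu, -, hv1, hh1, hhτ, hveq⟩ := exists_conj_fixed (tM τ) ht hτt
    (fun X => by ext i j; simp [hτ3]) (norm_tM τ hτn) hr' hd
  rw [htn] at hv1 hh1
  obtain ⟨v', hvv', hv'v⟩ := exists_inv hvu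
  have hw : δ * tM τ (x * v) = c • (x * v * h) := by
    rw [map_mul, ← mul_assoc, heq, smul_mul_assoc, mul_assoc, hveq, mul_assoc]
  obtain ⟨k, y, P, hdata, hP, hPτ, hwy, hkP⟩ := nearData_of_w hτ3 hγτ hns hN hc
    (hx.mul hvu) hhτ (ss_of_norm hh1) hw
  refine ⟨k, y, P, v', h, hdata, hP, hPτ, ?_, ?_, hkP, hhτ, hh1⟩
  · have h4 : ‖(3 : F)⁻¹‖ ^ 2 * r < 1 := hr
    exact norm_inv_sub_one_le h4 hv1 hvv'
  · rw [← hwy, mul_assoc, hvv', mul_one]

/-- **(L1), second alternative**: a rational near cube root of `γ` up to a rational scalar. -/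
theorem nearData_of_cube (hτ3 : ∀ a, τ (τ (τ a)) = a) (hτ1 : ∃ a, τ a ≠ a)
    {γ δ : M2 F} (hγτ : tM τ γ = γ) (hns : ¬ IsScalar γ) (hδγ : δ * γ = γ * δ)
    (hδ : IsUnit δ) (hN : δ * tM τ δ * tM τ (tM τ δ) = γ)
    {ρ : ℝ} {c₀ : F} (hc₀ : c₀ ≠ 0) (hc₀τ : τ c₀ = c₀) {k : M2 F} (hk : IsUnit k)
    (hkτ : tM τ k = k) (hkγ : k * γ = γ * k) (hs : SS ρ (k - 1)) (hcube : c₀ • k ^ 3 = γ) :
    ∃ (c : F) (y : M2 F), NearData τ ρ γ δ c k y := by
  obtain ⟨k', hkk', hk'k⟩ := exists_inv hk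
  have hk'τ : tM τ k' = k' := by
    have h1 : tM τ k' * k = 1 := by
      have : tM τ k' * tM τ k = 1 := by rw [← map_mul, hk'k, map_one]
      rwa [hkτ] at this
    calc tM τ k' = tM τ k' * (k * k') := by rw [hkk', mul_one]
      _ = (tM τ k' * k) * k' := by rw [mul_assoc]
      _ = k' := by rw [h1, one_mul]
  have hδk : δ * k = k * δ := commute_of_nonscalar hns hδγ hkγ
  have hk'γ : k' * γ = γ * k' := by
    calc k' * γ = k' * γ * (k * k') := by rw [hkk', mul_one]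
      _ = k' * (γ * k) * k' := by simp only [mul_assoc]
      _ = (k' * k) * γ * k' := by rw [← hkγ]; simp only [mul_assoc]
      _ = γ * k' := by rw [hk'k, one_mul]
  have hτδγ : tM τ δ * γ = γ * tM τ δ := by
    have := congrArg (tM τ) hδγ
    rwa [map_mul, map_mul, hγτ] at this
  have hττδγ : tM τ (tM τ δ) * γ = γ * tM τ (tM τ δ) := by
    have := congrArg (tM τ) hτδγ
    rwa [map_mul, map_mul, hγτ] at this
  have a1 : k' * tM τ δ = tM τ δ * k' := commute_of_nonscalar hns hk'γ hτδγ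
  have a2 : k' * tM τ (tM τ δ) = tM τ (tM τ δ) * k' := commute_of_nonscalar hns hk'γ hττδγ
  have a3 : k' * δ = δ * k' := commute_of_nonscalar hns hk'γ hδγ
  set e := δ * k' with he
  have heγ : e * γ = γ * e := by rw [he, mul_assoc, hk'γ, ← mul_assoc, hδγ, mul_assoc]
  -- norm of `e`
  have hNe : e * tM τ e * tM τ (tM τ e) = c₀ • (1 : M2 F) := by
    have h1 : e * tM τ e * tM τ (tM τ e) = γ * (k' * (k' * k')) := by
      rw [he, map_mul, map_mul, hk'τ, hk'τ, ← hN]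
      calc δ * k' * (tM τ δ * k') * (tM τ (tM τ δ) * k')
          = δ * (k' * tM τ δ) * (k' * tM τ (tM τ δ)) * k' := by simp only [mul_assoc]
        _ = δ * tM τ δ * (k' * tM τ (tM τ δ)) * (k' * k') := by
            rw [a1, a2]
            calc δ * (tM τ δ * k') * (tM τ (tM τ δ) * k') * k'
                = δ * tM τ δ * (k' * tM τ (tM τ δ)) * (k' * k') := by simp only [mul_assoc]
              _ = δ * tM τ δ * (tM τ (tM τ δ) * k') * (k' * k') := by rw [a2]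
        _ = δ * tM τ δ * tM τ (tM τ δ) * (k' * (k' * k')) := by rw [a2]; simp only [mul_assoc]
    rw [h1, ← hcube, smul_mul_assoc]
    congr 1
    calc k ^ 3 * (k' * (k' * k')) = k * (k * (k * k') * k') * k' := by
          rw [pow_succ, pow_two]; simp only [mul_assoc]
      _ = 1 := by rw [hkk', mul_one, hkk', mul_one, hkk']
  have heu : IsUnit e := hδ.mul (isUnit_of_mul hk'k)
  set ε := e.det with hε
  have hε0 : ε ≠ 0 := by
    rw [Matrix.isUnit_iff_isUnit_det] at heu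
    exact heu.ne_zero
  have hdetτ : ∀ X : M2 F, (tM τ X).det = τ X.det := by
    intro X
    rw [Matrix.det_fin_two, Matrix.det_fin_two, map_sub, map_mul, map_mul]
    rfl
  have hNε : ε * τ ε * τ (τ ε) = c₀ ^ 2 := by
    have := congrArg Matrix.det hNe
    rw [Matrix.det_mul, Matrix.det_mul, hdetτ, hdetτ, hdetτ, Matrix.det_smul, Fintype.card_fin,
      Matrix.det_one, mul_one] at this
    exact this
  set c := c₀ * ε⁻¹ with hcdef
  have hc : c ≠ 0 := mul_ne_zero hc₀ (inv_ne_zero hε0)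
  have hNc : Nsc τ c = c₀ := by
    have h1 : τ ε ≠ 0 := (map_ne_zero τ).mpr hε0
    have h2 : τ (τ ε) ≠ 0 := (map_ne_zero τ).mpr h1
    unfold Nsc
    rw [hcdef]
    simp only [map_mul, map_inv₀, hc₀τ]
    field_simp
    linear_combination -hNε
  set e' := c⁻¹ • e with he'
  have hNe' : e' * tM τ e' * tM τ (tM τ e') = 1 := by
    have h1 : e' * tM τ e' * tM τ (tM τ e') =
        (c⁻¹ * τ c⁻¹ * τ (τ c⁻¹)) • (e * tM τ e * tM τ (tM τ e)) := by
      rw [he', tM_smul, tM_smul, smul_mul_smul_comm, smul_mul_smul_comm]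
    have h2 : c⁻¹ * τ c⁻¹ * τ (τ c⁻¹) = (Nsc τ c)⁻¹ := by
      unfold Nsc
      simp only [map_inv₀, mul_inv]
    rw [h1, hNe, h2, hNc, smul_smul, inv_mul_cancel₀ hc₀, one_smul]
  obtain ⟨w, hw, hwe⟩ := hilbert90_GL2 τ hτ3 hτ1 hNe'
  obtain ⟨w', hww', hw'w⟩ := exists_inv hw
  -- `δ τ(w) = c k w = c w h`
  have hek : e * k = δ := by rw [he, mul_assoc, hk'k, mul_one]
  have hkδ' : k * e = δ := by rw [he, ← mul_assoc, ← hδk, mul_assoc, hkk', mul_one]
  have hcw : e * tM τ w = c • w := by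
    have h1 : e = c • e' := by rw [he', smul_smul, mul_inv_cancel₀ hc, one_smul]
    rw [h1, smul_mul_assoc, hwe]
  have hδw : δ * tM τ w = c • (k * w) := by
    rw [← hkδ', mul_assoc, hcw, mul_smul_comm]
  set h := w' * k * w with hh
  have hwh : w * h = k * w := by rw [hh, ← mul_assoc, ← mul_assoc, hww', one_mul]
  have hhτ : tM τ h = h := by
    have e1 : tM τ w' * tM τ w = 1 := by rw [← map_mul, hw'w, map_one]
    have e2 : e' * tM τ w * (w' * 1) = 1 := by rw [hwe, mul_one, hww']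
    have e3 : tM τ w * w' * e' = 1 := by
      have h1 : e' * (tM τ w * w') = 1 := by rw [← mul_assoc]; simpa using e2
      exact mul_eq_one_comm.mp h1
    have e'k : e' * k = k * e' := by
      rw [he', smul_mul_assoc, mul_smul_comm, hek, hkδ']
    -- `τ w' = w' e'`
    have e4 : tM τ w' = w' * e' := by
      calc tM τ w' = tM τ w' * (tM τ w * w' * e') := by rw [e3, mul_one]
        _ = (tM τ w' * tM τ w) * (w' * e') := by simp only [mul_assoc]
        _ = w' * e' := by rw [e1, one_mul]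
    calc tM τ h = tM τ w' * k * tM τ w := by rw [hh, map_mul, map_mul, hkτ]
      _ = w' * (e' * k) * tM τ w := by rw [e4]; simp only [mul_assoc]
      _ = w' * k * (e' * tM τ w) := by rw [e'k]; simp only [mul_assoc]
      _ = h := by rw [hwe]
  have hsh : SS ρ (h - 1) := by
    have : h - 1 = w' * (k - 1) * w := by
      rw [hh, mul_sub, sub_mul, mul_one, hw'w]
    rw [this]
    exact hs.conj hw'w
  obtain ⟨k₁, y, P, hdata, hP, hPτ, hwy, hkP⟩ := nearData_of_w hτ3 hγτ hns hN hc hw hhτ hsh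
    (by rw [hδw, hwh])
  -- `k₁ = k`
  have hkk : k₁ = k := by
    -- `k₁ = P h P⁻¹`, `w = y P`, `k = w h w⁻¹ = y k₁ y⁻¹ = k₁`
    have c1 : k₁ * y = y * k₁ := commute_of_nonscalar hns hdata.comm hdata.commy
    have c2 : k * w = k₁ * w := by
      rw [← hwh, hwy, mul_assoc, ← hkP, ← mul_assoc, ← c1, mul_assoc]
    calc k₁ = k₁ * (w * w') := by rw [hww', mul_one]
      _ = (k₁ * w) * w' := by rw [mul_assoc]
      _ = k := by rw [← c2, mul_assoc, hww', mul_one]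
  rw [hkk] at hdata
  exact ⟨c, y, hdata⟩

/-- conjugate by `y`: the value of `x⁻¹ δ τ(x)` at `x = b y g u` -/
theorem NearData.eval {ρ : ℝ} {γ δ : M2 F} {c : F} {k y : M2 F}
    (hd : NearData τ ρ γ δ c k y) (hγ : ¬ IsScalar γ) {b : F} (hb : b ≠ 0) {g g' u u' : M2 F}
    (hgg' : g * g' = 1) (hgτ : tM τ g = g) (huu' : u * u' = 1) :
    δ * tM τ (b • (y * g * u)) =
      (τ b * c * b⁻¹) • ((b • (y * g * u)) * (u' * (g' * k * g) * tM τ u)) := by
  have hyk : k * y = y * k := commute_of_nonscalar hγ hd.comm hd.commy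
  have e1 : (y * g * u) * (u' * (g' * k * g) * tM τ u) = y * k * g * tM τ u := by
    calc (y * g * u) * (u' * (g' * k * g) * tM τ u)
        = y * g * (u * u') * g' * k * g * tM τ u := by simp only [mul_assoc]
      _ = y * (g * g') * k * g * tM τ u := by rw [huu', mul_one]; simp only [mul_assoc]
      _ = y * k * g * tM τ u := by rw [hgg', mul_one]
  rw [tM_smul, map_mul, map_mul, hgτ, smul_mul_assoc b, e1, mul_smul_comm, ← mul_assoc,
    ← mul_assoc, hd.eq, smul_mul_assoc, smul_mul_assoc, hyk, smul_smul, smul_smul]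
  congr 1
  field_simp

/-- **(L2)**: the support lies in one double coset `F^× y GL₂(K_v) U`. -/
theorem NearData.exists_decomp (h3 : (3 : F) ≠ 0) (h2 : (2 : F) ≠ 0)
    (hτ3 : ∀ a, τ (τ (τ a)) = a) (hτn : ∀ a, ‖τ a‖ = ‖a‖)
    {γ δ : M2 F} (hγτ : tM τ γ = γ)
    (hns : ¬ IsScalar γ) (hN : δ * tM τ δ * tM τ (tM τ δ) = γ)
    {r : ℝ} (hr : ‖(3 : F)⁻¹‖ ^ 2 * (‖(2 : F)⁻¹‖ * (‖(3 : F)⁻¹‖ * r)) < 1)
    {c : F} {k y : M2 F} (hdata : NearData τ (‖(3 : F)⁻¹‖ * r) γ δ c k y)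
    {c' : F} (hc' : c' ≠ 0) {x d : M2 F} (hx : IsUnit x)
    (hd : ‖d - 1‖ ≤ r) (heq : δ * tM τ x = c' • (x * d)) :
    ∃ (b : F) (g u : M2 F), b ≠ 0 ∧ IsUnit g ∧ tM τ g = g ∧ ‖u - 1‖ ≤ ‖(3 : F)⁻¹‖ ^ 2 * r ∧
      x = b • (y * g * u) := by
  have hC : 1 ≤ ‖(3 : F)⁻¹‖ := (isThird_field h3).one_le_norm
  have hD : 1 ≤ ‖(2 : F)⁻¹‖ := by
    rw [norm_inv]
    exact (one_le_inv₀ (norm_pos_iff.mpr h2)).mpr norm_two_le
  have hr0 : 0 ≤ r := (norm_nonneg _).trans hd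
  have hr' : ‖(3 : F)⁻¹‖ ^ 2 * r < 1 := by
    refine lt_of_le_of_lt ?_ hr
    refine mul_le_mul_of_nonneg_left ?_ (by positivity)
    have h1 : r ≤ ‖(3 : F)⁻¹‖ * r := by nlinarith
    have h4 : 0 ≤ ‖(3 : F)⁻¹‖ * r := by positivity
    nlinarith
  obtain ⟨k₁, y₁, g₁, u₁, h₁, hdata₁, hg₁, hg₁τ, hu₁, hxe, -, -, -⟩ :=
    nearData_of_x h3 hτ3 hτn hγτ hns hN hr' hc' hx hd heq
  have hNc := Nsc_ne_zero τ hdata.c_ne
  have hkk : k * k₁ = k₁ * k := commute_of_nonscalar hns hdata.comm hdata₁.comm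
  have hcub : k ^ 3 = (Nsc τ c' / Nsc τ c) • k₁ ^ 3 := by
    have h1 : Nsc τ c • k ^ 3 = Nsc τ c' • k₁ ^ 3 := by rw [hdata.cube, hdata₁.cube]
    calc k ^ 3 = (Nsc τ c)⁻¹ • (Nsc τ c • k ^ 3) := by
          rw [smul_smul, inv_mul_cancel₀ hNc, one_smul]
      _ = _ := by rw [h1, smul_smul]; congr 1; rw [div_eq_inv_mul]
  obtain ⟨s, hs0, -, hs1, hks⟩ := compare_cube_roots h3 h2 hr hdata.small hdata₁.small hkk hcub
  obtain ⟨yi, hyyi, hyiy⟩ := exists_inv hdata.unit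
  set z := yi * y₁ with hz
  have hyz : y₁ = y * z := by rw [hz, ← mul_assoc, hyyi, one_mul]
  have hzu : IsUnit z := (isUnit_of_mul hyiy).mul hdata₁.unit
  -- `k₁` is a unit
  have hρ1 : ‖(3 : F)⁻¹‖ * r < 1 := by
    have h4 : 0 ≤ ‖(3 : F)⁻¹‖ * r := by positivity
    have h5 : ‖(3 : F)⁻¹‖ * r ≤ ‖(2 : F)⁻¹‖ * (‖(3 : F)⁻¹‖ * r) := by nlinarith
    have h6 : 0 ≤ ‖(2 : F)⁻¹‖ * (‖(3 : F)⁻¹‖ * r) := by positivity
    have h7 : ‖(2 : F)⁻¹‖ * (‖(3 : F)⁻¹‖ * r) ≤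
        ‖(3 : F)⁻¹‖ ^ 2 * (‖(2 : F)⁻¹‖ * (‖(3 : F)⁻¹‖ * r)) := by
      have : 1 ≤ ‖(3 : F)⁻¹‖ ^ 2 := one_le_pow₀ hC
      nlinarith
    linarith
  have hk₁u : IsUnit k₁ := by
    have := hdata₁.small.isUnit_one_add hρ1
    rwa [add_sub_cancel] at this
  have hky : IsUnit (k₁ * y) := hk₁u.mul hdata.unit
  have hcs : c * s ≠ 0 := mul_ne_zero hdata.c_ne hs0
  have hτz : tM τ z = (c' / (c * s)) • z := by
    have e1 := hdata₁.eq
    rw [hyz, map_mul, ← mul_assoc, hdata.eq, hks] at e1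
    have e2 : (c * s) • ((k₁ * y) * tM τ z) = c' • ((k₁ * y) * z) := by
      calc (c * s) • ((k₁ * y) * tM τ z) = c • (s • k₁ * y) * tM τ z := by
            rw [smul_mul_assoc, smul_mul_assoc, smul_mul_assoc, smul_smul]
        _ = c' • ((k₁ * y) * z) := by rw [e1, mul_assoc]
    have e3 : (k₁ * y) * tM τ z = (k₁ * y) * ((c' / (c * s)) • z) := by
      rw [mul_smul_comm]
      calc (k₁ * y) * tM τ z = (c * s)⁻¹ • ((c * s) • ((k₁ * y) * tM τ z)) := by
            rw [smul_smul, inv_mul_cancel₀ hcs, one_smul]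
        _ = _ := by rw [e2, smul_smul]; congr 1; rw [div_eq_inv_mul]
    exact hky.mul_left_cancel e3
  obtain ⟨i, j, hij⟩ : ∃ i j, z i j ≠ 0 := by
    by_contra hcon
    push Not at hcon
    have h0 : z = 0 := by ext i j; exact hcon i j
    rw [h0] at hzu
    exact not_isUnit_zero hzu
  set b := z i j with hb
  have hτb : τ b = (c' / (c * s)) * b := by
    have := congrFun (congrFun hτz i) j
    simpa using this
  have hq : c' / (c * s) ≠ 0 := div_ne_zero hc' hcs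
  have hz0 : tM τ (b⁻¹ • z) = b⁻¹ • z := by
    have hc0 := hdata.c_ne
    rw [tM_smul, hτz, map_inv₀, hτb, smul_smul]
    congr 1
    field_simp
  refine ⟨b, (b⁻¹ • z) * g₁, u₁, hij, ?_, ?_, hu₁, ?_⟩
  · refine IsUnit.mul ?_ hg₁
    obtain ⟨zi, hzzi, -⟩ := exists_inv hzu
    refine isUnit_of_mul (Y := b • zi) ?_
    rw [smul_mul_smul_comm, inv_mul_cancel₀ hij, one_smul, hzzi]
  · rw [map_mul, hz0, hg₁τ]
  · rw [hxe, hyz, smul_mul_assoc, mul_smul_comm, smul_mul_assoc, smul_smul,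
      mul_inv_cancel₀ hij, one_smul]
    simp only [mul_assoc]

/-- **(L3)**: uniqueness of the rational near cube root up to a scalar near one. -/
theorem NearData.exists_scalar (h3 : (3 : F) ≠ 0) (h2 : (2 : F) ≠ 0)
    (hτ3 : ∀ a, τ (τ (τ a)) = a) (hτn : ∀ a, ‖τ a‖ = ‖a‖)
    {γ δ : M2 F} (hns : ¬ IsScalar γ)
    {ρ : ℝ} (hρ : ‖(3 : F)⁻¹‖ ^ 2 * (‖(2 : F)⁻¹‖ * ρ) < 1)
    {c : F} {k y : M2 F} (hdata : NearData τ ρ γ δ c k y)
    {c₀ : F} (hc₀τ : τ c₀ = c₀) {g h : M2 F} (hg : IsUnit g)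
    (hs : SS ρ (h - 1)) (heq : γ * g = c₀ • (g * h ^ 3)) :
    ∃ s : F, s ≠ 0 ∧ τ s = s ∧ ‖s - 1‖ ≤ ‖(3 : F)⁻¹‖ * (‖(2 : F)⁻¹‖ * ρ) ∧ k * g = s • (g * h) := by
  obtain ⟨g', hgg', hg'g⟩ := exists_inv hg
  set k₁ := g * h * g' with hk₁
  have hNc := Nsc_ne_zero τ hdata.c_ne
  have hcube : c₀ • k₁ ^ 3 = γ := by
    have h1 : k₁ ^ 3 = g * h ^ 3 * g' := by
      rw [hk₁, pow_succ, pow_two]
      calc g * h * g' * (g * h * g') * (g * h * g')
          = g * h * (g' * g) * h * (g' * g) * h * g' := by simp only [mul_assoc]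
        _ = g * h ^ 3 * g' := by rw [hg'g, pow_succ, pow_two]; simp only [mul_assoc, mul_one]
    calc c₀ • k₁ ^ 3 = (c₀ • (g * h ^ 3)) * g' := by rw [h1, smul_mul_assoc]
      _ = γ := by rw [← heq, mul_assoc, hgg', mul_one]
  have hk₁γ : k₁ * γ = γ * k₁ := by
    rw [← hcube, mul_smul_comm, smul_mul_assoc]
    congr 1
    rw [← pow_succ', ← pow_succ]
  have hkk : k * k₁ = k₁ * k := commute_of_nonscalar hns hdata.comm hk₁γ
  have hcub : k ^ 3 = (c₀ / Nsc τ c) • k₁ ^ 3 := by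
    have h1 : Nsc τ c • k ^ 3 = c₀ • k₁ ^ 3 := by rw [hdata.cube, hcube]
    calc k ^ 3 = (Nsc τ c)⁻¹ • (Nsc τ c • k ^ 3) := by
          rw [smul_smul, inv_mul_cancel₀ hNc, one_smul]
      _ = _ := by rw [h1, smul_smul]; congr 1; rw [div_eq_inv_mul]
  have hs₁ : SS ρ (k₁ - 1) := by
    have : k₁ - 1 = g * (h - 1) * g' := by rw [mul_sub, sub_mul, mul_one, hgg']
    rw [this]
    exact hs.conj hgg'
  have hρ0 := hs.nonneg
  have hDρ : 0 ≤ ‖(2 : F)⁻¹‖ * ρ := by positivity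
  obtain ⟨r1, r2, r3⟩ := radius_aux (isThird_field h3) hDρ hρ
  obtain ⟨s, hs0, hs3, hs1, hks⟩ := compare_cube_roots h3 h2 hρ hdata.small hs₁ hkk hcub
  refine ⟨s, hs0, ?_, hs1, ?_⟩
  · refine fixed_of_cube τ h3 hτn r1 r3 hs1 hs3 ?_
    rw [map_div₀, hc₀τ, tau_Nsc τ hτ3]
  · rw [hks, smul_mul_assoc, hk₁, mul_assoc, hg'g, mul_one]

end Fermat.Agent.LT.Near
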