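import Fermat.Agent.LT.CompCor
import Fermat.Agent.LT.Near.Local

/-!
# The completion `L_w` at a non-split place satisfies the hypotheses of `Near.Local`

* `norm_le_rad_iff`, `mat_norm_le_rad_iff`: the balls of radius `rad w n = N(w)^(-n)` in terms of
  the valuation; `exists_rad_lt`.
* `tauW σ h`: the automorphism of `L_w` given by `σ` with `σ w = w`; isometric, of order three,
  non trivial, with fixed field `K_v`.
-/

set_option autoImplicit false

open IsDedekindDomain NumberField Matrix WithZero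
open scoped WithZero Topology Pointwise

namespace Fermat.Agent.LT.Near

open Fermat.Agent.LT.Ext

attribute [local instance] matNormedRing matNormOne matUltra matComplete

section Rad

variable {L : Type*} [Field L] [NumberField L] (w : HeightOneSpectrum (𝓞 L))

theorem norm_le_iff_v {x y : w.adicCompletion L} : ‖x‖ ≤ ‖y‖ ↔ Valued.v x ≤ Valued.v y :=
  Valued.toNormedField.norm_le_iff

theorem norm_lt_iff_v {x y : w.adicCompletion L} : ‖x‖ < ‖y‖ ↔ Valued.v x < Valued.v y :=
  Valued.toNormedField.norm_lt_iff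

theorem norm_eq_iff_v {x y : w.adicCompletion L} : ‖x‖ = ‖y‖ ↔ Valued.v x = Valued.v y := by
  rw [le_antisymm_iff, le_antisymm_iff, norm_le_iff_v, norm_le_iff_v]

/-- the radius `N(w)^(-n)` -/
noncomputable def rad (n : ℕ) : ℝ := ((Ideal.absNorm w.asIdeal : ℝ)⁻¹) ^ n

theorem one_lt_norm_w : 1 < (Ideal.absNorm w.asIdeal : ℝ) :=
  mod_cast HeightOneSpectrum.one_lt_absNorm w

theorem rad_pos (n : ℕ) : 0 < rad w n :=
  pow_pos (inv_pos.mpr (zero_lt_one.trans (one_lt_norm_w w))) n

theorem rad_zero : rad w 0 = 1 := pow_zero _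

theorem rad_le_one (n : ℕ) : rad w n ≤ 1 :=
  pow_le_one₀ (inv_pos.mpr (zero_lt_one.trans (one_lt_norm_w w))).le
    (inv_le_one_of_one_le₀ (one_lt_norm_w w).le)

theorem rad_add (m n : ℕ) : rad w (m + n) = rad w m * rad w n := pow_add _ _ _

theorem rad_anti {m n : ℕ} (h : m ≤ n) : rad w n ≤ rad w m :=
  pow_le_pow_of_le_one (inv_pos.mpr (zero_lt_one.trans (one_lt_norm_w w))).le
    (inv_le_one_of_one_le₀ (one_lt_norm_w w).le) h

theorem exists_rad_lt {ε : ℝ} (hε : 0 < ε) : ∃ n, rad w n < ε :=
  exists_pow_lt_of_lt_one hε (inv_lt_one_of_one_lt₀ (one_lt_norm_w w))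

theorem norm_of_v {x : w.adicCompletion L} {n : ℤ} (h : Valued.v x = WithZero.exp n) :
    ‖x‖ = (Ideal.absNorm w.asIdeal : ℝ) ^ n := by
  rw [FinitePlace.norm_def, h]
  rw [WithZeroMulInt.toNNReal_neg_apply _ WithZero.exp_ne_zero]
  push_cast
  rfl

theorem norm_le_rad_iff {x : w.adicCompletion L} {n : ℕ} :
    ‖x‖ ≤ rad w n ↔ Valued.v x ≤ WithZero.exp (-(n : ℤ)) := by
  obtain ⟨y, hy⟩ := surjective_v' (v := w) (K := L) (WithZero.exp (-(n : ℤ)))
  have h : ‖y‖ = rad w n := by
    rw [norm_of_v w hy, rad, _root_.zpow_neg, zpow_natCast, inv_pow]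
  rw [← h, norm_le_iff_v, hy]

theorem mat_norm_le_rad_iff {X : M2 (w.adicCompletion L)} {n : ℕ} :
    ‖X‖ ≤ rad w n ↔ ∀ i j, Valued.v (X i j) ≤ WithZero.exp (-(n : ℤ)) := by
  rw [mat_norm_le_iff (rad_pos w n).le]
  simp only [norm_le_rad_iff]

theorem natCast_ne_zero_w {m : ℕ} (hm : m ≠ 0) : (m : w.adicCompletion L) ≠ 0 := by
  have h : (m : L) ≠ 0 := Nat.cast_ne_zero.mpr hm
  rw [← map_natCast (algebraMap L (w.adicCompletion L))]
  exact (map_ne_zero _).mpr h

theorem three_ne_zero_w : (3 : w.adicCompletion L) ≠ 0 := by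
  have := natCast_ne_zero_w w (m := 3) (by norm_num)
  exact_mod_cast this

theorem two_ne_zero_w : (2 : w.adicCompletion L) ≠ 0 := by
  have := natCast_ne_zero_w w (m := 2) (by norm_num)
  exact_mod_cast this

/-- the radius condition holds for all sufficiently deep levels -/
theorem exists_level (C : ℝ) : ∃ n₀ : ℕ, ∀ n ≥ n₀, C * rad w n < 1 := by
  obtain ⟨n₀, hn₀⟩ := exists_rad_lt w (ε := (|C| + 1)⁻¹) (by positivity)
  refine ⟨n₀, fun n hn => ?_⟩
  have h1 : rad w n < (|C| + 1)⁻¹ := (rad_anti w hn).trans_lt hn₀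
  have h2 : C * rad w n ≤ |C| * rad w n :=
    mul_le_mul_of_nonneg_right (le_abs_self C) (rad_pos w n).le
  have h3 : 0 < |C| + 1 := by positivity
  have h4 : (|C| + 1) * rad w n < 1 := by
    have := mul_lt_mul_of_pos_left h1 h3
    rwa [mul_inv_cancel₀ h3.ne'] at this
  have h5 := rad_pos w n
  nlinarith

end Rad

section Tau

variable {K L : Type*} [Field K] [Field L] [NumberField K] [NumberField L] [Algebra K L]
  {w : HeightOneSpectrum (𝓞 L)} {G : Type*} [Group G] [MulSemiringAction G L]

omit [NumberField L] in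
theorem inv_smul_w {σ : G} (h : σ • w = w) : σ⁻¹ • w = w := by rw [inv_smul_eq_iff, h]

/-- The automorphism of `L_w` attached to an element of the decomposition group. -/
noncomputable def tauW (σ : G) (h : σ • w = w) : w.adicCompletion L ≃+* w.adicCompletion L :=
  RingEquiv.ofRingHom (compat_of_smul_eq (L := L) h).ext
    (compat_of_smul_eq (L := L) (inv_smul_w h)).ext
    (by
      refine (eq_of_eq_on (v := w) (K := L) ((compat_of_smul_eq (L := L) h).continuous_ext.comp
        (compat_of_smul_eq (L := L) (inv_smul_w h)).continuous_ext) continuous_id ?_) |>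
          RingHom.coe_inj
      intro x
      rw [RingHom.comp_apply, (compat_of_smul_eq (L := L) (inv_smul_w h)).ext_algebraMap,
        (compat_of_smul_eq (L := L) h).ext_algebraMap]
      simp)
    (by
      refine (eq_of_eq_on (v := w) (K := L)
        ((compat_of_smul_eq (L := L) (inv_smul_w h)).continuous_ext.comp
          (compat_of_smul_eq (L := L) h).continuous_ext) continuous_id ?_) |> RingHom.coe_inj
      intro x
      rw [RingHom.comp_apply, (compat_of_smul_eq (L := L) h).ext_algebraMap,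
        (compat_of_smul_eq (L := L) (inv_smul_w h)).ext_algebraMap]
      simp)

theorem tauW_apply (σ : G) (h : σ • w = w) (x : w.adicCompletion L) :
    tauW σ h x = (compat_of_smul_eq (L := L) h).ext x := rfl

theorem continuous_tauW (σ : G) (h : σ • w = w) : Continuous (tauW (L := L) σ h) :=
  (compat_of_smul_eq (L := L) h).continuous_ext

@[simp] theorem tauW_algebraMap (σ : G) (h : σ • w = w) (x : L) :
    tauW σ h (algebraMap L (w.adicCompletion L) x) = algebraMap L _ (σ • x) :=
  (compat_of_smul_eq (L := L) h).ext_algebraMap x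

theorem valued_tauW (σ : G) (h : σ • w = w) (x : w.adicCompletion L) :
    Valued.v (tauW σ h x) = Valued.v x := by
  rw [tauW_apply, Compat.valued_ext, pow_one]

theorem norm_tauW (σ : G) (h : σ • w = w) (x : w.adicCompletion L) : ‖tauW σ h x‖ = ‖x‖ :=
  (norm_eq_iff_v w).mpr (valued_tauW σ h x)

theorem tauW_tauW (σ σ' : G) (h : σ • w = w) (h' : σ' • w = w) (h'' : (σ * σ') • w = w)
    (x : w.adicCompletion L) : tauW σ h (tauW σ' h' x) = tauW (σ * σ') h'' x := by
  refine congrFun (eq_of_eq_on ((continuous_tauW σ h).comp (continuous_tauW σ' h'))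
    (continuous_tauW (σ * σ') h'') fun y => ?_) x
  rw [Function.comp_apply, tauW_algebraMap, tauW_algebraMap, tauW_algebraMap, mul_smul]

theorem tauW_one (h : (1 : G) • w = w) (x : w.adicCompletion L) : tauW (1 : G) h x = x := by
  refine congrFun (eq_of_eq_on (v := w) (K := L) (continuous_tauW (1 : G) h) continuous_id
    fun y => ?_) x
  rw [tauW_algebraMap, one_smul]
  rfl

theorem tauW_congr {σ σ' : G} (h : σ • w = w) (e : σ = σ') (x : w.adicCompletion L) :
    tauW σ h x = tauW σ' (e ▸ h) x := by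
  subst e
  rfl

/-- `τ³ = 1` -/
theorem tauW_pow_three {σ : G} (h : σ • w = w) (hσ : σ ^ 3 = 1) (x : w.adicCompletion L) :
    tauW σ h (tauW σ h (tauW σ h x)) = x := by
  have h2 : (σ * σ) • w = w := by rw [mul_smul, h, h]
  have h3 : (σ * σ * σ) • w = w := by rw [mul_smul, h, h2]
  have e : σ * σ * σ = 1 := by rw [← hσ, pow_succ, pow_two]
  rw [tauW_tauW σ σ h h h2, tauW_tauW (σ * σ) σ h2 h h3, tauW_congr h3 e, tauW_one]

/-- `τ ≠ 1` -/
theorem exists_tauW_ne [FaithfulSMul G L] {σ : G} (h : σ • w = w) (hσ : σ ≠ 1) :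
    ∃ a, tauW (L := L) σ h a ≠ a := by
  by_contra hcon
  push Not at hcon
  refine hσ (eq_of_smul_eq_smul (α := L) fun y => ?_)
  have h1 := hcon (algebraMap L _ y)
  rw [tauW_algebraMap] at h1
  rw [one_smul]
  exact (algebraMap L (w.adicCompletion L)).injective h1

variable (v : HeightOneSpectrum (𝓞 K)) [w.asIdeal.LiesOver v.asIdeal]

variable (K w) in
/-- the embedding `K_v → L_w` -/
noncomputable abbrev incl : v.adicCompletion K →+* w.adicCompletion L :=
  (compat_liesOver (K := K) (L := L) v w).ext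

variable {v}

theorem tauW_incl [IsGaloisGroup G K L] (σ : G) (h : σ • w = w) (a : v.adicCompletion K) :
    tauW σ h (incl K w v a) = incl K w v a := by
  refine congrFun (eq_of_eq_on ((continuous_tauW σ h).comp
    (compat_liesOver (K := K) (L := L) v w).continuous_ext)
    (compat_liesOver (K := K) (L := L) v w).continuous_ext fun k => ?_) a
  have := IsGaloisGroup.commutes (G := G) (A := K) (B := L)
  rw [Function.comp_apply, Compat.ext_algebraMap, tauW_algebraMap]
  congr 1
  exact smul_algebraMap σ k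

/-- The fixed field of `τ` is `K_v`. -/
theorem mem_range_iff_tauW [Finite G] [IsGaloisGroup G K L] {σ : G} (h : σ • w = w)
    (hgen : ∀ g : G, g • w = w → g ∈ Subgroup.zpowers σ) (x : w.adicCompletion L) :
    tauW σ h x = x ↔ ∃ a, incl K w v a = x := by
  constructor
  · intro hx
    refine mem_range_of_fixed (K := K) v w G x fun g => ?_
    obtain ⟨g, hg⟩ := g
    have hg' : g • w = w := hg
    change tauW g hg' x = x
    have key : ∀ n : ℕ, ∀ h' : (σ ^ n) • w = w, tauW (σ ^ n) h' x = x := by
      intro n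
      induction n with
      | zero =>
        intro h'
        rw [tauW_congr h' (pow_zero σ), tauW_one]
      | succ n ih =>
        intro h'
        have h1 : (σ ^ n) • w = w := by
          have : σ • (σ ^ n) • w = σ • w := by rw [← mul_smul, ← pow_succ', h', h]
          exact MulAction.injective σ this
        have h2 : (σ ^ n * σ) • w = w := by rw [← pow_succ]; exact h'
        rw [tauW_congr h' (pow_succ σ n), ← tauW_tauW (σ ^ n) σ h1 h h2, hx, ih h1]
    have h3 := hgen g hg'
    rw [← mem_powers_iff_mem_zpowers] at h3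
    obtain ⟨n, hn⟩ := h3
    rw [tauW_congr hg' hn.symm]
    exact key n _
  · rintro ⟨a, rfl⟩
    exact tauW_incl σ h a

/-- `[L : K]` prime: every non trivial element generates -/
theorem mem_zpowers_of_card_three {G : Type*} [Group G] (hG : Nat.card G = 3) {σ : G}
    (hσ : σ ≠ 1) (g : G) : g ∈ Subgroup.zpowers σ := by
  have : Fact (Nat.Prime 3) := ⟨Nat.prime_three⟩
  exact mem_zpowers_of_prime_card hG hσ

theorem pow_three_eq_one {G : Type*} [Group G] (hG : Nat.card G = 3) (σ : G) : σ ^ 3 = 1 := by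
  rw [← hG]
  exact pow_card_eq_one'

/-- the fixed field, for `[L : K] = 3` -/
theorem mem_range_iff_three [IsGaloisGroup G K L] (hG : Nat.card G = 3) {σ : G}
    (hσ : σ ≠ 1) (h : σ • w = w) (x : w.adicCompletion L) :
    tauW σ h x = x ↔ ∃ a, incl K w v a = x := by
  have : Finite G := Nat.finite_of_card_ne_zero (by rw [hG]; norm_num)
  exact mem_range_iff_tauW h (fun g _ => mem_zpowers_of_card_three hG hσ g) x

/-- the rational matrices -/
theorem tM_eq_iff [IsGaloisGroup G K L] (hG : Nat.card G = 3) {σ : G}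
    (hσ : σ ≠ 1) (h : σ • w = w) (X : M2 (w.adicCompletion L)) :
    tM (tauW σ h) X = X ↔ ∃ Y : M2 (v.adicCompletion K), (incl K w v).mapMatrix Y = X := by
  constructor
  · intro hX
    have h1 : ∀ i j, ∃ a, incl K w v a = X i j := fun i j => by
      rw [← mem_range_iff_three (v := v) hG hσ h]
      exact congrFun (congrFun hX i) j
    choose Y hY using h1
    exact ⟨Matrix.of Y, funext fun i => funext fun j => hY i j⟩
  · rintro ⟨Y, rfl⟩
    exact funext fun i => funext fun j => tauW_incl σ h (Y i j)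

/-- the rational elements of `GL₂(L_w)` -/
theorem tM_eq_iff_GL [IsGaloisGroup G K L] (hG : Nat.card G = 3) {σ : G}
    (hσ : σ ≠ 1) (h : σ • w = w) (X : M2 (w.adicCompletion L)) (hX : IsUnit X) :
    tM (tauW σ h) X = X ↔ ∃ g : GL (Fin 2) (v.adicCompletion K),
      (GeneralLinearGroup.map (incl K w v) g : M2 (w.adicCompletion L)) = X := by
  rw [tM_eq_iff (v := v) hG hσ h]
  constructor
  · rintro ⟨Y, rfl⟩
    have h1 : IsUnit Y := by
      rw [Matrix.isUnit_iff_isUnit_det, isUnit_iff_ne_zero] at hX ⊢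
      intro h0
      apply hX
      rw [← RingHom.map_det, h0, map_zero]
    obtain ⟨g, rfl⟩ := h1
    exact ⟨g, rfl⟩
  · rintro ⟨g, rfl⟩
    exact ⟨g, rfl⟩

theorem isUnit_mapMatrix_iff {Y : M2 (v.adicCompletion K)} :
    IsUnit ((incl K w v).mapMatrix Y) ↔ IsUnit Y := by
  rw [Matrix.isUnit_iff_isUnit_det, Matrix.isUnit_iff_isUnit_det, isUnit_iff_ne_zero,
    isUnit_iff_ne_zero, ← RingHom.map_det, map_ne_zero]

theorem incl_injective : Function.Injective (incl K w v) := Compat.injective_ext _

/-- the balls of `K_v` and of `L_w` -/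
theorem valued_incl_le_iff (x : v.adicCompletion K) (n : ℕ) :
    Valued.v (incl K w v x) ≤
      WithZero.exp (-((n * v.asIdeal.ramificationIdx' w.asIdeal : ℕ) : ℤ)) ↔
      Valued.v x ≤ WithZero.exp (-(n : ℤ)) := by
  have he := Ideal.IsDedekindDomain.ramificationIdx'_ne_zero_of_liesOver (p := v.asIdeal)
    w.asIdeal v.ne_bot
  rw [Compat.valued_ext]
  have h1 : WithZero.exp (-((n * v.asIdeal.ramificationIdx' w.asIdeal : ℕ) : ℤ)) =
      (WithZero.exp (-(n : ℤ))) ^ (v.asIdeal.ramificationIdx' w.asIdeal) := by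
    rw [← WithZero.exp_nsmul]
    congr 1
    push_cast
    rw [nsmul_eq_mul]
    ring
  rw [h1, pow_le_pow_iff_left₀ zero_le zero_le he]

end Tau

end Fermat.Agent.LT.Near
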