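import Fermat.Agent.LT.Near.Local

/-!
# Groups of matrices near one, up to scalars

`F` ultrametric. `Nr r g` : a scalar multiple of `g ∈ GL₂(F)` is congruent to `1` modulo `r`.
* `UU` : the group of these elements; `Nr.conj`: `UU M` is normal in `UU ρ`; finite index.
* `exists_root_near`, `root_unique`: cube roots near one, up to a scalar.
* `NearData.exists_decomp'`: (L2) for data of any radius.
-/

set_option autoImplicit false
set_option linter.unusedSectionVars false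

open Matrix IsUltrametricDist

namespace Fermat.Agent.LT.Near

section Basic

variable {F : Type*} [NormedField F] [IsUltrametricDist F]

attribute [local instance] matNormedRing matNormOne matUltra

theorem mat_norm_smul (c : F) (A : M2 F) : ‖c • A‖ = ‖c‖ * ‖A‖ := by
  apply le_antisymm
  · rw [mat_norm_le_iff (by positivity)]
    intro i j
    rw [Matrix.smul_apply, smul_eq_mul, norm_mul]
    exact mul_le_mul_of_nonneg_left (mat_entry_le A i j) (norm_nonneg _)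
  · rcases eq_or_ne c 0 with rfl | hc
    · simp
    · have hc' : 0 < ‖c‖ := norm_pos_iff.mpr hc
      rw [← le_div_iff₀' hc', mat_norm_le_iff (by positivity)]
      intro i j
      rw [le_div_iff₀' hc', ← norm_mul]
      have := mat_entry_le (c • A) i j
      rwa [Matrix.smul_apply, smul_eq_mul] at this

/-- `g` is, up to a scalar, congruent to `1` modulo `r`. -/
def Nr (r : ℝ) (g : GL (Fin 2) F) : Prop := ∃ c : F, c ≠ 0 ∧ ‖c • (g : M2 F) - 1‖ ≤ r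

theorem Nr.mono {r s : ℝ} {g : GL (Fin 2) F} (h : Nr r g) (hrs : r ≤ s) : Nr s g := by
  obtain ⟨c, hc, h⟩ := h
  exact ⟨c, hc, h.trans hrs⟩

theorem Nr.nonneg {r : ℝ} {g : GL (Fin 2) F} (h : Nr r g) : 0 ≤ r := by
  obtain ⟨c, hc, h⟩ := h
  exact (norm_nonneg _).trans h

theorem Nr.one {r : ℝ} (hr : 0 ≤ r) : Nr r (1 : GL (Fin 2) F) :=
  ⟨1, one_ne_zero, by rw [one_smul, Units.val_one, sub_self, norm_zero]; exact hr⟩

theorem Nr.mul {r : ℝ} (hr : r ≤ 1) {g h : GL (Fin 2) F} (hg : Nr r g) (hh : Nr r h) :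
    Nr r (g * h) := by
  obtain ⟨c, hc, hg⟩ := hg
  obtain ⟨d, hd, hh⟩ := hh
  refine ⟨c * d, mul_ne_zero hc hd, ?_⟩
  rw [Units.val_mul, ← smul_mul_smul_comm]
  exact norm_mul_sub_one_le hr hg hh

theorem Nr.inv {r : ℝ} (hr : r < 1) {g : GL (Fin 2) F} (hg : Nr r g) : Nr r g⁻¹ := by
  obtain ⟨c, hc, hg⟩ := hg
  refine ⟨c⁻¹, inv_ne_zero hc, norm_inv_sub_one_le hr hg ?_⟩
  rw [smul_mul_smul_comm, mul_inv_cancel₀ hc, one_smul, ← Units.val_mul, mul_inv_cancel,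
    Units.val_one]

/-- The group of matrices near one up to a scalar. -/
def UU (r : ℝ) (h0 : 0 ≤ r) (h1 : r < 1) : Subgroup (GL (Fin 2) F) where
  carrier := {g | Nr r g}
  mul_mem' := fun hg hh => Nr.mul h1.le hg hh
  one_mem' := Nr.one h0
  inv_mem' := fun hg => Nr.inv h1 hg

@[simp] theorem mem_UU {r : ℝ} {h0 : 0 ≤ r} {h1 : r < 1} {g : GL (Fin 2) F} :
    g ∈ UU r h0 h1 ↔ Nr r g := Iff.rfl

theorem coe_scalar_eq (c : Fˣ) :
    ((GeneralLinearGroup.scalar (Fin 2) c : GL (Fin 2) F) : M2 F) = (c : F) • (1 : M2 F) := by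
  rw [GeneralLinearGroup.coe_scalar]
  ext i j
  fin_cases i <;> fin_cases j <;> simp

theorem coe_scalar_mul (c : Fˣ) (g : GL (Fin 2) F) :
    ((GeneralLinearGroup.scalar (Fin 2) c * g : GL (Fin 2) F) : M2 F) = (c : F) • (g : M2 F) := by
  rw [Units.val_mul, coe_scalar_eq, smul_mul_assoc, one_mul]

theorem Nr.scalar {r : ℝ} (hr : 0 ≤ r) (c : Fˣ) : Nr r (GeneralLinearGroup.scalar (Fin 2) c) :=
  ⟨((c⁻¹ : Fˣ) : F), Units.ne_zero _, by
    rw [coe_scalar_eq, smul_smul, Units.inv_mul, one_smul, sub_self, norm_zero]; exact hr⟩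

/-- The normalised multiple. -/
theorem Nr.normal {r : ℝ} (hr : r < 1) {g : GL (Fin 2) F} (h : Nr r g) :
    (g : M2 F) 0 0 ≠ 0 ∧ ‖((g : M2 F) 0 0)⁻¹ • (g : M2 F) - 1‖ ≤ r := by
  obtain ⟨c, hc, h⟩ := h
  have hr0 : 0 ≤ r := (norm_nonneg _).trans h
  have h00 : ‖c * (g : M2 F) 0 0 - 1‖ ≤ r := by
    have := (mat_entry_le (c • (g : M2 F) - 1) 0 0).trans h
    simpa using this
  have hn : ‖c * (g : M2 F) 0 0‖ = 1 := norm_eq_one_of_near hr h00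
  have hg0 : (g : M2 F) 0 0 ≠ 0 := by
    intro h0
    rw [h0, mul_zero, norm_zero] at hn
    exact zero_ne_one hn
  refine ⟨hg0, ?_⟩
  have hne : c * (g : M2 F) 0 0 ≠ 0 := mul_ne_zero hc hg0
  have e : ((g : M2 F) 0 0)⁻¹ • (g : M2 F) - 1 = (c * (g : M2 F) 0 0)⁻¹ •
      ((c • (g : M2 F) - 1) - (c * (g : M2 F) 0 0 - 1) • (1 : M2 F)) := by
    rw [sub_smul, one_smul, smul_sub, smul_sub, smul_sub, smul_smul, smul_smul,
      inv_mul_cancel₀ hne, one_smul]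
    have : (c * (g : M2 F) 0 0)⁻¹ * c = ((g : M2 F) 0 0)⁻¹ := by
      field_simp
    rw [this]
    abel
  rw [e, mat_norm_smul, norm_inv, hn, inv_one, one_mul]
  refine (norm_sub_le_max' _ _).trans (max_le h ?_)
  rw [mat_norm_smul, norm_one, mul_one]
  exact h00

theorem norm_le_one_of_near {b : M2 F} {r : ℝ} (hr : r ≤ 1) (hb : ‖b - 1‖ ≤ r) : ‖b‖ ≤ 1 := by
  have h1 : b = 1 + (b - 1) := by abel
  rw [h1]
  exact (norm_add_le_max _ _).trans (max_le (by rw [norm_one]) (hb.trans hr))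

/-- the elements of `UU M`, `M < 1`, act by conjugation through contractions -/
theorem Nr.exists_conj {ρ : ℝ} (hρ : ρ < 1) {u : GL (Fin 2) F} (hu : Nr ρ u) :
    ∃ a b : M2 F, ‖a‖ ≤ 1 ∧ ‖b‖ ≤ 1 ∧ a * b = 1 ∧ b * a = 1 ∧ ∀ X : M2 F,
      ((u⁻¹ : GL (Fin 2) F) : M2 F) * X * (u : M2 F) = b * X * a := by
  obtain ⟨c, hc, h⟩ := hu
  have hab : (c • (u : M2 F)) * (c⁻¹ • ((u⁻¹ : GL (Fin 2) F) : M2 F)) = 1 := by
    rw [smul_mul_smul_comm, mul_inv_cancel₀ hc, one_smul, ← Units.val_mul, mul_inv_cancel,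
      Units.val_one]
  have hba := mul_eq_one_comm.mp hab
  refine ⟨_, _, norm_le_one_of_near hρ.le h,
    norm_le_one_of_near hρ.le (norm_inv_sub_one_le hρ h hab), hab, hba, fun X => ?_⟩
  rw [smul_mul_assoc, smul_mul_assoc, mul_smul_comm, smul_smul, inv_mul_cancel₀ hc, one_smul]

theorem Nr.conj {ρ M : ℝ} (hρ : ρ < 1) {u w : GL (Fin 2) F} (hu : Nr ρ u) (hw : Nr M w) :
    Nr M (u⁻¹ * w * u) := by
  obtain ⟨a, b, ha, hb, hab, hba, h⟩ := hu.exists_conj hρ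
  obtain ⟨c, hc, hw⟩ := hw
  refine ⟨c, hc, ?_⟩
  have e : c • ((u⁻¹ * w * u : GL (Fin 2) F) : M2 F) - 1 = b * (c • (w : M2 F) - 1) * a := by
    rw [Units.val_mul, Units.val_mul, h, mul_sub, sub_mul, mul_one, hba, mul_smul_comm,
      smul_mul_assoc]
  rw [e]
  calc ‖b * (c • (w : M2 F) - 1) * a‖ ≤ ‖b‖ * ‖c • (w : M2 F) - 1‖ * ‖a‖ :=
        (norm_mul_le _ _).trans (mul_le_mul_of_nonneg_right (norm_mul_le _ _) (norm_nonneg _))
    _ ≤ 1 * ‖c • (w : M2 F) - 1‖ * 1 := by gcongr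
    _ ≤ M := by rw [one_mul, mul_one]; exact hw

theorem Nr.map [CompleteSpace F] {τ : F ≃+* F} (hτn : ∀ a, ‖τ a‖ = ‖a‖) {r : ℝ} {g : GL (Fin 2) F} (h : Nr r g) :
    Nr r (GeneralLinearGroup.map (τ : F →+* F) g) := by
  obtain ⟨c, hc, h⟩ := h
  refine ⟨τ c, (map_ne_zero τ).mpr hc, ?_⟩
  have e : τ c • ((GeneralLinearGroup.map (τ : F →+* F) g : GL (Fin 2) F) : M2 F) - 1 =
      tM τ (c • (g : M2 F) - 1) := by
    rw [map_sub, map_one, tM_smul]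
    rfl
  rw [e, norm_tM τ hτn]
  exact h

/-- two elements near one which are close to each other -/
theorem Nr.of_close {ρ M : ℝ} (hρ : ρ < 1) {u v : GL (Fin 2) F} {a b : F} (ha : a ≠ 0)
    (hb : b ≠ 0) (hu : ‖a • (u : M2 F) - 1‖ ≤ ρ)
    (huv : ‖b • (v : M2 F) - a • (u : M2 F)‖ ≤ M) : Nr M (u⁻¹ * v) := by
  have hab : (a • (u : M2 F)) * (a⁻¹ • ((u⁻¹ : GL (Fin 2) F) : M2 F)) = 1 := by
    rw [smul_mul_smul_comm, mul_inv_cancel₀ ha, one_smul, ← Units.val_mul, mul_inv_cancel,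
      Units.val_one]
  have hba := mul_eq_one_comm.mp hab
  have h1 := norm_le_one_of_near hρ.le (norm_inv_sub_one_le hρ hu hab)
  refine ⟨a⁻¹ * b, mul_ne_zero (inv_ne_zero ha) hb, ?_⟩
  have e : (a⁻¹ * b) • ((u⁻¹ * v : GL (Fin 2) F) : M2 F) - 1 =
      (a⁻¹ • ((u⁻¹ : GL (Fin 2) F) : M2 F)) * (b • (v : M2 F) - a • (u : M2 F)) := by
    rw [mul_sub, hba, Units.val_mul, smul_mul_smul_comm]
  rw [e]
  calc _ ≤ ‖a⁻¹ • ((u⁻¹ : GL (Fin 2) F) : M2 F)‖ * ‖b • (v : M2 F) - a • (u : M2 F)‖ :=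
        norm_mul_le _ _
    _ ≤ 1 * ‖b • (v : M2 F) - a • (u : M2 F)‖ := by gcongr
    _ ≤ M := by rw [one_mul]; exact huv

/-- **Finite index.** -/
theorem finite_cosets (htb : TotallyBounded (Metric.closedBall (0 : F) 1)) {ρ M : ℝ}
    (hρ : ρ < 1) (hM0 : 0 < M) (hM1 : M < 1) :
    {s : GL (Fin 2) F ⧸ UU M hM0.le hM1 | ∃ u : GL (Fin 2) F, Nr ρ u ∧
      s = ((u : GL (Fin 2) F) : GL (Fin 2) F ⧸ UU M hM0.le hM1)}.Finite := by
  classical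
  obtain ⟨t, ht, hcov⟩ := Metric.totallyBounded_iff.mp htb M hM0
  have hnet : ∀ x : F, ‖x‖ ≤ 1 → ∃ y ∈ t, ‖x - y‖ < M := by
    intro x hx
    have := hcov (mem_closedBall_zero_iff.mpr hx)
    simp only [Set.mem_iUnion, Metric.mem_ball, dist_eq_norm] at this
    obtain ⟨y, hy, h⟩ := this
    exact ⟨y, hy, h⟩
  rw [← Set.finite_coe_iff]
  have : Finite t := ht
  choose u hu hus using fun s : {s : GL (Fin 2) F ⧸ UU M hM0.le hM1 | ∃ u : GL (Fin 2) F,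
    Nr ρ u ∧ s = ((u : GL (Fin 2) F) : GL (Fin 2) F ⧸ UU M hM0.le hM1)} => s.2
  have hent : ∀ s i j, ‖((((u s) : M2 F) 0 0)⁻¹ • ((u s) : M2 F)) i j‖ ≤ 1 := fun s i j =>
    (mat_entry_le _ i j).trans (norm_le_one_of_near hρ.le ((hu s).normal hρ).2)
  choose y hyt hy using fun s i j => hnet _ (hent s i j)
  refine Finite.of_injective (β := Fin 2 → Fin 2 → t) (fun s i j => ⟨y s i j, hyt s i j⟩) ?_
  intro s s' hss
  have h1 : ∀ i j, y s i j = y s' i j := fun i j => by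
    have := congrFun (congrFun hss i) j
    exact congrArg Subtype.val this
  apply Subtype.ext
  rw [hus s, hus s']
  rw [QuotientGroup.eq, mem_UU]
  refine Nr.of_close hρ (inv_ne_zero ((hu s).normal hρ).1) (inv_ne_zero ((hu s').normal hρ).1)
    ((hu s).normal hρ).2 ?_
  rw [mat_norm_le_iff hM0.le]
  intro i j
  have e : ((((u s' : GL (Fin 2) F) : M2 F) 0 0)⁻¹ • ((u s' : GL (Fin 2) F) : M2 F) -
      (((u s : GL (Fin 2) F) : M2 F) 0 0)⁻¹ • ((u s : GL (Fin 2) F) : M2 F)) i j =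
      (((((u s' : GL (Fin 2) F) : M2 F) 0 0)⁻¹ • ((u s' : GL (Fin 2) F) : M2 F)) i j - y s' i j) -
      (((((u s : GL (Fin 2) F) : M2 F) 0 0)⁻¹ • ((u s : GL (Fin 2) F) : M2 F)) i j - y s i j) := by
    rw [h1 i j, Matrix.sub_apply]
    ring
  rw [e]
  exact (norm_sub_le_maxF _ _).trans (max_le (hy s' i j).le (hy s i j).le)

/-- uniqueness of cube roots near one up to a scalar -/
theorem root_unique [CompleteSpace F] (h3 : (3 : F) ≠ 0) {ρ : ℝ}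
    (hρ : ‖(3 : F)⁻¹‖ ^ 2 * ρ < 1) {b b' : M2 F} (hb : ‖b - 1‖ ≤ ρ) (hb' : ‖b' - 1‖ ≤ ρ) {ν : F}
    (he : b ^ 3 = ν • b' ^ 3) : ∃ s : F, s ≠ 0 ∧ b = s • b' := by
  have ht := isThird_field h3
  have hρ0 : 0 ≤ ρ := (norm_nonneg _).trans hb
  have hC : 1 ≤ ‖(3 : F)⁻¹‖ := ht.one_le_norm
  obtain ⟨k1, k2, k3⟩ := radius_aux ht hρ0 hρ
  have hρC : ρ ≤ ‖(3 : F)⁻¹‖ * ρ := by nlinarith
  have hρ1 : ρ < 1 := hρC.trans_lt k1
  have hcube : ∀ x : M2 F, ‖x - 1‖ ≤ ρ → ‖x ^ 3 - 1‖ ≤ ρ := fun x hx => by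
    rw [pow_succ, pow_two]
    exact norm_mul_sub_one_le hρ1.le (norm_mul_sub_one_le hρ1.le hx hx) hx
  have c1 : ‖(b ^ 3) 0 0 - 1‖ ≤ ρ := by
    have := (mat_entry_le (b ^ 3 - 1) 0 0).trans (hcube b hb)
    simpa using this
  have c2 : ‖(b' ^ 3) 0 0 - 1‖ ≤ ρ := by
    have := (mat_entry_le (b' ^ 3 - 1) 0 0).trans (hcube b' hb')
    simpa using this
  have c3 : (b ^ 3) 0 0 = ν * (b' ^ 3) 0 0 := by rw [he]; rfl
  have hν : ‖ν - 1‖ ≤ ρ := by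
    have hn := norm_eq_one_of_near hρ1 c2
    have e1 : (ν - 1) * (b' ^ 3) 0 0 = ((b ^ 3) 0 0 - 1) - ((b' ^ 3) 0 0 - 1) := by
      rw [c3]; ring
    have e2 : ‖ν - 1‖ = ‖(ν - 1) * (b' ^ 3) 0 0‖ := by rw [norm_mul, hn, mul_one]
    rw [e2, e1]
    exact (norm_sub_le_maxF _ _).trans (max_le c1 c2)
  obtain ⟨s, hs3, hs⟩ := exists_cube_root ht hρ hν
  have hs0 : s ≠ 0 := by
    rintro rfl
    rw [zero_sub, norm_neg, norm_one] at hs
    linarith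
  refine ⟨s, hs0, ?_⟩
  have htm := isThird_mat h3
  refine cube_root_unique htm (ρ := ‖(3 : F)⁻¹‖ * ρ) k1 (by rw [norm_third_mat]; exact k3)
    (hb.trans hρC) ?_ ?_
  · have e : s • b' - 1 = s • (b' - 1) + (s - 1) • (1 : M2 F) := by
      rw [smul_sub, sub_smul, one_smul]; abel
    rw [e]
    refine (norm_add_le_max _ _).trans (max_le ?_ ?_)
    · rw [mat_norm_smul, norm_eq_one_of_near k1 hs, one_mul]
      exact hb'.trans hρC
    · rw [mat_norm_smul, norm_one, mul_one]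
      exact hs
  · rw [he, smul_pow, hs3]

/-- The cube root depends continuously on the matrix. -/
theorem exists_root_near [CompleteSpace F] (h3 : (3 : F) ≠ 0) {ρ M : ℝ}
    (hρ : ‖(3 : F)⁻¹‖ ^ 2 * ρ < 1) (hM : M ≤ ρ) {b g : M2 F} (hb : ‖b - 1‖ ≤ ρ)
    (hg : ‖g - b ^ 3‖ ≤ M) : ∃ b' : M2 F, b' ^ 3 = g ∧ ‖b' - b‖ ≤ ‖(3 : F)⁻¹‖ * M := by
  have _i := matComplete (F := F)
  have ht := isThird_mat h3
  have htn := norm_third_mat (F := F)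
  have hρ0 : 0 ≤ ρ := (norm_nonneg _).trans hb
  have hC : 1 ≤ ‖(3 : F)⁻¹‖ := (isThird_field h3).one_le_norm
  obtain ⟨k1, k2, k3⟩ := radius_aux (isThird_field h3) hρ0 hρ
  have hρC : ρ ≤ ‖(3 : F)⁻¹‖ * ρ := by nlinarith
  have hρ1 : ρ < 1 := hρC.trans_lt k1
  have hb3 : ‖b ^ 3 - 1‖ ≤ ρ := by
    rw [pow_succ, pow_two]
    exact norm_mul_sub_one_le hρ1.le (norm_mul_sub_one_le hρ1.le hb hb) hb
  have hg1 : ‖g - 1‖ ≤ ρ := by
    have e : g - 1 = (g - b ^ 3) + (b ^ 3 - 1) := by abel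
    rw [e]
    exact (norm_add_le_max _ _).trans (max_le (hg.trans hM) hb3)
  obtain ⟨κ, hκ3, hκ⟩ := exists_cube_root ht (by rw [htn]; exact hρ) hg1
  rw [htn] at hκ
  refine ⟨κ, hκ3, ?_⟩
  set Z := κ - 1 with hZ
  set W := b - 1 with hW
  have e1 : cubeStep ((3 : F)⁻¹ • (1 : M2 F)) g Z = Z :=
    (cubeStep_eq_iff ht _ _).mpr (by rw [hZ, ← hκ3]; simp)
  have e2 : cubeStep ((3 : F)⁻¹ • (1 : M2 F)) (b ^ 3) W = W :=
    (cubeStep_eq_iff ht _ _).mpr (by rw [hW]; simp)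
  have e3 : κ - b = (cubeStep ((3 : F)⁻¹ • (1 : M2 F)) g Z -
      cubeStep ((3 : F)⁻¹ • (1 : M2 F)) g W) + ((3 : F)⁻¹ • (1 : M2 F)) * (g - b ^ 3) := by
    have e4 : cubeStep ((3 : F)⁻¹ • (1 : M2 F)) g W -
        cubeStep ((3 : F)⁻¹ • (1 : M2 F)) (b ^ 3) W =
        ((3 : F)⁻¹ • (1 : M2 F)) * (g - b ^ 3) := by
      unfold cubeStep
      rw [mul_sub, mul_sub, mul_sub]
      abel
    rw [← e4, e1, e2, hZ, hW]
    abel
  have h4 := norm_cubeStep_sub_le ((3 : F)⁻¹ • (1 : M2 F)) g hκ (hb.trans hρC)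
  rw [htn] at h4
  have h5 : max (‖(3 : F)⁻¹‖ * ρ) (‖(3 : F)⁻¹‖ * (‖(3 : F)⁻¹‖ * ρ) ^ 2) < 1 := max_lt k1 k3
  have h6 : Z - W = κ - b := by rw [hZ, hW]; abel
  rw [h6] at h4
  have h7 : ‖((3 : F)⁻¹ • (1 : M2 F)) * (g - b ^ 3)‖ ≤ ‖(3 : F)⁻¹‖ * M := by
    refine (norm_mul_le _ _).trans ?_
    rw [htn]
    exact mul_le_mul_of_nonneg_left hg (norm_nonneg _)
  by_contra hlt
  push Not at hlt
  have hM0 : 0 ≤ ‖(3 : F)⁻¹‖ * M := (norm_nonneg _).trans h7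
  have hpos : 0 < ‖κ - b‖ := hM0.trans_lt hlt
  have h8 : ‖κ - b‖ ≤ max (max (‖(3 : F)⁻¹‖ * ρ) (‖(3 : F)⁻¹‖ * (‖(3 : F)⁻¹‖ * ρ) ^ 2) *
      ‖κ - b‖) (‖(3 : F)⁻¹‖ * M) := by
    conv_lhs => rw [e3]
    exact (norm_add_le_max _ _).trans (max_le_max h4 h7)
  rcases le_max_iff.mp h8 with h9 | h9
  · nlinarith
  · exact absurd h9 (not_le.mpr hlt)

end Basic

section Decomp

variable {F : Type*} [NormedField F] [IsUltrametricDist F] [CompleteSpace F] {τ : F ≃+* F}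

attribute [local instance] matNormedRing matNormOne matUltra matComplete

/-- **(L2)** with data of any radius. -/
theorem NearData.exists_decomp' (h3 : (3 : F) ≠ 0) (h2 : (2 : F) ≠ 0)
    (hτ3 : ∀ a, τ (τ (τ a)) = a) (hτn : ∀ a, ‖τ a‖ = ‖a‖)
    {γ δ : M2 F} (hγτ : tM τ γ = γ)
    (hns : ¬ IsScalar γ) (hN : δ * tM τ δ * tM τ (tM τ δ) = γ)
    {r ρ : ℝ} (hrρ : ‖(3 : F)⁻¹‖ * r ≤ ρ) (hρ : ‖(3 : F)⁻¹‖ ^ 2 * (‖(2 : F)⁻¹‖ * ρ) < 1)
    {c : F} {k y : M2 F} (hdata : NearData τ ρ γ δ c k y)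
    {c' : F} (hc' : c' ≠ 0) {x d : M2 F} (hx : IsUnit x)
    (hd : ‖d - 1‖ ≤ r) (heq : δ * tM τ x = c' • (x * d)) :
    ∃ (b : F) (g u : M2 F), b ≠ 0 ∧ IsUnit g ∧ tM τ g = g ∧ ‖u - 1‖ ≤ ‖(3 : F)⁻¹‖ ^ 2 * r ∧
      x = b • (y * g * u) := by
  have hC : 1 ≤ ‖(3 : F)⁻¹‖ := (isThird_field h3).one_le_norm
  have hD : 1 ≤ ‖(2 : F)⁻¹‖ := by
    rw [norm_inv]
    exact (one_le_inv₀ (norm_pos_iff.mpr h2)).mpr norm_two_le
  have hr0 : 0 ≤ r := (norm_nonneg _).trans hd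
  have hρ0 : 0 ≤ ρ := le_trans (by positivity) hrρ
  have hρD : ρ ≤ ‖(2 : F)⁻¹‖ * ρ := by nlinarith
  have hDρ0 : 0 ≤ ‖(2 : F)⁻¹‖ * ρ := by positivity
  have hrr : r ≤ ‖(3 : F)⁻¹‖ * r := by nlinarith
  have hr' : ‖(3 : F)⁻¹‖ ^ 2 * r < 1 := by
    refine lt_of_le_of_lt ?_ hρ
    exact mul_le_mul_of_nonneg_left (hrr.trans (hrρ.trans hρD)) (by positivity)
  obtain ⟨k₁, y₁, g₁, u₁, h₁, hdata₁, hg₁, hg₁τ, hu₁, hxe, -, -, -⟩ :=
    nearData_of_x h3 hτ3 hτn hγτ hns hN hr' hc' hx hd heq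
  have hNc := Nsc_ne_zero τ hdata.c_ne
  have hkk : k * k₁ = k₁ * k := commute_of_nonscalar hns hdata.comm hdata₁.comm
  have hcub : k ^ 3 = (Nsc τ c' / Nsc τ c) • k₁ ^ 3 := by
    have h1 : Nsc τ c • k ^ 3 = Nsc τ c' • k₁ ^ 3 := by rw [hdata.cube, hdata₁.cube]
    calc k ^ 3 = (Nsc τ c)⁻¹ • (Nsc τ c • k ^ 3) := by
          rw [smul_smul, inv_mul_cancel₀ hNc, one_smul]
      _ = _ := by rw [h1, smul_smul]; congr 1; rw [div_eq_inv_mul]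
  obtain ⟨s, hs0, -, hs1, hks⟩ :=
    compare_cube_roots h3 h2 hρ hdata.small (hdata₁.small.mono hrρ) hkk hcub
  obtain ⟨yi, hyyi, hyiy⟩ := exists_inv hdata.unit
  set z := yi * y₁ with hz
  have hyz : y₁ = y * z := by rw [hz, ← mul_assoc, hyyi, one_mul]
  have hzu : IsUnit z := (isUnit_of_mul hyiy).mul hdata₁.unit
  -- `k₁` is a unit
  have hρ1 : ‖(3 : F)⁻¹‖ * r < 1 := by
    have h6 : ‖(2 : F)⁻¹‖ * ρ ≤ ‖(3 : F)⁻¹‖ ^ 2 * (‖(2 : F)⁻¹‖ * ρ) := by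
      have : 1 ≤ ‖(3 : F)⁻¹‖ ^ 2 := one_le_pow₀ hC
      nlinarith
    linarith
  have hk₁u : IsUnit k₁ := by
    have := hdata₁.small.isUnit_one_add hρ1
    rwa [add_sub_cancel] at this
  have hky : IsUnit (k₁ * y) := hk₁u.mul hdata.unit
  have hcs : c * s ≠ 0 := mul_ne_zero hdata.c_ne hs0
  have hτz : tM τ z = (c' / (c * s)) • z := by
    have e1 := hdata₁.eq
    rw [hyz, map_mul, ← mul_assoc, hdata.eq, hks] at e1
    have e2 : (c * s) • ((k₁ * y) * tM τ z) = c' • ((k₁ * y) * z) := by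
      calc (c * s) • ((k₁ * y) * tM τ z) = c • (s • k₁ * y) * tM τ z := by
            rw [smul_mul_assoc, smul_mul_assoc, smul_mul_assoc, smul_smul]
        _ = c' • ((k₁ * y) * z) := by rw [e1, mul_assoc]
    have e3 : (k₁ * y) * tM τ z = (k₁ * y) * ((c' / (c * s)) • z) := by
      rw [mul_smul_comm]
      calc (k₁ * y) * tM τ z = (c * s)⁻¹ • ((c * s) • ((k₁ * y) * tM τ z)) := by
            rw [smul_smul, inv_mul_cancel₀ hcs, one_smul]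
        _ = _ := by rw [e2, smul_smul]; congr 1; rw [div_eq_inv_mul]
    exact hky.mul_left_cancel e3
  obtain ⟨i, j, hij⟩ : ∃ i j, z i j ≠ 0 := by
    by_contra hcon
    push Not at hcon
    have h0 : z = 0 := by ext i j; exact hcon i j
    rw [h0] at hzu
    exact not_isUnit_zero hzu
  set b := z i j with hb
  have hτb : τ b = (c' / (c * s)) * b := by
    have := congrFun (congrFun hτz i) j
    simpa using this
  have hq : c' / (c * s) ≠ 0 := div_ne_zero hc' hcs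
  have hz0 : tM τ (b⁻¹ • z) = b⁻¹ • z := by
    have hc0 := hdata.c_ne
    rw [tM_smul, hτz, map_inv₀, hτb, smul_smul]
    congr 1
    field_simp
  refine ⟨b, (b⁻¹ • z) * g₁, u₁, hij, ?_, ?_, hu₁, ?_⟩
  · refine IsUnit.mul ?_ hg₁
    obtain ⟨zi, hzzi, -⟩ := exists_inv hzu
    refine isUnit_of_mul (Y := b • zi) ?_
    rw [smul_mul_smul_comm, inv_mul_cancel₀ hij, one_smul, hzzi]
  · rw [map_mul, hz0, hg₁τ]
  · rw [hxe, hyz, smul_mul_assoc, mul_smul_comm, smul_mul_assoc, smul_smul,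
      mul_inv_cancel₀ hij, one_smul]
    simp only [mul_assoc]

end Decomp

end Fermat.Agent.LT.Near
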