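import Fermat.Agent.LT.Near.Push
import Fermat.Agent.LT.Near.Group
import Fermat.Agent.LT.Match
import Fermat.Agent.LT.HK.Coset

/-!
# The transfer at a non-split place, for test functions supported near the identity

`f : k → F` (= `K_v → L_w`), `F` complete ultrametric, `τ` an isometric automorphism of order three of
`F` with fixed field `k`. `T : Test F` is a test function `φ` supported in `F^× (1 + r)`, of level
`M`. Then `T.fK` is a bi-invariant function on `GL₂(k)` of the level `GL₂(k) ∩ F^× (1 + M)` and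
`exists_push_bad` compares the twisted orbits of `φ` with the orbits of `T.fK`.
-/

set_option autoImplicit false
set_option linter.unusedSectionVars false

open Matrix IsUltrametricDist

noncomputable section

namespace Fermat.Agent.LT.Near

variable {k F : Type*} [Field k] [NormedField F] [IsUltrametricDist F] [CompleteSpace F]

attribute [local instance] matNormedRing matNormOne matUltra matComplete

/-- The hypotheses on the extension `f : k → F` and the automorphism `τ`. -/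
structure Cubic (f : k →+* F) (τ : F ≃+* F) : Prop where
  three : (3 : F) ≠ 0
  two : (2 : F) ≠ 0
  tau3 : ∀ a, τ (τ (τ a)) = a
  norm : ∀ a, ‖τ a‖ = ‖a‖
  ne : ∃ a, τ a ≠ a
  fix : ∀ x, τ x = x ↔ ∃ a, f a = x
  tb : TotallyBounded (Metric.closedBall (0 : F) 1)

variable (F) in
/-- A test function supported near one. -/
structure Test where
  /-- radius of the support -/
  r : ℝ
  /-- radius of the level -/
  M : ℝ
  /-- the function -/
  φ : GL (Fin 2) F → ℂ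
  r0 : 0 ≤ r
  small : ‖(3 : F)⁻¹‖ ^ 2 * (‖(2 : F)⁻¹‖ * (‖(3 : F)⁻¹‖ ^ 2 * r)) < 1
  M0 : 0 < M
  Mr : M ≤ r
  supp : ∀ g, φ g ≠ 0 → Nr r g
  left : ∀ u, Nr (‖(3 : F)⁻¹‖ * M) u → ∀ g, φ (u * g) = φ g
  right : ∀ u, Nr (‖(3 : F)⁻¹‖ * M) u → ∀ g, φ (g * u) = φ g

namespace Cubic

variable {f : k →+* F} {τ : F ≃+* F}

theorem one_le (hf : Cubic f τ) : 1 ≤ ‖(3 : F)⁻¹‖ := (isThird_field hf.three).one_le_norm

theorem one_le' (hf : Cubic f τ) : 1 ≤ ‖(2 : F)⁻¹‖ := by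
  rw [norm_inv]
  exact (one_le_inv₀ (norm_pos_iff.mpr hf.two)).mpr norm_two_le

/-- rational matrices -/
theorem exists_GL (hf : Cubic f τ) {X : M2 F} (hX : IsUnit X) (h : tM τ X = X) :
    ∃ g : GL (Fin 2) k, (GeneralLinearGroup.map f g : M2 F) = X := by
  have h1 : ∀ i j, ∃ a, f a = X i j := fun i j => by
    rw [← hf.fix]
    exact congrFun (congrFun h i) j
  choose Y hY using h1
  have e : f.mapMatrix (Matrix.of Y) = X := by
    ext i j
    exact hY i j
  have h2 : IsUnit (Matrix.of Y : M2 k) := by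
    rw [Matrix.isUnit_iff_isUnit_det, isUnit_iff_ne_zero] at hX ⊢
    intro h0
    apply hX
    rw [← e, ← RingHom.map_det, h0, map_zero]
  obtain ⟨g, hg⟩ := h2
  exact ⟨g, by
    rw [← e, ← hg]
    rfl⟩

theorem tM_map (hf : Cubic f τ) (g : GL (Fin 2) k) :
    tM τ (GeneralLinearGroup.map f g : M2 F) = (GeneralLinearGroup.map f g : M2 F) := by
  ext i j
  exact (hf.fix _).mpr ⟨_, rfl⟩

theorem map_map (hf : Cubic f τ) (g : GL (Fin 2) k) :
    GeneralLinearGroup.map (τ : F →+* F) (GeneralLinearGroup.map f g) =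
      GeneralLinearGroup.map f g := Units.ext (hf.tM_map g)

end Cubic

theorem isScalar_map {f : k →+* F} {g : GL (Fin 2) k} :
    IsScalar (GeneralLinearGroup.map f g : M2 F) ↔ IsScalar (g : M2 k) := by
  unfold IsScalar
  change (f _ = 0 ∧ f _ = 0 ∧ f _ = f _) ↔ _
  rw [map_eq_zero, map_eq_zero, f.injective.eq_iff]

theorem coe_map_τ (τ : F ≃+* F) (g : GL (Fin 2) F) :
    (GeneralLinearGroup.map (τ : F →+* F) g : M2 F) = tM τ (g : M2 F) := rfl

theorem mem_center_of_scalar {E : Type*} [Field E] (c : Eˣ) :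
    GeneralLinearGroup.scalar (Fin 2) c ∈ Subgroup.center (GL (Fin 2) E) := by
  rw [GeneralLinearGroup.center_eq_range_scalar]
  exact ⟨c, rfl⟩

theorem scalar_comm' {E : Type*} [Field E] (c : Eˣ) (g : GL (Fin 2) E) :
    GeneralLinearGroup.scalar (Fin 2) c * g = g * GeneralLinearGroup.scalar (Fin 2) c :=
  ((Subgroup.mem_center_iff.mp (mem_center_of_scalar c)) g).symm

theorem map_scalar {f : k →+* F} (c : kˣ) :
    GeneralLinearGroup.map f (GeneralLinearGroup.scalar (Fin 2) c) =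
      GeneralLinearGroup.scalar (Fin 2) (Units.map (f : k →* F) c) := by
  apply Units.ext
  rw [coe_scalar_eq]
  ext i j
  have : ((GeneralLinearGroup.map f (GeneralLinearGroup.scalar (Fin 2) c) : GL (Fin 2) F) :
      M2 F) i j = f ((GeneralLinearGroup.scalar (Fin 2) c : GL (Fin 2) k) i j) := rfl
  rw [this, GeneralLinearGroup.coe_scalar]
  fin_cases i <;> fin_cases j <;> simp

/-- multiples by a scalar -/
theorem eq_scalar_mul {E : Type*} [Field E] {s : E} (hs : s ≠ 0) {g h : GL (Fin 2) E}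
    (e : (g : M2 E) = s • (h : M2 E)) :
    g = GeneralLinearGroup.scalar (Fin 2) (Units.mk0 s hs) * h := by
  apply Units.ext
  rw [e, Units.val_mul]
  have : ((GeneralLinearGroup.scalar (Fin 2) (Units.mk0 s hs) : GL (Fin 2) E) : M2 E) =
      s • (1 : M2 E) := by
    rw [GeneralLinearGroup.coe_scalar]
    ext i j
    fin_cases i <;> fin_cases j <;> simp
  rw [this, smul_mul_assoc, one_mul]

namespace Test

variable {f : k →+* F} {τ : F ≃+* F} (T : Test F)

/-- the radius of the big group -/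
def ρ : ℝ := ‖(3 : F)⁻¹‖ ^ 2 * T.r

theorem ρ0 : 0 ≤ T.ρ := mul_nonneg (by positivity) T.r0

section Radii

variable {T} (hf : Cubic f τ)
include hf

theorem radii : ‖(3 : F)⁻¹‖ ^ 2 * T.ρ < 1 ∧ T.ρ < 1 ∧ ‖(3 : F)⁻¹‖ * T.r ≤ T.ρ ∧ T.r ≤ T.ρ ∧
    ‖(3 : F)⁻¹‖ * T.M ≤ T.ρ ∧ T.M ≤ ‖(3 : F)⁻¹‖ * T.M ∧ T.M ≤ T.ρ ∧ T.M < 1 := by
  have h3 := hf.one_le
  have h2 := hf.one_le'
  have hs := T.small
  have hr0 := T.r0
  have hM0 := T.M0
  have hMr := T.Mr
  have h4 : 1 ≤ ‖(3 : F)⁻¹‖ ^ 2 := one_le_pow₀ h3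
  have hρ0 := T.ρ0
  have hsmall : ‖(3 : F)⁻¹‖ ^ 2 * (‖(2 : F)⁻¹‖ * T.ρ) < 1 := hs
  have a1 : T.ρ ≤ ‖(2 : F)⁻¹‖ * T.ρ := by nlinarith
  have a2 : ‖(3 : F)⁻¹‖ ^ 2 * T.ρ < 1 :=
    lt_of_le_of_lt (mul_le_mul_of_nonneg_left a1 (by positivity)) hsmall
  have a3 : T.ρ ≤ ‖(3 : F)⁻¹‖ ^ 2 * T.ρ := by nlinarith
  have a4 : T.r ≤ ‖(3 : F)⁻¹‖ * T.r := by nlinarith
  have a5 : ‖(3 : F)⁻¹‖ * T.r ≤ T.ρ := by
    have : T.ρ = ‖(3 : F)⁻¹‖ * (‖(3 : F)⁻¹‖ * T.r) := by unfold ρ; ring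
    rw [this]
    have h5 : 0 ≤ ‖(3 : F)⁻¹‖ * T.r := by positivity
    nlinarith
  have a6 : ‖(3 : F)⁻¹‖ * T.M ≤ ‖(3 : F)⁻¹‖ * T.r :=
    mul_le_mul_of_nonneg_left hMr (norm_nonneg _)
  have a7 : T.M ≤ ‖(3 : F)⁻¹‖ * T.M := by nlinarith
  exact ⟨a2, a3.trans_lt a2, a5, a4.trans a5, a6.trans a5, a7, a7.trans (a6.trans a5),
    (a7.trans (a6.trans a5)).trans_lt (a3.trans_lt a2)⟩

end Radii

variable (hf : Cubic f τ)

/-- the data on `GL₂(F)` -/
def tw : TwData (GL (Fin 2) F) where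
  τ := GeneralLinearGroup.map (τ : F →+* F)
  W := UU T.M T.M0.le (radii hf).2.2.2.2.2.2.2
  hτ := fun _ hu => Nr.map hf.norm hu
  φ := T.φ
  left := fun u hu g => T.left u (hu.mono (radii hf).2.2.2.2.2.1) g
  right := fun u hu g => T.right u (hu.mono (radii hf).2.2.2.2.2.1) g

/-- the level on the side of `F` -/
abbrev WL : Subgroup (GL (Fin 2) F) := (T.tw hf).W

/-- the level on the side of `k` -/
abbrev WK : Subgroup (GL (Fin 2) k) := (T.WL hf).comap (GeneralLinearGroup.map f)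

/-- the big group -/
abbrev big : Subgroup (GL (Fin 2) F) := UU T.ρ T.ρ0 (radii hf).2.1

/-- **the transfer** -/
def fK : GL (Fin 2) k → ℂ :=
  cubeFun (T.tw hf) (GeneralLinearGroup.map f) (T.big hf) (Subgroup.center (GL (Fin 2) k))

theorem setup : PushSetup (T.tw hf) (GeneralLinearGroup.map f) (T.big hf)
    (Subgroup.center (GL (Fin 2) k)) where
  tauι := hf.map_map
  le := fun _ hu => Nr.mono hu (radii hf).2.2.2.2.2.2.1
  normal := fun _ hu _ hw => Nr.conj (radii hf).2.1 hu hw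
  tau := fun _ hu => Nr.map hf.norm hu
  supp := fun g hg => (T.supp g hg).mono (radii hf).2.2.2.1
  central := fun z hz h => ((Subgroup.mem_center_iff.mp hz) h).symm
  finite := by
    refine (finite_cosets hf.tb (radii (T := T) hf).2.1 T.M0
      (radii hf).2.2.2.2.2.2.2).subset ?_
    rintro s ⟨u, hu, -, rfl⟩
    exact ⟨u, hu, rfl⟩

variable {T hf}

theorem scalar_mem_WL (c : Fˣ) : GeneralLinearGroup.scalar (Fin 2) c ∈ T.WL hf :=
  Nr.scalar T.M0.le c

/-- changing the argument by an element near one -/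
theorem total_near {b b' : GL (Fin 2) F} (h : Nr (‖(3 : F)⁻¹‖ * T.M) (b⁻¹ * b')) :
    (T.tw hf).total (box (T.tw hf) (GeneralLinearGroup.map f) (T.big hf)) b' =
      (T.tw hf).total (box (T.tw hf) (GeneralLinearGroup.map f) (T.big hf)) b := by
  unfold TwData.total
  refine finsum_mem_congr rfl fun s hs => ?_
  obtain ⟨x, hx, -, rfl⟩ := hs
  rw [TwData.tw_mk, TwData.tw_mk]
  have hτx : Nr T.ρ ((T.tw hf).τ x) := Nr.map hf.norm hx
  have e : x⁻¹ * b' * (T.tw hf).τ x = (x⁻¹ * b * (T.tw hf).τ x) *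
      (((T.tw hf).τ x)⁻¹ * (b⁻¹ * b') * (T.tw hf).τ x) := by group
  rw [e]
  exact T.right _ (Nr.conj (radii hf).2.1 hτx h) _

/-- the cube roots in the big group are unique up to scalars -/
theorem root_scalar {b b' : GL (Fin 2) k} (hb : Nr T.ρ (GeneralLinearGroup.map f b))
    (hb' : Nr T.ρ (GeneralLinearGroup.map f b')) {z z' : GL (Fin 2) k}
    (hz : z ∈ Subgroup.center (GL (Fin 2) k)) (hz' : z' ∈ Subgroup.center (GL (Fin 2) k))
    (e : z * b ^ 3 = z' * b' ^ 3) (hf : Cubic f τ) : ∃ c : Fˣ,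
    GeneralLinearGroup.map f b = GeneralLinearGroup.scalar (Fin 2) c *
      GeneralLinearGroup.map f b' := by
  obtain ⟨h0, h1⟩ := hb.normal (radii hf).2.1
  obtain ⟨h0', h1'⟩ := hb'.normal (radii hf).2.1
  rw [GeneralLinearGroup.center_eq_range_scalar] at hz hz'
  obtain ⟨a, rfl⟩ := hz
  obtain ⟨a', rfl⟩ := hz'
  have e1 := congrArg (fun g => (GeneralLinearGroup.map f g : M2 F)) e
  simp only [map_mul, map_pow, map_scalar, coe_scalar_mul, Units.val_pow_eq_pow_val,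
    Units.coe_map, MonoidHom.coe_coe] at e1
  set B : M2 F := (GeneralLinearGroup.map f b : M2 F) with hB
  set B' : M2 F := (GeneralLinearGroup.map f b' : M2 F) with hB'
  have hfa : f (a : k) ≠ 0 := (map_ne_zero f).mpr a.ne_zero
  have hfa' : f (a' : k) ≠ 0 := (map_ne_zero f).mpr a'.ne_zero
  have e2 : ((B 0 0)⁻¹ • B) ^ 3 = ((B 0 0)⁻¹ ^ 3 * (f a)⁻¹ * f a' * (B' 0 0) ^ 3) •
      ((B' 0 0)⁻¹ • B') ^ 3 := by
    rw [smul_pow, smul_pow, smul_smul]
    have e3 : B ^ 3 = ((f a)⁻¹ * f a') • B' ^ 3 := by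
      calc B ^ 3 = (f a)⁻¹ • (f a • B ^ 3) := by rw [smul_smul, inv_mul_cancel₀ hfa, one_smul]
        _ = _ := by rw [e1, smul_smul]
    rw [e3, smul_smul]
    congr 1
    have : (B' 0 0) ^ 3 * (B' 0 0)⁻¹ ^ 3 = 1 := by
      rw [← mul_pow, mul_inv_cancel₀ h0', one_pow]
    linear_combination (-((B 0 0)⁻¹ ^ 3 * (f a)⁻¹ * f a')) * this
  obtain ⟨s, hs0, hs⟩ := root_unique hf.three (radii hf).1 h1 h1' e2
  refine ⟨Units.mk0 (B 0 0 * s * (B' 0 0)⁻¹)
    (mul_ne_zero (mul_ne_zero h0 hs0) (inv_ne_zero h0')), eq_scalar_mul _ ?_⟩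
  rw [← hB, ← hB']
  calc B = B 0 0 • ((B 0 0)⁻¹ • B) := by rw [smul_smul, mul_inv_cancel₀ h0, one_smul]
    _ = _ := by rw [hs, smul_smul, smul_smul]

/-- **the value of the transfer** -/
theorem fK_eq {b : GL (Fin 2) k} (hb : Nr T.ρ (GeneralLinearGroup.map f b)) {z : GL (Fin 2) k}
    (hz : z ∈ Subgroup.center (GL (Fin 2) k)) :
    T.fK hf (z * b ^ 3) = (T.tw hf).total (box (T.tw hf) (GeneralLinearGroup.map f) (T.big hf))
      (GeneralLinearGroup.map f b) := by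
  unfold fK cubeFun
  have h : ∃ b' : GL (Fin 2) k, GeneralLinearGroup.map f b' ∈ T.big hf ∧
      ∃ z' ∈ Subgroup.center (GL (Fin 2) k), z * b ^ 3 = z' * b' ^ 3 :=
    ⟨b, hb, z, hz, rfl⟩
  rw [dif_pos h]
  obtain ⟨hb', z', hz', e⟩ := h.choose_spec
  obtain ⟨c, hc⟩ := root_scalar (T := T) hb' hb hz' hz e.symm hf
  rw [hc, TwData.total_central _ _ (scalar_mem_WL c) (scalar_comm' c)]

theorem fK_eq_zero {a : GL (Fin 2) k}
    (h : ¬ ∃ b : GL (Fin 2) k, Nr T.ρ (GeneralLinearGroup.map f b) ∧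
      ∃ z ∈ Subgroup.center (GL (Fin 2) k), a = z * b ^ 3) : T.fK hf a = 0 := by
  unfold fK cubeFun
  exact dif_neg h

theorem nr_map_center {z : GL (Fin 2) k} (hz : z ∈ Subgroup.center (GL (Fin 2) k)) {r : ℝ}
    (hr : 0 ≤ r) : Nr r (GeneralLinearGroup.map f z) := by
  rw [GeneralLinearGroup.center_eq_range_scalar] at hz
  obtain ⟨a, rfl⟩ := hz
  rw [map_scalar]
  exact Nr.scalar hr _

/-- the support of the transfer -/
theorem fK_supp {a : GL (Fin 2) k} (h : T.fK hf a ≠ 0) : Nr T.ρ (GeneralLinearGroup.map f a) := by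
  by_cases h1 : ∃ b : GL (Fin 2) k, Nr T.ρ (GeneralLinearGroup.map f b) ∧
      ∃ z ∈ Subgroup.center (GL (Fin 2) k), a = z * b ^ 3
  · obtain ⟨b, hb, z, hz, rfl⟩ := h1
    rw [map_mul, map_pow]
    exact (T.big hf).mul_mem (nr_map_center hz T.ρ0) ((T.big hf).pow_mem hb 3)
  · exact absurd (fK_eq_zero h1) h

/-- cube roots of neighbours -/
theorem exists_root {b w : GL (Fin 2) k} (hb : Nr T.ρ (GeneralLinearGroup.map f b))
    (hw : Nr T.M (GeneralLinearGroup.map f w)) {z : GL (Fin 2) k}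
    (hz : z ∈ Subgroup.center (GL (Fin 2) k)) (hf : Cubic f τ) :
    ∃ b' : GL (Fin 2) k, Nr T.ρ (GeneralLinearGroup.map f b') ∧
      (∃ z' ∈ Subgroup.center (GL (Fin 2) k), z * b ^ 3 * w = z' * b' ^ 3) ∧
      Nr (‖(3 : F)⁻¹‖ * T.M)
        ((GeneralLinearGroup.map f b)⁻¹ * GeneralLinearGroup.map f b') := by
  obtain ⟨R1, R2, R3, R4, R5, R6, R7, R8⟩ := radii (T := T) hf
  obtain ⟨h0, h1⟩ := hb.normal R2
  obtain ⟨w0, w1⟩ := hw.normal R8
  set B : M2 F := (GeneralLinearGroup.map f b : M2 F) with hB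
  set Wm : M2 F := (GeneralLinearGroup.map f w : M2 F) with hWm
  have hB3 : ‖((B 0 0)⁻¹ • B) ^ 3‖ ≤ 1 := by
    refine (_root_.norm_pow_le _ _).trans (pow_le_one₀ (norm_nonneg _) ?_)
    exact norm_le_one_of_near R2.le h1
  have hclose : ‖((B 0 0)⁻¹ • B) ^ 3 * ((Wm 0 0)⁻¹ • Wm) - ((B 0 0)⁻¹ • B) ^ 3‖ ≤ T.M := by
    have : ((B 0 0)⁻¹ • B) ^ 3 * ((Wm 0 0)⁻¹ • Wm) - ((B 0 0)⁻¹ • B) ^ 3 =
        ((B 0 0)⁻¹ • B) ^ 3 * ((Wm 0 0)⁻¹ • Wm - 1) := by rw [mul_sub, mul_one]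
    rw [this]
    calc _ ≤ ‖((B 0 0)⁻¹ • B) ^ 3‖ * ‖(Wm 0 0)⁻¹ • Wm - 1‖ := norm_mul_le _ _
      _ ≤ 1 * ‖(Wm 0 0)⁻¹ • Wm - 1‖ := by gcongr
      _ ≤ T.M := by rw [one_mul]; exact w1
  obtain ⟨C, hC3, hC⟩ := exists_root_near hf.three R1 R7 h1 hclose
  have hC1 : ‖C - 1‖ ≤ T.ρ := by
    have : C - 1 = (C - (B 0 0)⁻¹ • B) + ((B 0 0)⁻¹ • B - 1) := by abel
    rw [this]
    exact (norm_add_le_max _ _).trans (max_le (hC.trans R5) h1)
  have hBτ : tM τ ((B 0 0)⁻¹ • B) = (B 0 0)⁻¹ • B := by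
    rw [tM_smul, hf.tM_map, map_inv₀]
    congr 2
    exact (hf.fix _).mpr ⟨_, rfl⟩
  have hWτ : tM τ ((Wm 0 0)⁻¹ • Wm) = (Wm 0 0)⁻¹ • Wm := by
    rw [tM_smul, hf.tM_map, map_inv₀]
    congr 2
    exact (hf.fix _).mpr ⟨_, rfl⟩
  have hCτ : tM τ C = C := by
    obtain ⟨k1, k2, k3⟩ := radius_aux (isThird_field hf.three) T.ρ0 R1
    have hρC : T.ρ ≤ ‖(3 : F)⁻¹‖ * T.ρ := by
      have := hf.one_le
      have := T.ρ0
      nlinarith
    refine cube_root_unique (isThird_mat hf.three) (ρ := ‖(3 : F)⁻¹‖ * T.ρ) k1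
      (by rw [norm_third_mat]; exact k3) ?_ (hC1.trans hρC) ?_
    · have : tM τ C - 1 = tM τ (C - 1) := by rw [map_sub, map_one]
      rw [this, norm_tM τ hf.norm]
      exact hC1.trans hρC
    · rw [← map_pow, hC3, map_mul, map_pow, hBτ, hWτ]
  have hCu : IsUnit C := isUnit_of_near R2 hC1
  obtain ⟨b', hb'⟩ := hf.exists_GL hCu hCτ
  refine ⟨b', ⟨1, one_ne_zero, by rw [one_smul, hb']; exact hC1⟩, ?_, ?_⟩
  · -- the scalar
    have hb00 : B 0 0 = f (b 0 0) := rfl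
    have hw00 : Wm 0 0 = f (w 0 0) := rfl
    have hbk : b 0 0 ≠ 0 := fun h => h0 (by rw [hb00, h, map_zero])
    have hwk : w 0 0 ≠ 0 := fun h => w0 (by rw [hw00, h, map_zero])
    have hne : (b 0 0) ^ 3 * w 0 0 ≠ 0 := mul_ne_zero (pow_ne_zero _ hbk) hwk
    refine ⟨z * GeneralLinearGroup.scalar (Fin 2) (Units.mk0 _ hne),
      Subgroup.mul_mem _ hz (mem_center_of_scalar _), ?_⟩
    have e : b ^ 3 * w = GeneralLinearGroup.scalar (Fin 2) (Units.mk0 _ hne) * b' ^ 3 := by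
      apply eq_scalar_mul
      have hinj : Function.Injective (f.mapMatrix : M2 k →+* M2 F) := by
        intro X Y h
        ext i j
        exact f.injective (congrFun (congrFun h i) j)
      apply hinj
      have l1 : f.mapMatrix (((b ^ 3 * w : GL (Fin 2) k)) : M2 k) = B ^ 3 * Wm := by
        rw [Units.val_mul, Units.val_pow_eq_pow_val, map_mul, map_pow]
        rfl
      have l2 : f.mapMatrix (((b 0 0) ^ 3 * w 0 0) • ((b' ^ 3 : GL (Fin 2) k) : M2 k)) =
          (f (b 0 0) ^ 3 * f (w 0 0)) • C ^ 3 := by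
        have : f.mapMatrix (((b 0 0) ^ 3 * w 0 0) • ((b' ^ 3 : GL (Fin 2) k) : M2 k)) =
            f ((b 0 0) ^ 3 * w 0 0) • f.mapMatrix ((b' ^ 3 : GL (Fin 2) k) : M2 k) := by
          ext i j
          exact map_mul f _ _
        rw [this, Units.val_pow_eq_pow_val, map_pow f.mapMatrix, map_mul f, map_pow f, ← hb']
        rfl
      rw [l1, l2, hC3, ← hb00, ← hw00, smul_pow, smul_mul_smul_comm, smul_smul]
      have : (B 0 0 ^ 3 * Wm 0 0) * ((B 0 0)⁻¹ ^ 3 * (Wm 0 0)⁻¹) = 1 := by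
        field_simp
      rw [this, one_smul]
    rw [mul_assoc, e, mul_assoc]
  · refine Nr.of_close R2 (inv_ne_zero h0) one_ne_zero h1 ?_
    rw [one_smul, hb']
    exact hC

/-- right invariance -/
theorem fK_right {w : GL (Fin 2) k} (hw : Nr T.M (GeneralLinearGroup.map f w))
    (a : GL (Fin 2) k) : T.fK hf (a * w) = T.fK hf a := by
  have key : ∀ (a w : GL (Fin 2) k), Nr T.M (GeneralLinearGroup.map f w) →
      (∃ b : GL (Fin 2) k, Nr T.ρ (GeneralLinearGroup.map f b) ∧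
      ∃ z ∈ Subgroup.center (GL (Fin 2) k), a = z * b ^ 3) → T.fK hf (a * w) = T.fK hf a := by
    rintro a w hw ⟨b, hb, z, hz, rfl⟩
    obtain ⟨b', hb', ⟨z', hz', e⟩, hnear⟩ := exists_root hb hw hz hf
    rw [e, fK_eq hb' hz', fK_eq hb hz]
    exact total_near hnear
  by_cases h : ∃ b : GL (Fin 2) k, Nr T.ρ (GeneralLinearGroup.map f b) ∧
      ∃ z ∈ Subgroup.center (GL (Fin 2) k), a = z * b ^ 3
  · exact key a w hw h
  · by_cases h' : ∃ b : GL (Fin 2) k, Nr T.ρ (GeneralLinearGroup.map f b) ∧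
      ∃ z ∈ Subgroup.center (GL (Fin 2) k), a * w = z * b ^ 3
    · have := key (a * w) w⁻¹ (by rw [map_inv]; exact Nr.inv (radii hf).2.2.2.2.2.2.2 hw) h'
      rw [mul_inv_cancel_right] at this
      exact this.symm
    · rw [fK_eq_zero h, fK_eq_zero h']

/-- left invariance -/
theorem fK_left {w : GL (Fin 2) k} (hw : Nr T.M (GeneralLinearGroup.map f w))
    (a : GL (Fin 2) k) : T.fK hf (w * a) = T.fK hf a := by
  by_cases ha : Nr T.ρ (GeneralLinearGroup.map f a)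
  · have e : w * a = a * (a⁻¹ * w * a) := by group
    rw [e]
    refine fK_right ?_ a
    rw [map_mul, map_mul, map_inv]
    exact Nr.conj (radii hf).2.1 ha hw
  · have h1 : T.fK hf a = 0 := by
      by_contra h
      exact ha (fK_supp h)
    have h2 : T.fK hf (w * a) = 0 := by
      by_contra h
      apply ha
      have h3 := fK_supp h
      have h4 : Nr T.ρ (GeneralLinearGroup.map f w) := hw.mono (radii hf).2.2.2.2.2.2.1
      have e : GeneralLinearGroup.map f a =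
          (GeneralLinearGroup.map f w)⁻¹ * GeneralLinearGroup.map f (w * a) := by
        rw [map_mul]; group
      rw [e]
      exact Nr.mul (radii hf).2.1.le (Nr.inv (radii hf).2.1 h4) h3
    rw [h1, h2]

theorem mem_WK {w : GL (Fin 2) k} : w ∈ T.WK hf ↔ Nr T.M (GeneralLinearGroup.map f w) := Iff.rfl

/-- the finitely many cosets of `GL₂(k) ∩ big` -/
theorem finite_cosets_k : {y : GL (Fin 2) k ⧸ T.WK hf | ∃ a : GL (Fin 2) k,
    Nr T.ρ (GeneralLinearGroup.map f a) ∧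
      y = ((a : GL (Fin 2) k) : GL (Fin 2) k ⧸ T.WK hf)}.Finite := by
  have h := finite_cosets hf.tb (radii (T := T) hf).2.1 T.M0 (radii hf).2.2.2.2.2.2.2
  let e : GL (Fin 2) k ⧸ T.WK hf → GL (Fin 2) F ⧸ UU T.M T.M0.le (radii hf).2.2.2.2.2.2.2 :=
    Quotient.lift (fun x : GL (Fin 2) k => ((GeneralLinearGroup.map f x : GL (Fin 2) F) :
      GL (Fin 2) F ⧸ UU T.M T.M0.le (radii hf).2.2.2.2.2.2.2)) (by
      intro a b hab
      rw [QuotientGroup.eq, ← map_inv, ← map_mul]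
      exact QuotientGroup.leftRel_apply.mp hab)
  have hinj : Function.Injective e := by
    intro x y hxy
    obtain ⟨x, rfl⟩ := QuotientGroup.mk_surjective x
    obtain ⟨y, rfl⟩ := QuotientGroup.mk_surjective y
    have h1 := QuotientGroup.eq.mp hxy
    rw [← map_inv, ← map_mul] at h1
    exact QuotientGroup.eq.mpr h1
  refine (h.preimage hinj.injOn).subset ?_
  rintro y ⟨a, ha, rfl⟩
  exact ⟨_, ha, rfl⟩

variable (T hf) in
/-- **The transfer is a Hecke kernel.** -/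
theorem biFin_fK : HK.BiFin (T.WK hf) (T.fK hf) where
  left w hw a := fK_left hw a
  right w hw a := fK_right hw a
  row := (finite_cosets_k (T := T) (hf := hf)).subset fun y hy =>
    ⟨y.out, fK_supp hy, (QuotientGroup.out_eq' y).symm⟩
  col := (finite_cosets_k (T := T) (hf := hf)).subset fun y hy => by
    refine ⟨y.out, ?_, (QuotientGroup.out_eq' y).symm⟩
    have h := fK_supp hy
    rw [map_inv] at h
    have := Nr.inv (radii hf).2.1 h
    rwa [inv_inv] at this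

variable (T hf) in
/-- the data on the side of `k` -/
def twK : TwData (GL (Fin 2) k) where
  τ := MonoidHom.id _
  W := T.WK hf
  hτ := fun _ hu => hu
  φ := T.fK hf
  left := fun _ hu g => fK_left hu g
  right := fun _ hu g => fK_right hu g

theorem fK_central {z : GL (Fin 2) k} (hz : z ∈ Subgroup.center (GL (Fin 2) k))
    (a : GL (Fin 2) k) : T.fK hf (z * a) = T.fK hf a :=
  fK_left (nr_map_center hz T.M0.le) a

end Test

end Fermat.Agent.LT.Near

end
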