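import Fermat.Agent.LT.Near.Bad

/-!
# The local comparison at a bad non-split place

`exists_push_bad` : for `γ ∈ GL₂(k)` not scalar, `δ ∈ GL₂(F)` commuting with `γ` and
`δ τ(δ) τ²(δ) = γ` up to `k^×`, the weight `x ↦ φ (x⁻¹ δ τ(x))` on `GL₂(F)/W_L` is pushed forward to
the weight `y ↦ T.fK (y⁻¹ γ y)` on `GL₂(k)/W_K`, by a map which is equivariant under the centraliser of
`γ` in `GL₂(k)`.
-/

set_option autoImplicit false
set_option linter.unusedSectionVars false

open Matrix IsUltrametricDist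

noncomputable section

namespace Fermat.Agent.LT.Near

variable {k F : Type*} [Field k] [NormedField F] [IsUltrametricDist F] [CompleteSpace F]

attribute [local instance] matNormedRing matNormOne matUltra matComplete

namespace Test

variable {f : k →+* F} {τ : F ≃+* F} {T : Test F} {hf : Cubic f τ}

theorem coe_map_mul {g h : GL (Fin 2) F} : ((g * h : GL (Fin 2) F) : M2 F) = (g : M2 F) * h := rfl

/-- the small root in `GL₂(k)` and the conjugating element -/
theorem exists_pushData {δ : GL (Fin 2) F} {γ : GL (Fin 2) k} (hns : ¬ IsScalar (γ : M2 k))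
    (hN : δ * (T.tw hf).τ δ * (T.tw hf).τ ((T.tw hf).τ δ) = GeneralLinearGroup.map f γ)
    {c : F} {κ y : M2 F}
    (hd : NearData τ T.ρ (GeneralLinearGroup.map f γ : M2 F) (δ : M2 F) c κ y) :
    ∃ (kH : GL (Fin 2) k) (yG : GL (Fin 2) F),
      yG * GeneralLinearGroup.map f γ = GeneralLinearGroup.map f γ * yG ∧
      PushData (T.tw hf) (GeneralLinearGroup.map f) (T.big hf)
        (Subgroup.center (GL (Fin 2) k)) δ γ kH yG := by
  obtain ⟨R1, R2, R3, R4, R5, R6, R7, R8⟩ := radii (T := T) hf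
  have hsm : ‖(3 : F)⁻¹‖ ^ 2 * (‖(2 : F)⁻¹‖ * T.ρ) < 1 := T.small
  have hnsF : ¬ IsScalar (GeneralLinearGroup.map f γ : M2 F) := fun h => hns (isScalar_map.mp h)
  have hγτ := hf.tM_map γ
  have hNm : (δ : M2 F) * tM τ δ * tM τ (tM τ δ) = (GeneralLinearGroup.map f γ : M2 F) := by
    have := congrArg (fun g : GL (Fin 2) F => (g : M2 F)) hN
    exact this
  have hκu : IsUnit κ := by
    have := hd.small.isUnit_one_add R2
    rwa [add_sub_cancel] at this
  obtain ⟨kH, hkH⟩ := hf.exists_GL hκu hd.fix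
  obtain ⟨yG, hyG⟩ := hd.unit
  have hyκ : κ * y = y * κ := commute_of_nonscalar hnsF hd.comm hd.commy
  refine ⟨kH, yG, ?_, ?_, ?_, ?_, ?_⟩
  · apply Units.ext
    rw [Units.val_mul, Units.val_mul, hyG]
    exact hd.commy
  · refine ⟨GeneralLinearGroup.scalar (Fin 2) (Units.mk0 c hd.c_ne), scalar_mem_WL _,
      scalar_comm' _, ?_⟩
    rw [← eq_scalar_mul hd.c_ne]
    rw [Units.val_mul, Units.val_mul, hkH, hyG, ← hyκ, ← hd.eq]
    congr 1
    rw [← hyG]
    rfl
  · obtain ⟨a, ha⟩ := (hf.fix _).mp (tau_Nsc τ hf.tau3 c)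
    have ha0 : a ≠ 0 := by
      rintro rfl
      rw [map_zero] at ha
      exact Nsc_ne_zero τ hd.c_ne ha.symm
    refine ⟨GeneralLinearGroup.scalar (Fin 2) (Units.mk0 a ha0), mem_center_of_scalar _, ?_⟩
    rw [← eq_scalar_mul ha0]
    have hinj : Function.Injective (f.mapMatrix : M2 k →+* M2 F) := by
      intro X Y h
      ext i j
      exact f.injective (congrFun (congrFun h i) j)
    apply hinj
    have l2 : f.mapMatrix (a • ((kH ^ 3 : GL (Fin 2) k) : M2 k)) = f a • κ ^ 3 := by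
      have : f.mapMatrix (a • ((kH ^ 3 : GL (Fin 2) k) : M2 k)) =
          f a • f.mapMatrix ((kH ^ 3 : GL (Fin 2) k) : M2 k) := by
        ext i j
        exact map_mul f _ _
      rw [this, Units.val_pow_eq_pow_val, map_pow f.mapMatrix, ← hkH]
      rfl
    rw [l2, ha, hd.cube]
    rfl
  · intro x hx
    obtain ⟨c', hc', hx'⟩ := T.supp _ hx
    have heq : (δ : M2 F) * tM τ x = c'⁻¹ • ((x : M2 F) *
        (c' • ((x⁻¹ * δ * (T.tw hf).τ x : GL (Fin 2) F) : M2 F))) := by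
      rw [mul_smul_comm, smul_smul, inv_mul_cancel₀ hc', one_smul]
      have : (x : M2 F) * ((x⁻¹ * δ * (T.tw hf).τ x : GL (Fin 2) F) : M2 F) =
          ((x * (x⁻¹ * δ * (T.tw hf).τ x) : GL (Fin 2) F) : M2 F) := rfl
      rw [this]
      have e : x * (x⁻¹ * δ * (T.tw hf).τ x) = δ * (T.tw hf).τ x := by group
      rw [e]
      rfl
    obtain ⟨b, g, u, hb, hg, hgτ, hu, hxe⟩ := NearData.exists_decomp' hf.three hf.two hf.tau3
      hf.norm hγτ hnsF hNm R3 hsm hd (inv_ne_zero hc') x.isUnit hx' heq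
    obtain ⟨gH, hgH⟩ := hf.exists_GL hg hgτ
    obtain ⟨uG, huG⟩ := isUnit_of_near R2 hu
    refine ⟨gH, GeneralLinearGroup.scalar (Fin 2) (Units.mk0 b hb) * uG, ?_, ?_⟩
    · refine (T.big hf).mul_mem (Nr.scalar T.ρ0 _) ⟨1, one_ne_zero, ?_⟩
      rw [one_smul, huG]
      exact hu
    · have e : yG * GeneralLinearGroup.map f gH *
          (GeneralLinearGroup.scalar (Fin 2) (Units.mk0 b hb) * uG) =
          GeneralLinearGroup.scalar (Fin 2) (Units.mk0 b hb) *
            (yG * GeneralLinearGroup.map f gH * uG) := by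
        rw [← mul_assoc, ← scalar_comm', mul_assoc]
      rw [e]
      apply eq_scalar_mul hb
      rw [hxe, Units.val_mul, Units.val_mul, hyG, hgH, huG]
  · intro g b hb z hz e
    obtain ⟨h0, h1⟩ := Nr.normal R2 hb
    rw [GeneralLinearGroup.center_eq_range_scalar] at hz
    obtain ⟨a, rfl⟩ := hz
    set B : M2 F := (GeneralLinearGroup.map f b : M2 F) with hB
    have hB00 : B 0 0 = f (b 0 0) := rfl
    set G : M2 F := (GeneralLinearGroup.map f g : M2 F) with hG
    have hfix : τ (f a * B 0 0 ^ 3) = f a * B 0 0 ^ 3 :=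
      (hf.fix _).mpr ⟨a * b 0 0 ^ 3, by rw [map_mul, map_pow, hB00]⟩
    have heq : (GeneralLinearGroup.map f γ : M2 F) * G =
        (f a * B 0 0 ^ 3) • (G * ((B 0 0)⁻¹ • B) ^ 3) := by
      have e1 : γ * g = GeneralLinearGroup.scalar (Fin 2) a * (g * b ^ 3) := by
        calc γ * g = g * (g⁻¹ * γ * g) := by group
          _ = g * (GeneralLinearGroup.scalar (Fin 2) a * b ^ 3) := by rw [e]
          _ = _ := by rw [← mul_assoc, ← scalar_comm', mul_assoc]
      have e2 := congrArg (fun g => (GeneralLinearGroup.map f g : M2 F)) e1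
      simp only [map_mul, map_pow, map_scalar, Units.val_mul, coe_scalar_eq, smul_mul_assoc,
        one_mul, Units.val_pow_eq_pow_val, Units.coe_map, MonoidHom.coe_coe] at e2
      rw [smul_pow, mul_smul_comm, smul_smul]
      have : f a * B 0 0 ^ 3 * (B 0 0)⁻¹ ^ 3 = f a := by
        field_simp
      rw [this]
      exact e2
    obtain ⟨s, hs0, hsτ, -, hks⟩ := hd.exists_scalar hf.three hf.two hf.tau3 hf.norm hnsF hsm
      hfix (GeneralLinearGroup.map f g).isUnit (ss_of_norm h1) heq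
    obtain ⟨s₀, hs₀⟩ := (hf.fix _).mp hsτ
    have hs₀0 : s₀ ≠ 0 := by
      rintro rfl
      rw [map_zero] at hs₀
      exact hs0 hs₀.symm
    have hbk : b 0 0 ≠ 0 := fun h => h0 (by rw [hB00, h, map_zero])
    have hne : b 0 0 * s₀⁻¹ ≠ 0 := mul_ne_zero hbk (inv_ne_zero hs₀0)
    refine ⟨GeneralLinearGroup.scalar (Fin 2) (Units.mk0 _ hne), ?_, ?_, ?_⟩
    · rw [map_scalar]
      exact scalar_mem_WL _
    · intro x
      rw [map_scalar]
      exact scalar_comm' _ x
    · apply eq_scalar_mul hne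
      have hinj : Function.Injective (f.mapMatrix : M2 k →+* M2 F) := by
        intro X Y h
        ext i j
        exact f.injective (congrFun (congrFun h i) j)
      apply hinj
      have l2 : f.mapMatrix ((b 0 0 * s₀⁻¹) • ((g⁻¹ * kH * g : GL (Fin 2) k) : M2 k)) =
          (f (b 0 0) * s⁻¹) • (((GeneralLinearGroup.map f g)⁻¹ : GL (Fin 2) F) * κ * G) := by
        have : f.mapMatrix ((b 0 0 * s₀⁻¹) • ((g⁻¹ * kH * g : GL (Fin 2) k) : M2 k)) =
            f (b 0 0 * s₀⁻¹) • f.mapMatrix ((g⁻¹ * kH * g : GL (Fin 2) k) : M2 k) := by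
          ext i j
          exact map_mul f _ _
        rw [this, map_mul, map_inv₀, hs₀, Units.val_mul, Units.val_mul, map_mul, map_mul, ← hkH,
          ← map_inv]
        rfl
      rw [l2, ← hB00, mul_assoc, hks, mul_smul_comm, smul_smul, ← mul_assoc]
      have e3 : (((GeneralLinearGroup.map f g)⁻¹ : GL (Fin 2) F) : M2 F) * G = 1 := by
        rw [hG, ← Units.val_mul, inv_mul_cancel, Units.val_one]
      rw [e3, one_mul, smul_smul]
      have : B 0 0 * s⁻¹ * s * (B 0 0)⁻¹ = 1 := by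
        field_simp
      rw [this, one_smul]
      rfl

/-- If there is no small root, both sides vanish. -/
theorem eq_zero_of_not {δ : GL (Fin 2) F} {γ : GL (Fin 2) k} (hns : ¬ IsScalar (γ : M2 k))
    (hδγ : δ * GeneralLinearGroup.map f γ = GeneralLinearGroup.map f γ * δ)
    (hN : δ * (T.tw hf).τ δ * (T.tw hf).τ ((T.tw hf).τ δ) = GeneralLinearGroup.map f γ)
    (hno : ¬ ∃ (c : F) (κ y : M2 F),
      NearData τ T.ρ (GeneralLinearGroup.map f γ : M2 F) (δ : M2 F) c κ y) :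
    (∀ x, T.φ (x⁻¹ * δ * (T.tw hf).τ x) = 0) ∧ ∀ g, T.fK hf (g⁻¹ * γ * g) = 0 := by
  obtain ⟨R1, R2, R3, R4, R5, R6, R7, R8⟩ := radii (T := T) hf
  have hsm : ‖(3 : F)⁻¹‖ ^ 2 * (‖(2 : F)⁻¹‖ * T.ρ) < 1 := T.small
  have hnsF : ¬ IsScalar (GeneralLinearGroup.map f γ : M2 F) := fun h => hns (isScalar_map.mp h)
  have hγτ := hf.tM_map γ
  have hNm : (δ : M2 F) * tM τ δ * tM τ (tM τ δ) = (GeneralLinearGroup.map f γ : M2 F) := by
    have := congrArg (fun g : GL (Fin 2) F => (g : M2 F)) hN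
    exact this
  constructor
  · intro x
    by_contra hx
    obtain ⟨c', hc', hx'⟩ := T.supp _ hx
    have heq : (δ : M2 F) * tM τ x = c'⁻¹ • ((x : M2 F) *
        (c' • ((x⁻¹ * δ * (T.tw hf).τ x : GL (Fin 2) F) : M2 F))) := by
      rw [mul_smul_comm, smul_smul, inv_mul_cancel₀ hc', one_smul]
      have : (x : M2 F) * ((x⁻¹ * δ * (T.tw hf).τ x : GL (Fin 2) F) : M2 F) =
          ((x * (x⁻¹ * δ * (T.tw hf).τ x) : GL (Fin 2) F) : M2 F) := rfl
      rw [this]
      have e : x * (x⁻¹ * δ * (T.tw hf).τ x) = δ * (T.tw hf).τ x := by group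
      rw [e]
      rfl
    have hr : ‖(3 : F)⁻¹‖ ^ 2 * T.r < 1 := R2
    obtain ⟨κ, y, -, -, -, hd, -⟩ := nearData_of_x hf.three hf.tau3 hf.norm hγτ hnsF hNm hr
      (inv_ne_zero hc') x.isUnit hx' heq
    exact hno ⟨_, κ, y, ⟨hd.c_ne, hd.fix, hd.comm, hd.small.mono R3, hd.unit, hd.commy, hd.eq,
      hd.cube⟩⟩
  · intro g
    refine fK_eq_zero ?_
    rintro ⟨b, hb, z, hz, e⟩
    obtain ⟨h0, h1⟩ := Nr.normal R2 hb
    rw [GeneralLinearGroup.center_eq_range_scalar] at hz
    obtain ⟨a, rfl⟩ := hz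
    set B : M2 F := (GeneralLinearGroup.map f b : M2 F) with hB
    have hB00 : B 0 0 = f (b 0 0) := rfl
    set G : M2 F := (GeneralLinearGroup.map f g : M2 F) with hG
    set G' : M2 F := (((GeneralLinearGroup.map f g)⁻¹ : GL (Fin 2) F) : M2 F) with hG'
    have hGG' : G * G' = 1 := by rw [hG, hG', ← Units.val_mul, mul_inv_cancel, Units.val_one]
    have hG'G : G' * G = 1 := mul_eq_one_comm.mp hGG'
    set κ : M2 F := G * ((B 0 0)⁻¹ • B) * G' with hκ
    have hGτ : tM τ G = G := hf.tM_map g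
    have hG'τ : tM τ G' = G' := by
      rw [hG', ← map_inv]
      exact hf.tM_map g⁻¹
    have hBτ : tM τ ((B 0 0)⁻¹ • B) = (B 0 0)⁻¹ • B := by
      rw [tM_smul, hf.tM_map, map_inv₀]
      congr 2
      exact (hf.fix _).mpr ⟨_, rfl⟩
    have hκτ : tM τ κ = κ := by rw [hκ, map_mul, map_mul, hGτ, hG'τ, hBτ]
    have hfix : τ (f a * B 0 0 ^ 3) = f a * B 0 0 ^ 3 :=
      (hf.fix _).mpr ⟨a * b 0 0 ^ 3, by rw [map_mul, map_pow, hB00]⟩
    have hfa : f (a : k) ≠ 0 := (map_ne_zero f).mpr a.ne_zero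
    have hκ3 : κ ^ 3 = G * ((B 0 0)⁻¹ • B) ^ 3 * G' := by
      rw [hκ, pow_succ, pow_two]
      calc G * ((B 0 0)⁻¹ • B) * G' * (G * ((B 0 0)⁻¹ • B) * G') * (G * ((B 0 0)⁻¹ • B) * G')
          = G * ((B 0 0)⁻¹ • B) * (G' * G) * ((B 0 0)⁻¹ • B) * (G' * G) * ((B 0 0)⁻¹ • B) * G' := by
            simp only [mul_assoc]
        _ = _ := by rw [hG'G, mul_one, mul_one, pow_succ, pow_two]; simp only [mul_assoc]
    have hcube : (f a * B 0 0 ^ 3) • κ ^ 3 = (GeneralLinearGroup.map f γ : M2 F) := by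
      have e1 : γ = GeneralLinearGroup.scalar (Fin 2) a * (g * b ^ 3 * g⁻¹) := by
        calc γ = g * (g⁻¹ * γ * g) * g⁻¹ := by group
          _ = g * (GeneralLinearGroup.scalar (Fin 2) a * b ^ 3) * g⁻¹ := by rw [e]
          _ = _ := by rw [← mul_assoc, ← scalar_comm', mul_assoc, mul_assoc, mul_assoc]
      have e2 := congrArg (fun g => (GeneralLinearGroup.map f g : M2 F)) e1
      simp only [map_mul, map_pow, map_inv, map_scalar, Units.val_mul, coe_scalar_eq,
        smul_mul_assoc, one_mul, Units.val_pow_eq_pow_val, Units.coe_map,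
        MonoidHom.coe_coe] at e2
      rw [hκ3, smul_pow, mul_smul_comm, smul_mul_assoc, smul_smul]
      have : f a * B 0 0 ^ 3 * (B 0 0)⁻¹ ^ 3 = f a := by
        field_simp
      rw [this]
      exact e2.symm
    have hκu : IsUnit κ := by
      refine (IsUnit.mul (IsUnit.mul (isUnit_of_mul hGG') (isUnit_of_near R2 h1))
        (isUnit_of_mul hG'G))
    have hκγ : κ * (GeneralLinearGroup.map f γ : M2 F) =
        (GeneralLinearGroup.map f γ : M2 F) * κ := by
      rw [← hcube, mul_smul_comm, smul_mul_assoc, ← pow_succ, ← pow_succ']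
    have hss : SS T.ρ (κ - 1) := by
      have : κ - 1 = G * ((B 0 0)⁻¹ • B - 1) * G' := by
        rw [mul_sub, sub_mul, mul_one, hGG']
      rw [this]
      exact (ss_of_norm h1).conj hGG'
    have hδγm : (δ : M2 F) * (GeneralLinearGroup.map f γ : M2 F) =
        (GeneralLinearGroup.map f γ : M2 F) * δ :=
      congrArg (fun g : GL (Fin 2) F => (g : M2 F)) hδγ
    obtain ⟨c, y, hd⟩ := nearData_of_cube hf.tau3 hf.ne hγτ hnsF hδγm δ.isUnit hNm
      (mul_ne_zero hfa (pow_ne_zero 3 h0)) hfix hκu hκτ hκγ hss hcube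
    exact hno ⟨c, κ, y, hd⟩

/-- **The comparison at a bad non-split place.** -/
theorem exists_push_bad {δ : GL (Fin 2) F} {γ : GL (Fin 2) k} (hns : ¬ IsScalar (γ : M2 k))
    (hδγ : δ * GeneralLinearGroup.map f γ = GeneralLinearGroup.map f γ * δ)
    {z : GL (Fin 2) k} (hz : z ∈ Subgroup.center (GL (Fin 2) k))
    (hN : δ * (T.tw hf).τ δ * (T.tw hf).τ ((T.tw hf).τ δ) = GeneralLinearGroup.map f (z * γ)) :
    ∃ p : GL (Fin 2) F ⧸ T.WL hf → GL (Fin 2) k ⧸ T.WK hf,
      (∀ t, t * γ = γ * t → ∀ a, (T.tw hf).tw δ a ≠ 0 →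
        p (GeneralLinearGroup.map f t • a) = t • p a) ∧
      FibSum p ((T.tw hf).tw δ) ((T.twK hf).tw γ) := by
  have hzc : ∀ x, z * x = x * z := fun x => ((Subgroup.mem_center_iff.mp hz) x).symm
  have hval : ∀ g : GL (Fin 2) k, (T.twK hf).tw γ ((g : GL (Fin 2) k) : GL (Fin 2) k ⧸ T.WK hf) =
      T.fK hf (g⁻¹ * (z * γ) * g) := by
    intro g
    have e : g⁻¹ * (z * γ) * g = z * (g⁻¹ * γ * g) := by
      rw [← mul_assoc, ← hzc g⁻¹]; group
    rw [e, fK_central hz]
    rfl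
  have hns' : ¬ IsScalar ((z * γ : GL (Fin 2) k) : M2 k) := by
    rw [GeneralLinearGroup.center_eq_range_scalar] at hz
    obtain ⟨a, rfl⟩ := hz
    intro h
    apply hns
    have ha := a.ne_zero
    have hent : ∀ i l, (GeneralLinearGroup.scalar (Fin 2) a * γ : GL (Fin 2) k) i l =
        (a : k) * γ i l := by
      intro i l
      rw [GeneralLinearGroup.coe_mul, GeneralLinearGroup.coe_scalar, Matrix.scalar_apply,
        Matrix.diagonal_mul]
    obtain ⟨h1, h2, h3⟩ := h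
    rw [hent] at h1 h2 h3
    rw [hent] at h3
    exact ⟨(mul_eq_zero.mp h1).resolve_left ha, (mul_eq_zero.mp h2).resolve_left ha,
      mul_left_cancel₀ ha h3⟩
  have hδγ' : δ * GeneralLinearGroup.map f (z * γ) = GeneralLinearGroup.map f (z * γ) * δ := by
    rw [GeneralLinearGroup.center_eq_range_scalar] at hz
    obtain ⟨a, rfl⟩ := hz
    rw [map_mul, map_scalar, ← mul_assoc, ← scalar_comm', mul_assoc, hδγ, mul_assoc]
  by_cases hex : ∃ (c : F) (κ y : M2 F),
      NearData τ T.ρ (GeneralLinearGroup.map f (z * γ) : M2 F) (δ : M2 F) c κ y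
  · obtain ⟨c, κ, y, hd⟩ := hex
    obtain ⟨kH, yG, hyγ, P⟩ := exists_pushData hns' hN hd
    have S := T.setup hf
    refine ⟨proj (T.tw hf) (GeneralLinearGroup.map f) (T.big hf) yG, ?_, ?_, ?_⟩
    · intro t ht a ha
      refine P.proj_smul S ?_ ha
      -- `y` and `t` commute with `γ`
      have hnsF : ¬ IsScalar (GeneralLinearGroup.map f (z * γ) : M2 F) :=
        fun h => hns' (isScalar_map.mp h)
      have h1 : (GeneralLinearGroup.map f t : M2 F) * (GeneralLinearGroup.map f (z * γ) :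
          M2 F) = (GeneralLinearGroup.map f (z * γ) : M2 F) * GeneralLinearGroup.map f t := by
        have : t * (z * γ) = z * γ * t := by
          rw [← mul_assoc, ← hzc, mul_assoc, ht, mul_assoc]
        have h2 := congrArg (GeneralLinearGroup.map f) this
        rw [map_mul, map_mul _ (z * γ)] at h2
        exact congrArg (fun g : GL (Fin 2) F => (g : M2 F)) h2
      have h3 : (yG : M2 F) * (GeneralLinearGroup.map f (z * γ) : M2 F) =
          (GeneralLinearGroup.map f (z * γ) : M2 F) * yG :=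
        congrArg (fun g : GL (Fin 2) F => (g : M2 F)) hyγ
      exact Units.ext (commute_of_nonscalar hnsF h1 h3)
    · intro b
      refine (P.finite_fibre S b).subset fun a ha => ?_
      exact ⟨ha.2, ha.1⟩
    · intro b
      obtain ⟨g, rfl⟩ := QuotientGroup.mk_surjective b
      rw [hval g]
      have := P.finsum_proj S g
      rw [finsum_mem_def] at this
      refine Eq.trans (finsum_congr fun a => ?_) this
      by_cases h : proj (T.tw hf) (GeneralLinearGroup.map f) (T.big hf) yG a =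
          ((g : GL (Fin 2) k) : GL (Fin 2) k ⧸ T.WK hf)
      · rw [if_pos h]
        exact (Set.indicator_of_mem (s := {s | proj (T.tw hf) (GeneralLinearGroup.map f)
          (T.big hf) yG s = ((g : GL (Fin 2) k) : GL (Fin 2) k ⧸ T.WK hf)}) h _).symm
      · rw [if_neg h]
        exact (Set.indicator_of_notMem (s := {s | proj (T.tw hf) (GeneralLinearGroup.map f)
          (T.big hf) yG s = ((g : GL (Fin 2) k) : GL (Fin 2) k ⧸ T.WK hf)}) h _).symm
  · obtain ⟨h1, h2⟩ := eq_zero_of_not hns' hδγ' hN hex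
    have h1' : ∀ a, (T.tw hf).tw δ a = 0 := by
      intro a
      obtain ⟨x, rfl⟩ := QuotientGroup.mk_surjective a
      exact h1 x
    refine ⟨fun _ => ((1 : GL (Fin 2) k) : GL (Fin 2) k ⧸ T.WK hf), ?_, ?_, ?_⟩
    · intro t _ a ha
      exact absurd (h1' a) ha
    · intro b
      refine Set.finite_empty.subset fun a ha => ?_
      exact ha.1 (h1' a)
    · intro b
      obtain ⟨g, rfl⟩ := QuotientGroup.mk_surjective b
      rw [hval g, h2 g]
      refine finsum_eq_zero_of_forall_eq_zero fun a => ?_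
      rw [h1' a, ite_self]

/-- The same for a group `Γ` acting through the centraliser of `γ`. -/
theorem isPush_bad {δ : GL (Fin 2) F} {γ : GL (Fin 2) k} (hns : ¬ IsScalar (γ : M2 k))
    (hδγ : δ * GeneralLinearGroup.map f γ = GeneralLinearGroup.map f γ * δ)
    {z : GL (Fin 2) k} (hz : z ∈ Subgroup.center (GL (Fin 2) k))
    (hN : δ * (T.tw hf).τ δ * (T.tw hf).τ ((T.tw hf).τ δ) = GeneralLinearGroup.map f (z * γ))
    {Γ : Type*} [Group Γ] [MulAction Γ (GL (Fin 2) F ⧸ T.WL hf)]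
    [MulAction Γ (GL (Fin 2) k ⧸ T.WK hf)] (j : Γ → GL (Fin 2) k)
    (hj : ∀ t, j t * γ = γ * j t)
    (hA : ∀ t (a : GL (Fin 2) F ⧸ T.WL hf), t • a = GeneralLinearGroup.map f (j t) • a)
    (hB : ∀ t (b : GL (Fin 2) k ⧸ T.WK hf), t • b = j t • b) :
    ∃ p : GL (Fin 2) F ⧸ T.WL hf → GL (Fin 2) k ⧸ T.WK hf,
      IsPush Γ p ((T.tw hf).tw δ) ((T.twK hf).tw γ) := by
  obtain ⟨p, h1, h2⟩ := exists_push_bad (T := T) (hf := hf) hns hδγ hz hN
  refine ⟨p, ?_, h2.fin, h2.sum⟩
  intro t a ha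
  rw [hA, hB]
  exact h1 (j t) (hj t) a ha

/-- The same for functions on other models of the coset spaces. -/
theorem exists_push_bad' {δ : GL (Fin 2) F} {γ : GL (Fin 2) k} (hns : ¬ IsScalar (γ : M2 k))
    (hδγ : δ * GeneralLinearGroup.map f γ = GeneralLinearGroup.map f γ * δ)
    {z : GL (Fin 2) k} (hz : z ∈ Subgroup.center (GL (Fin 2) k))
    (hN : δ * GeneralLinearGroup.map (τ : F →+* F) δ *
      GeneralLinearGroup.map (τ : F →+* F) (GeneralLinearGroup.map (τ : F →+* F) δ) =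
        GeneralLinearGroup.map f (z * γ))
    {WL' : Subgroup (GL (Fin 2) F)} {WK' : Subgroup (GL (Fin 2) k)} (hL : T.WL hf = WL')
    (hK : T.WK hf = WK') {Φ : GL (Fin 2) F ⧸ WL' → ℂ} {Ψ : GL (Fin 2) k ⧸ WK' → ℂ}
    (hΦ : ∀ x : GL (Fin 2) F, Φ (x : GL (Fin 2) F ⧸ WL') =
      T.φ (x⁻¹ * δ * GeneralLinearGroup.map (τ : F →+* F) x))
    (hΨ : ∀ y : GL (Fin 2) k, Ψ (y : GL (Fin 2) k ⧸ WK') = T.fK hf (y⁻¹ * γ * y)) :
    ∃ p : GL (Fin 2) F ⧸ WL' → GL (Fin 2) k ⧸ WK',
      (∀ t, t * γ = γ * t → ∀ a, Φ a ≠ 0 → p (GeneralLinearGroup.map f t • a) = t • p a) ∧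
      FibSum p Φ Ψ := by
  subst hL hK
  obtain ⟨p, h1, h2⟩ := exists_push_bad (T := T) (hf := hf) hns hδγ hz hN
  have e1 : Φ = (T.tw hf).tw δ := by
    funext a
    obtain ⟨x, rfl⟩ := QuotientGroup.mk_surjective a
    exact hΦ x
  have e2 : Ψ = (T.twK hf).tw γ := by
    funext b
    obtain ⟨y, rfl⟩ := QuotientGroup.mk_surjective b
    exact hΨ y
  rw [e1, e2]
  exact ⟨p, h1, h2⟩

end Test

end Fermat.Agent.LT.Near

end
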