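import Fermat.Agent.LT.Near.BadPush
import Fermat.Agent.LT.LevDown
import Fermat.Agent.LT.TauNonSplit
import Fermat.Agent.LT.Local

/-!
# The comparison at a bad non-split place, on helper34's coset spaces

* `cubic_inst` : `K_v → L_w` and `τ` satisfy the hypotheses `Cubic`.
* `nr_rad_iff` : `Nr (rad w n) g ↔ g ∈ K(n) E^×`.
* `isPush_cos` : `isPush_bad` for coset spaces with given levels.
-/

set_option autoImplicit false
set_option linter.unusedSectionVars false

open Matrix IsUltrametricDist IsDedekindDomain NumberField WithZero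
open scoped WithZero

noncomputable section

namespace Fermat.Agent.LT.Near

open Fermat.Agent.LT.Ext Fermat.Agent.LT.Lvl

attribute [local instance] matNormedRing matNormOne matUltra matComplete

section Transport

variable {k F : Type*} [Field k] [NormedField F] [IsUltrametricDist F] [CompleteSpace F]
  {f : k →+* F} {τ : F ≃+* F} {T : Test F} {hf : Cubic f τ}

/-- `isPush_bad` for cosets of given subgroups. -/
theorem isPush_cos {δ : GL (Fin 2) F} {γ : GL (Fin 2) k} (hns : ¬ IsScalar (γ : M2 k))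
    (hδγ : δ * GeneralLinearGroup.map f γ = GeneralLinearGroup.map f γ * δ)
    (hN : δ * GeneralLinearGroup.map (τ : F →+* F) δ *
      GeneralLinearGroup.map (τ : F →+* F) (GeneralLinearGroup.map (τ : F →+* F) δ) =
      GeneralLinearGroup.map f γ)
    {WL : Subgroup (GL (Fin 2) F)} (hWL : WL = T.WL hf)
    {WK : Subgroup (GL (Fin 2) k)} (hWK : WK = T.WK hf)
    {Φ : GL (Fin 2) F ⧸ WL → ℂ}
    (hΦ : ∀ x : GL (Fin 2) F, Φ (x : GL (Fin 2) F ⧸ WL) =
      T.φ (x⁻¹ * δ * GeneralLinearGroup.map (τ : F →+* F) x))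
    {Ψ : GL (Fin 2) k ⧸ WK → ℂ}
    (hΨ : ∀ y : GL (Fin 2) k, Ψ (y : GL (Fin 2) k ⧸ WK) = T.fK hf (y⁻¹ * γ * y)) :
    ∃ p : GL (Fin 2) F ⧸ WL → GL (Fin 2) k ⧸ WK,
      (∀ t : GL (Fin 2) k, t * γ = γ * t → ∀ a, Φ a ≠ 0 →
        p (GeneralLinearGroup.map f t • a) = t • p a) ∧ FibSum p Φ Ψ := by
  subst hWL hWK
  let _ : MulAction (Subgroup.centralizer {γ}) (GL (Fin 2) F ⧸ T.WL hf) :=
    MulAction.compHom _ ((GeneralLinearGroup.map f).comp (Subgroup.centralizer {γ}).subtype)
  have e1 : Φ = (T.tw hf).tw δ := by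
    funext a
    obtain ⟨x, rfl⟩ := QuotientGroup.mk_surjective a
    exact hΦ x
  have e2 : Ψ = (T.twK hf).tw γ := by
    funext a
    obtain ⟨x, rfl⟩ := QuotientGroup.mk_surjective a
    exact hΨ x
  obtain ⟨p, hp⟩ := Test.isPush_bad (T := T) (hf := hf) hns hδγ (Subgroup.one_mem _)
    (by rw [one_mul]; exact hN) (Γ := Subgroup.centralizer {γ}) (fun t => (t : GL (Fin 2) k))
    (fun t => (Subgroup.mem_centralizer_iff.mp t.2 γ rfl).symm) (fun t a => rfl) (fun t b => rfl)
  refine ⟨p, fun t ht a ha => ?_, ?_⟩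
  · have htc : t ∈ Subgroup.centralizer {γ} := by
      rw [Subgroup.mem_centralizer_iff]
      rintro _ rfl
      exact ht.symm
    rw [e1] at ha
    exact hp.equiv ⟨t, htc⟩ a ha
  · rw [e1, e2]
    exact hp.fibSum

end Transport

section Inst

variable {L : Type*} [Field L] [NumberField L] {w : HeightOneSpectrum (𝓞 L)}

/-- the two descriptions of the level -/
theorem nr_rad_iff {n : ℕ} (hn : n ≠ 0) {g : GL (Fin 2) (w.adicCompletion L)} :
    Nr (rad w n) g ↔
      g ∈ Kn (vF w) (exp (-(n : ℤ))) ⊔ Subgroup.center (GL (Fin 2) (w.adicCompletion L)) := by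
  rw [mem_sup_center]
  constructor
  · rintro ⟨c, hc, h⟩
    refine ⟨(Units.mk0 c hc)⁻¹, GeneralLinearGroup.scalar (Fin 2) (Units.mk0 c hc) * g, ?_, ?_⟩
    · refine mem_Kn_of_bd (exp_neg_lt_one hn) fun i j => ?_
      have h1 := (mat_norm_le_rad_iff w).mp h i j
      rw [coe_scalar_mul, Units.val_mk0]
      exact h1
    · rw [map_inv, inv_mul_cancel_left]
  · rintro ⟨z, k, hk, rfl⟩
    refine ⟨((z⁻¹ : (w.adicCompletion L)ˣ) : w.adicCompletion L), Units.ne_zero _, ?_⟩
    rw [coe_scalar_mul, smul_smul, Units.inv_mul, one_smul, mat_norm_le_rad_iff]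
    exact hk.2

theorem UU_rad {n : ℕ} (hn : n ≠ 0) {h0 : 0 ≤ rad w n} {h1 : rad w n < 1} :
    UU (rad w n) h0 h1 =
      Kn (vF w) (exp (-(n : ℤ))) ⊔ Subgroup.center (GL (Fin 2) (w.adicCompletion L)) := by
  ext g
  exact nr_rad_iff hn

theorem totallyBounded_closedBall :
    TotallyBounded (Metric.closedBall (0 : w.adicCompletion L) 1) :=
  (isCompact_closedBall (0 : w.adicCompletion L) 1).totallyBounded

variable {K : Type*} [Field K] [NumberField K] [Algebra K L]
  {v : HeightOneSpectrum (𝓞 K)} [w.asIdeal.LiesOver v.asIdeal]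
  {G : Type*} [Group G] [MulSemiringAction G L] [IsGaloisGroup G K L]

/-- **The instance `K_v → L_w`.** -/
theorem cubic_inst (hG : Nat.card G = 3) {σ : G} (hσ : σ ≠ 1) (h : σ • w = w) :
    Cubic (incl K w v) (tauW (L := L) σ h) where
  three := three_ne_zero_w w
  two := two_ne_zero_w w
  tau3 := tauW_pow_three h (pow_three_eq_one hG σ)
  norm := norm_tauW σ h
  ne := by
    have : Finite G := Nat.finite_of_card_ne_zero (by rw [hG]; norm_num)
    have := IsGaloisGroup.faithful (G := G) (A := K) (B := L)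
    exact exists_tauW_ne h hσ
  fix := mem_range_iff_three hG hσ h
  tb := totallyBounded_closedBall

end Inst

end Fermat.Agent.LT.Near

end
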