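import Mathlib

/-!
# Cube roots near one and the near-identity lemma for a cubic automorphism

`A` is a complete ultrametric normed ring (think of `M₂(L_w)` with the sup norm) in which `3` has a
central inverse `t`.
* `exists_cube_root`, `cube_root_unique`: elements near `1` have a unique cube root near `1`.
* `exists_conj_fixed`: if `τ` is an isometric automorphism with `τ³ = 1` and `δ` is near `1`, there are
  `y`, `h` near `1` with `τ h = h` and `δ * τ y = y * h`.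
-/

set_option autoImplicit false
set_option linter.unusedSectionVars false

open IsUltrametricDist

namespace Fermat.Agent.LT.Near

/-- `t` is a central inverse of three -/
structure IsThird {A : Type*} [Ring A] (t : A) : Prop where
  three_mul : 3 * t = 1
  comm : ∀ a : A, t * a = a * t

theorem IsThird.mul_three {A : Type*} [Ring A] {t : A} (ht : IsThird t) : t * 3 = 1 := by
  rw [ht.comm, ht.three_mul]

theorem sq_sub_sq_nc {A : Type*} [Ring A] (Z W : A) :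
    Z ^ 2 - W ^ 2 = Z * (Z - W) + (Z - W) * W := by
  noncomm_ring

theorem cube_sub_cube_nc {A : Type*} [Ring A] (Z W : A) :
    Z ^ 3 - W ^ 3 = Z ^ 2 * (Z - W) + Z * (Z - W) * W + (Z - W) * W ^ 2 := by
  noncomm_ring

section Norm

variable {A : Type*} [NormedRing A] [NormOneClass A] [IsUltrametricDist A] {t : A}

theorem norm_sub_le_max' (a b : A) : ‖a - b‖ ≤ max ‖a‖ ‖b‖ := by
  rw [sub_eq_add_neg, ← norm_neg b]
  exact norm_add_le_max _ _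

theorem norm_three_le : ‖(3 : A)‖ ≤ 1 := by
  have h1 : ‖(1 + 1 : A)‖ ≤ 1 := (norm_add_le_max _ _).trans (by simp)
  have h2 : (3 : A) = (1 + 1) + 1 := by norm_num
  rw [h2]
  exact (norm_add_le_max _ _).trans (max_le h1 (by simp))

theorem IsThird.one_le_norm (ht : IsThird t) : 1 ≤ ‖t‖ := by
  have h1 : (1 : ℝ) = ‖(3 : A) * t‖ := by rw [ht.three_mul, norm_one]
  calc (1 : ℝ) = ‖(3 : A) * t‖ := h1
    _ ≤ ‖(3 : A)‖ * ‖t‖ := norm_mul_le _ _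
    _ ≤ 1 * ‖t‖ := mul_le_mul_of_nonneg_right norm_three_le (norm_nonneg _)
    _ = ‖t‖ := one_mul _

theorem norm_sq_sub_le {Z W : A} {ρ : ℝ} (hZ : ‖Z‖ ≤ ρ) (hW : ‖W‖ ≤ ρ) :
    ‖Z ^ 2 - W ^ 2‖ ≤ ρ * ‖Z - W‖ := by
  rw [sq_sub_sq_nc]
  refine (norm_add_le_max _ _).trans (max_le ?_ ?_)
  · exact (norm_mul_le _ _).trans (mul_le_mul_of_nonneg_right hZ (norm_nonneg _))
  · refine (norm_mul_le _ _).trans ?_
    rw [mul_comm]
    exact mul_le_mul_of_nonneg_right hW (norm_nonneg _)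

theorem norm_sq_le {Z : A} {ρ : ℝ} (hZ : ‖Z‖ ≤ ρ) : ‖Z ^ 2‖ ≤ ρ ^ 2 :=
  (_root_.norm_pow_le _ _).trans (pow_le_pow_left₀ (norm_nonneg _) hZ _)

theorem norm_cube_sub_le {Z W : A} {ρ : ℝ} (hZ : ‖Z‖ ≤ ρ) (hW : ‖W‖ ≤ ρ) :
    ‖Z ^ 3 - W ^ 3‖ ≤ ρ ^ 2 * ‖Z - W‖ := by
  have hρ : 0 ≤ ρ := (norm_nonneg _).trans hZ
  have h0 := norm_nonneg (Z - W)
  rw [cube_sub_cube_nc]
  refine (norm_add_le_max _ _).trans (max_le ((norm_add_le_max _ _).trans (max_le ?_ ?_)) ?_)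
  · exact (norm_mul_le _ _).trans (mul_le_mul_of_nonneg_right (norm_sq_le hZ) h0)
  · refine (norm_mul_le _ _).trans ?_
    calc ‖Z * (Z - W)‖ * ‖W‖ ≤ (‖Z‖ * ‖Z - W‖) * ‖W‖ :=
          mul_le_mul_of_nonneg_right (norm_mul_le _ _) (norm_nonneg _)
      _ ≤ (ρ * ‖Z - W‖) * ρ := by gcongr
      _ = ρ ^ 2 * ‖Z - W‖ := by ring
  · refine (norm_mul_le _ _).trans ?_
    rw [mul_comm]
    exact mul_le_mul_of_nonneg_right (norm_sq_le hW) h0

/-- the contraction whose fixed point is `g ^ (1/3) - 1` -/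
def cubeStep (t g Z : A) : A := t * (g - 1) - Z ^ 2 - t * Z ^ 3

theorem cubeStep_eq_iff (ht : IsThird t) (g Z : A) : cubeStep t g Z = Z ↔ (1 + Z) ^ 3 = g := by
  have h1 : (1 + Z) ^ 3 = 1 + 3 * Z + 3 * Z ^ 2 + Z ^ 3 := by
    have : (1 + Z) ^ 3 = 1 + (Z + Z + Z) + (Z ^ 2 + Z ^ 2 + Z ^ 2) + Z ^ 3 := by noncomm_ring
    rw [this]
    have e3 : ∀ a : A, 3 * a = a + a + a := by
      intro a
      have : (3 : A) = 1 + 1 + 1 := by norm_num
      rw [this, add_mul, add_mul, one_mul]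
    rw [e3, e3]
  have h3 : ∀ a : A, t * (3 * a) = a := by
    intro a
    rw [← mul_assoc, ht.mul_three, one_mul]
  have h3' : ∀ a : A, 3 * (t * a) = a := by
    intro a
    rw [← mul_assoc, ht.three_mul, one_mul]
  constructor
  · intro h
    have h2 : 3 * cubeStep t g Z = 3 * Z := by rw [h]
    unfold cubeStep at h2
    rw [mul_sub, mul_sub, h3', h3'] at h2
    rw [h1, ← h2]
    abel
  · intro h
    unfold cubeStep
    rw [← h, h1]
    have : 1 + 3 * Z + 3 * Z ^ 2 + Z ^ 3 - 1 = 3 * Z + 3 * Z ^ 2 + Z ^ 3 := by abel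
    rw [this, mul_add, mul_add, h3, h3]
    abel

theorem norm_cubeStep_sub_le (t g : A) {Z W : A} {ρ : ℝ} (hZ : ‖Z‖ ≤ ρ) (hW : ‖W‖ ≤ ρ) :
    ‖cubeStep t g Z - cubeStep t g W‖ ≤ max ρ (‖t‖ * ρ ^ 2) * ‖Z - W‖ := by
  have h1 : cubeStep t g Z - cubeStep t g W = (W ^ 2 - Z ^ 2) + t * (W ^ 3 - Z ^ 3) := by
    unfold cubeStep
    rw [mul_sub t (W ^ 3)]
    abel
  have h0 := norm_nonneg (Z - W)
  rw [h1]
  refine (norm_add_le_max _ _).trans (max_le ?_ ?_)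
  · rw [norm_sub_rev]
    exact (norm_sq_sub_le hZ hW).trans (mul_le_mul_of_nonneg_right (le_max_left _ _) h0)
  · refine (norm_mul_le _ _).trans ?_
    rw [norm_sub_rev (W ^ 3)]
    calc ‖t‖ * ‖Z ^ 3 - W ^ 3‖ ≤ ‖t‖ * (ρ ^ 2 * ‖Z - W‖) :=
          mul_le_mul_of_nonneg_left (norm_cube_sub_le hZ hW) (norm_nonneg _)
      _ = (‖t‖ * ρ ^ 2) * ‖Z - W‖ := by ring
      _ ≤ _ := mul_le_mul_of_nonneg_right (le_max_right _ _) h0

/-- the radius condition: `‖t‖² r < 1` -/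
theorem radius_aux (ht : IsThird t) {r : ℝ} (hr0 : 0 ≤ r) (hr : ‖t‖ ^ 2 * r < 1) :
    ‖t‖ * r < 1 ∧ ‖t‖ * (‖t‖ * r) ^ 2 ≤ ‖t‖ * r ∧ ‖t‖ * (‖t‖ * r) ^ 2 < 1 := by
  have h1 := ht.one_le_norm
  have h2 : ‖t‖ * r ≤ ‖t‖ ^ 2 * r := by
    rw [pow_two, mul_assoc]
    have : 0 ≤ ‖t‖ * r := by positivity
    nlinarith
  have h3 : ‖t‖ * r < 1 := h2.trans_lt hr
  have h4 : ‖t‖ * (‖t‖ * r) ^ 2 = (‖t‖ ^ 2 * r) * (‖t‖ * r) := by ring
  have h5 : 0 ≤ ‖t‖ * r := by positivity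
  refine ⟨h3, ?_, ?_⟩
  · rw [h4]
    nlinarith
  · rw [h4]
    nlinarith

/-- **Uniqueness of the cube root near one.** -/
theorem cube_root_unique (ht : IsThird t) {κ κ' : A} {ρ : ℝ} (hρ : ρ < 1)
    (hρ2 : ‖t‖ * ρ ^ 2 < 1) (h : ‖κ - 1‖ ≤ ρ) (h' : ‖κ' - 1‖ ≤ ρ) (he : κ ^ 3 = κ' ^ 3) :
    κ = κ' := by
  set Z := κ - 1 with hZ
  set W := κ' - 1 with hW
  have e1 : cubeStep t (κ ^ 3) Z = Z := (cubeStep_eq_iff ht _ _).mpr (by rw [hZ]; simp)
  have e2 : cubeStep t (κ ^ 3) W = W := (cubeStep_eq_iff ht _ _).mpr (by rw [hW, he]; simp)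
  have h3 := norm_cubeStep_sub_le t (κ ^ 3) h h'
  rw [e1, e2] at h3
  have h4 : max ρ (‖t‖ * ρ ^ 2) < 1 := max_lt hρ hρ2
  have h5 : ‖Z - W‖ = 0 := by
    by_contra hne
    have hpos : 0 < ‖Z - W‖ := lt_of_le_of_ne (norm_nonneg _) (Ne.symm hne)
    have := mul_lt_mul_of_pos_right h4 hpos
    rw [one_mul] at this
    exact absurd (h3.trans_lt this) (lt_irrefl _)
  have h6 : Z = W := sub_eq_zero.mp (norm_eq_zero.mp h5)
  have h7 : κ = Z + 1 := by rw [hZ]; abel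
  have h8 : κ' = W + 1 := by rw [hW]; abel
  rw [h7, h8, h6]

/-- **Existence of the cube root near one.** -/
theorem exists_cube_root [CompleteSpace A] (ht : IsThird t) {g : A} {r : ℝ}
    (hr : ‖t‖ ^ 2 * r < 1) (hg : ‖g - 1‖ ≤ r) :
    ∃ κ : A, κ ^ 3 = g ∧ ‖κ - 1‖ ≤ ‖t‖ * r := by
  have hr0 : 0 ≤ r := (norm_nonneg _).trans hg
  obtain ⟨h1, h2, h3⟩ := radius_aux ht hr0 hr
  set ρ := ‖t‖ * r with hρ
  have hρ0 : 0 ≤ ρ := by positivity
  set s : Set A := Metric.closedBall 0 ρ with hs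
  have hmem : ∀ Z : A, Z ∈ s ↔ ‖Z‖ ≤ ρ := fun Z => by rw [hs, mem_closedBall_zero_iff]
  have hmaps : Set.MapsTo (cubeStep t g) s s := by
    intro Z hZ
    rw [hmem] at hZ ⊢
    unfold cubeStep
    refine (norm_sub_le_max' _ _).trans (max_le ((norm_sub_le_max' _ _).trans (max_le ?_ ?_)) ?_)
    · exact (norm_mul_le _ _).trans (mul_le_mul_of_nonneg_left hg (norm_nonneg _))
    · refine (norm_sq_le hZ).trans ?_
      nlinarith
    · refine (norm_mul_le _ _).trans ?_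
      calc ‖t‖ * ‖Z ^ 3‖ ≤ ‖t‖ * ρ ^ 3 := by
            refine mul_le_mul_of_nonneg_left ?_ (norm_nonneg _)
            exact (_root_.norm_pow_le _ _).trans (pow_le_pow_left₀ (norm_nonneg _) hZ _)
        _ = (‖t‖ * ρ ^ 2) * ρ := by ring
        _ ≤ 1 * ρ := mul_le_mul_of_nonneg_right h3.le hρ0
        _ = ρ := one_mul _
  have hK0 : 0 ≤ max ρ (‖t‖ * ρ ^ 2) := le_max_of_le_left hρ0
  have hcontr : ContractingWith (NNReal.mk (max ρ (‖t‖ * ρ ^ 2)) hK0) (hmaps.restrict (cubeStep t g) s s) := by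
    constructor
    · exact NNReal.coe_lt_coe.mp (max_lt h1 h3)
    · refine LipschitzWith.of_dist_le_mul fun x y => ?_
      rw [Subtype.dist_eq, Subtype.dist_eq, dist_eq_norm, dist_eq_norm]
      exact norm_cubeStep_sub_le t g ((hmem _).mp x.2) ((hmem _).mp y.2)
  have hcomplete : IsComplete s := Metric.isClosed_closedBall.isComplete
  have hx0 : (0 : A) ∈ s := by rw [hmem, norm_zero]; exact hρ0
  obtain ⟨Z, hZs, hfix, -⟩ := hcontr.exists_fixedPoint' hcomplete hmaps hx0 (edist_ne_top _ _)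
  refine ⟨1 + Z, (cubeStep_eq_iff ht g Z).mp hfix, ?_⟩
  rw [add_sub_cancel_left]
  exact (hmem Z).mp hZs

theorem norm_mul_sub_one_le {a b : A} {r : ℝ} (hr : r ≤ 1) (ha : ‖a - 1‖ ≤ r) (hb : ‖b - 1‖ ≤ r) :
    ‖a * b - 1‖ ≤ r := by
  have hb1 : ‖b‖ ≤ 1 := by
    have : b = (b - 1) + 1 := by abel
    rw [this]
    exact (norm_add_le_max _ _).trans (max_le (hb.trans hr) (by simp))
  have h1 : a * b - 1 = (a - 1) * b + (b - 1) := by noncomm_ring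
  have hr0 : 0 ≤ r := (norm_nonneg _).trans ha
  rw [h1]
  refine (norm_add_le_max _ _).trans (max_le ?_ hb)
  calc ‖(a - 1) * b‖ ≤ ‖a - 1‖ * ‖b‖ := norm_mul_le _ _
    _ ≤ r * 1 := mul_le_mul ha hb1 (norm_nonneg _) hr0
    _ = r := mul_one r

theorem norm_eq_one_of_near {b : A} {r : ℝ} (hr : r < 1) (hb : ‖b - 1‖ ≤ r) : ‖b‖ = 1 := by
  have h1 : b = 1 + (b - 1) := by abel
  have h2 : ‖b - 1‖ < ‖(1 : A)‖ := by rw [norm_one]; exact hb.trans_lt hr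
  rw [h1, IsUltrametricDist.norm_add_eq_max_of_norm_ne_norm h2.ne', max_eq_left h2.le, norm_one]

/-- the inverse of an element near one is near one -/
theorem norm_inv_sub_one_le {a b : A} {r : ℝ} (hr : r < 1) (ha : ‖a - 1‖ ≤ r) (hab : a * b = 1) :
    ‖b - 1‖ ≤ r := by
  -- `b - 1 = - (a - 1) * b`, first show `‖b‖ ≤ 1`
  have hr0 : 0 ≤ r := (norm_nonneg _).trans ha
  have h1 : b = 1 - (a - 1) * b := by rw [sub_mul, hab, one_mul]; abel
  have hb : ‖b‖ ≤ 1 := by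
    by_contra hlt
    push Not at hlt
    have h2 : ‖b‖ ≤ max 1 (r * ‖b‖) := by
      calc ‖b‖ = ‖1 - (a - 1) * b‖ := by rw [← h1]
        _ ≤ max ‖(1 : A)‖ ‖(a - 1) * b‖ := norm_sub_le_max' _ _
        _ ≤ max 1 (r * ‖b‖) := by
          refine max_le_max (by simp) ?_
          exact (norm_mul_le _ _).trans (mul_le_mul_of_nonneg_right ha (norm_nonneg _))
    rcases le_max_iff.mp h2 with h | h
    · exact absurd h (not_le.mpr hlt)
    · nlinarith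
  have h2 : b - 1 = -((a - 1) * b) := by rw [sub_mul, hab, one_mul]; abel
  rw [h2, norm_neg]
  calc ‖(a - 1) * b‖ ≤ ‖a - 1‖ * ‖b‖ := norm_mul_le _ _
    _ ≤ r * 1 := mul_le_mul ha hb (norm_nonneg _) hr0
    _ = r := mul_one r

theorem isUnit_of_near [CompleteSpace A] {a : A} {r : ℝ} (hr : r < 1) (ha : ‖a - 1‖ ≤ r) :
    IsUnit a := by
  have h1 : ‖(1 - a : A)‖ < 1 := by rw [norm_sub_rev]; exact ha.trans_lt hr
  have h2 := isUnit_one_sub_of_norm_lt_one h1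
  rwa [sub_sub_cancel] at h2

end Norm

section Tau

variable {A : Type*} [NormedRing A] [NormOneClass A] [IsUltrametricDist A] {t : A}
  (τ : A ≃+* A)

/-- **Explicit Hilbert 90 near one.** -/
theorem exists_hilbert90 [CompleteSpace A] (ht : IsThird t) (hτt : τ t = t)
    (hτ3 : ∀ a, τ (τ (τ a)) = a)
    (hτn : ∀ a, ‖τ a‖ = ‖a‖) {e : A} {r : ℝ} (hr : ‖t‖ * r < 1) (he : ‖e - 1‖ ≤ r)
    (hN : e * τ e * τ (τ e) = 1) :
    ∃ y : A, IsUnit y ∧ ‖y - 1‖ ≤ ‖t‖ * r ∧ e * τ y = y := by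
  have hr0 : 0 ≤ r := (norm_nonneg _).trans he
  have hr1 : r ≤ 1 := by
    have := ht.one_le_norm
    nlinarith
  have hτe : ‖τ e - 1‖ ≤ r := by
    have : τ e - 1 = τ (e - 1) := by rw [map_sub, map_one]
    rw [this, hτn]
    exact he
  have h2 : ‖e * τ e - 1‖ ≤ r := norm_mul_sub_one_le hr1 he hτe
  set y : A := t * (1 + e + e * τ e) with hy
  have hy1 : ‖y - 1‖ ≤ ‖t‖ * r := by
    have h3 : y - 1 = t * ((e - 1) + (e * τ e - 1)) := by
      have h4 : (1 : A) = t * (1 + 1 + 1) := by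
        have : (1 + 1 + 1 : A) = 3 := by norm_num
        rw [this, ht.mul_three]
      have h5 : y - t * (1 + 1 + 1) = t * ((e - 1) + (e * τ e - 1)) := by
        rw [hy, ← mul_sub]
        congr 1
        abel
      rwa [← h4] at h5
    rw [h3]
    refine (norm_mul_le _ _).trans (mul_le_mul_of_nonneg_left ?_ (norm_nonneg _))
    exact (norm_add_le_max _ _).trans (max_le he h2)
  refine ⟨y, isUnit_of_near hr hy1, hy1, ?_⟩
  have h5 : e * τ y = t * (e + e * τ e + e * τ e * τ (τ e)) := by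
    rw [hy, map_mul, hτt, map_add, map_add, map_one, map_mul, ← mul_assoc, ← ht.comm e, mul_assoc]
    congr 1
    noncomm_ring
  rw [h5, hN, hy]
  congr 1
  abel

/-- **The near-identity lemma.** -/
theorem exists_conj_fixed [CompleteSpace A] (ht : IsThird t) (hτt : τ t = t)
    (hτ3 : ∀ a, τ (τ (τ a)) = a) (hτn : ∀ a, ‖τ a‖ = ‖a‖) {δ : A} {r : ℝ}
    (hr : ‖t‖ ^ 2 * r < 1) (hδ : ‖δ - 1‖ ≤ r) :
    ∃ y h : A, IsUnit y ∧ IsUnit h ∧ ‖y - 1‖ ≤ ‖t‖ ^ 2 * r ∧ ‖h - 1‖ ≤ ‖t‖ * r ∧ τ h = h ∧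
      δ * τ y = y * h := by
  have hr0 : 0 ≤ r := (norm_nonneg _).trans hδ
  have ht1 := ht.one_le_norm
  obtain ⟨k1, k2, k3⟩ := radius_aux ht hr0 hr
  have hr1 : r ≤ 1 := by nlinarith
  have hτn1 : ∀ a : A, ‖τ a - 1‖ = ‖a - 1‖ := fun a => by
    have : τ a - 1 = τ (a - 1) := by rw [map_sub, map_one]
    rw [this, hτn]
  have hrlt : r < 1 := by nlinarith
  have hδu : IsUnit δ := isUnit_of_near hrlt hδ
  set γ := δ * τ δ * τ (τ δ) with hγ
  have hγ1 : ‖γ - 1‖ ≤ r := by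
    refine norm_mul_sub_one_le hr1 (norm_mul_sub_one_le hr1 hδ ?_) ?_
    · rw [hτn1]; exact hδ
    · rw [hτn1, hτn1]; exact hδ
  obtain ⟨κ, hκ3, hκ⟩ := exists_cube_root ht hr hγ1
  have hκu : IsUnit κ := isUnit_of_near k1 hκ
  obtain ⟨δ', hδδ', hδ'δ⟩ : ∃ d : A, δ * d = 1 ∧ d * δ = 1 := by
    obtain ⟨u, rfl⟩ := hδu
    exact ⟨(u⁻¹ : Aˣ), u.mul_inv, u.inv_mul⟩
  obtain ⟨κ', hκκ', hκ'κ⟩ : ∃ d : A, κ * d = 1 ∧ d * κ = 1 := by
    obtain ⟨u, rfl⟩ := hκu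
    exact ⟨(u⁻¹ : Aˣ), u.mul_inv, u.inv_mul⟩
  have hδ'1 : ‖δ' - 1‖ ≤ r := norm_inv_sub_one_le hrlt hδ hδδ'
  -- `τ γ = δ' γ δ`
  have hτγ : δ * τ γ = γ * δ := by
    rw [hγ, map_mul, map_mul, hτ3]
    noncomm_ring
  -- compatibility of the cube root
  have hcomp : δ * τ κ = κ * δ := by
    have e1 : (δ * τ κ * δ') ^ 3 = κ ^ 3 := by
      have : (δ * τ κ * δ') ^ 3 = δ * τ (κ ^ 3) * δ' := by
        rw [map_pow, pow_succ, pow_two, pow_succ, pow_two]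
        calc δ * τ κ * δ' * (δ * τ κ * δ') * (δ * τ κ * δ')
            = δ * τ κ * (δ' * δ) * τ κ * (δ' * δ) * τ κ * δ' := by noncomm_ring
          _ = δ * (τ κ * τ κ * τ κ) * δ' := by rw [hδ'δ]; noncomm_ring
      rw [this, hκ3, hτγ, mul_assoc, hδδ', mul_one]
    have hle : r ≤ ‖t‖ * r := by nlinarith
    have e2 : ‖δ * τ κ * δ' - 1‖ ≤ ‖t‖ * r := by
      refine norm_mul_sub_one_le k1.le (norm_mul_sub_one_le k1.le (hδ.trans hle) ?_)
        (hδ'1.trans hle)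
      rw [hτn1]
      exact hκ
    have e3 := cube_root_unique ht k1 k3 e2 hκ e1
    calc δ * τ κ = δ * τ κ * (δ' * δ) := by rw [hδ'δ, mul_one]
      _ = (δ * τ κ * δ') * δ := by noncomm_ring
      _ = κ * δ := by rw [e3]
  set e := κ' * δ with he
  have hκ'1 : ‖κ' - 1‖ ≤ ‖t‖ * r := norm_inv_sub_one_le k1 hκ hκκ'
  have hle : r ≤ ‖t‖ * r := by nlinarith
  have he1 : ‖e - 1‖ ≤ ‖t‖ * r := norm_mul_sub_one_le k1.le hκ'1 (hδ.trans hle)
  -- `δ * τ κ' = κ' * δ`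
  have hτκκ' : τ κ * τ κ' = 1 := by rw [← map_mul, hκκ', map_one]
  have hcomp' : δ * τ κ' = κ' * δ := by
    calc δ * τ κ' = κ' * κ * (δ * τ κ') := by rw [hκ'κ, one_mul]
      _ = κ' * (κ * δ) * τ κ' := by noncomm_ring
      _ = κ' * (δ * τ κ) * τ κ' := by rw [hcomp]
      _ = κ' * δ * (τ κ * τ κ') := by noncomm_ring
      _ = κ' * δ := by rw [hτκκ', mul_one]
  have hcomp1 : τ δ * τ (τ κ') = τ κ' * τ δ := by rw [← map_mul, hcomp', map_mul]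
  have hN : e * τ e * τ (τ e) = 1 := by
    rw [he, map_mul, map_mul]
    calc κ' * δ * (τ κ' * τ δ) * (τ (τ κ') * τ (τ δ))
        = κ' * (δ * τ κ') * (τ δ * τ (τ κ')) * τ (τ δ) := by noncomm_ring
      _ = κ' * (κ' * δ) * (τ κ' * τ δ) * τ (τ δ) := by rw [hcomp', hcomp1]
      _ = κ' * κ' * (δ * τ κ') * τ δ * τ (τ δ) := by noncomm_ring
      _ = κ' * κ' * κ' * (δ * τ δ * τ (τ δ)) := by rw [hcomp']; noncomm_ring
      _ = κ' * κ' * κ' * κ ^ 3 := by rw [hκ3]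
      _ = κ' * (κ' * (κ' * κ) * κ) * κ := by rw [pow_succ, pow_two]; noncomm_ring
      _ = 1 := by rw [hκ'κ, mul_one, hκ'κ, mul_one, hκ'κ]
  have hr' : ‖t‖ * (‖t‖ * r) < 1 := by
    have : ‖t‖ * (‖t‖ * r) = ‖t‖ ^ 2 * r := by ring
    rw [this]; exact hr
  obtain ⟨y, hyu, hy1, hey⟩ := exists_hilbert90 τ ht hτt hτ3 hτn hr' he1 hN
  obtain ⟨y', hyy', hy'y⟩ : ∃ d : A, y * d = 1 ∧ d * y = 1 := by
    obtain ⟨u, rfl⟩ := hyu
    exact ⟨(u⁻¹ : Aˣ), u.mul_inv, u.inv_mul⟩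
  -- `δ τ y = κ y`
  have hδy : δ * τ y = κ * y := by
    calc δ * τ y = κ * κ' * (δ * τ y) := by rw [hκκ', one_mul]
      _ = κ * (κ' * δ * τ y) := by noncomm_ring
      _ = κ * y := by rw [← he, hey]
  have hy2 : ‖y - 1‖ ≤ ‖t‖ ^ 2 * r := by
    have : ‖t‖ ^ 2 * r = ‖t‖ * (‖t‖ * r) := by ring
    rw [this]; exact hy1
  refine ⟨y, y' * κ * y, hyu, ?_, hy2, ?_, ?_, ?_⟩
  · refine IsUnit.mul (IsUnit.mul ?_ hκu) hyu
    exact ⟨⟨y', y, hy'y, hyy'⟩, rfl⟩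
  · -- conjugation by `y` preserves the ball
    have h1 : y' * κ * y - 1 = y' * (κ - 1) * y := by
      rw [mul_sub, sub_mul, mul_one, hy'y]
    have hylt : ‖t‖ ^ 2 * r < 1 := hr
    have hyn : ‖y‖ = 1 := norm_eq_one_of_near hylt hy2
    have hy'n : ‖y'‖ = 1 := norm_eq_one_of_near hylt (norm_inv_sub_one_le hylt hy2 hyy')
    rw [h1]
    calc ‖y' * (κ - 1) * y‖ ≤ ‖y' * (κ - 1)‖ * ‖y‖ := norm_mul_le _ _
      _ ≤ (‖y'‖ * ‖κ - 1‖) * ‖y‖ := mul_le_mul_of_nonneg_right (norm_mul_le _ _) (norm_nonneg _)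
      _ = ‖κ - 1‖ := by rw [hyn, hy'n, one_mul, mul_one]
      _ ≤ _ := hκ
  · -- `τ`-invariance
    have h1 : τ y' * τ y = 1 := by rw [← map_mul, hy'y, map_one]
    have h1' : τ y * τ y' = 1 := by rw [← map_mul, hyy', map_one]
    rw [map_mul, map_mul]
    -- `τ κ = δ' κ δ`
    have h2 : τ κ = δ' * κ * δ := by
      calc τ κ = δ' * δ * τ κ := by rw [hδ'δ, one_mul]
        _ = δ' * (δ * τ κ) := by noncomm_ring
        _ = δ' * κ * δ := by rw [hcomp]; noncomm_ring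
    have h3 : τ y' * δ' = y' * κ' := by
      have h4 : (τ y' * δ') * (δ * τ y) = 1 := by
        calc τ y' * δ' * (δ * τ y) = τ y' * (δ' * δ) * τ y := by noncomm_ring
          _ = 1 := by rw [hδ'δ, mul_one, h1]
      have h5 : (δ * τ y) * (y' * κ') = 1 := by
        rw [hδy]
        calc κ * y * (y' * κ') = κ * (y * y') * κ' := by noncomm_ring
          _ = 1 := by rw [hyy', mul_one, hκκ']
      calc τ y' * δ' = (τ y' * δ') * ((δ * τ y) * (y' * κ')) := by rw [h5, mul_one]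
        _ = ((τ y' * δ') * (δ * τ y)) * (y' * κ') := by noncomm_ring
        _ = y' * κ' := by rw [h4, one_mul]
    calc τ y' * τ κ * τ y = (τ y' * δ') * κ * (δ * τ y) := by rw [h2]; noncomm_ring
      _ = y' * κ' * κ * (κ * y) := by rw [h3, hδy]
      _ = y' * (κ' * κ) * κ * y := by noncomm_ring
      _ = y' * κ * y := by rw [hκ'κ]; noncomm_ring
  · rw [hδy]
    calc κ * y = (y * y') * κ * y := by rw [hyy', one_mul]
      _ = y * (y' * κ * y) := by noncomm_ring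

end Tau

end Fermat.Agent.LT.Near
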