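import Fermat.Agent.LT.Near.Spec

/-!
# Hilbert 90 for `GL₂` and a cyclic group of order three, and comparison of near cube roots
-/

set_option autoImplicit false
set_option linter.unusedSectionVars false

open Matrix IsUltrametricDist

namespace Fermat.Agent.LT.Near

section Hilbert

variable {F : Type*} [Field F] (τ : F ≃+* F)

/-- independence of `1`, `τ`, `τ²` -/
theorem indep_three (hτ3 : ∀ a, τ (τ (τ a)) = a) (hτ1 : ∃ a, τ a ≠ a) {a b c : F}
    (h : ∀ β, a * β + b * τ β + c * τ (τ β) = 0) : a = 0 := by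
  obtain ⟨α, hα⟩ := hτ1
  have hα2 : τ (τ α) ≠ α := by
    intro h2
    apply hα
    calc τ α = τ (τ (τ α)) := by rw [h2]
      _ = α := hτ3 α
  have key : a * (α - τ α) * (α - τ (τ α)) = 0 := by
    have e1 := h (α * α)
    have e2 := h α
    have e3 := h 1
    simp only [map_mul, map_one, mul_one] at e1 e2 e3
    linear_combination e1 - τ α * e2 - τ (τ α) * (e2 - τ α * e3)
  rcases mul_eq_zero.mp key with h1 | h1
  · rcases mul_eq_zero.mp h1 with h2 | h2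
    · exact h2
    · exact absurd (sub_eq_zero.mp h2).symm hα
  · exact absurd (sub_eq_zero.mp h1).symm hα2

/-- the trace-like operator -/
def phiV (e : M2 F) (v : Fin 2 → F) : Fin 2 → F :=
  v + e *ᵥ (fun i => τ (v i)) + (e * tM τ e) *ᵥ (fun i => τ (τ (v i)))

theorem phiV_functional (hτ3 : ∀ a, τ (τ (τ a)) = a) (hτ1 : ∃ a, τ a ≠ a) (e : M2 F) (l : Fin 2 → F)
    (h : ∀ v, l ⬝ᵥ phiV τ e v = 0) : l = 0 := by
  have key : ∀ v : Fin 2 → F, l ⬝ᵥ v = 0 := by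
    intro v
    refine indep_three τ hτ3 hτ1 (b := l ⬝ᵥ (e *ᵥ (fun i => τ (v i))))
      (c := l ⬝ᵥ ((e * tM τ e) *ᵥ (fun i => τ (τ (v i))))) fun β => ?_
    have h1 := h (β • v)
    have h2 : phiV τ e (β • v) = β • v + τ β • (e *ᵥ (fun i => τ (v i))) +
        τ (τ β) • ((e * tM τ e) *ᵥ (fun i => τ (τ (v i)))) := by
      unfold phiV
      rw [← Matrix.mulVec_smul, ← Matrix.mulVec_smul]
      congr 2
      · congr 1
        ext i
        simp
      · ext i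
        simp
    rw [h2, dotProduct_add, dotProduct_add, dotProduct_smul, dotProduct_smul,
      dotProduct_smul] at h1
    simp only [smul_eq_mul] at h1
    linear_combination h1
  ext i
  have := key (Pi.single i 1)
  rwa [dotProduct_single, mul_one] at this

/-- **Hilbert 90 for `GL₂`.** -/
theorem hilbert90_GL2 (hτ3 : ∀ a, τ (τ (τ a)) = a) (hτ1 : ∃ a, τ a ≠ a) {e : M2 F}
    (hN : e * tM τ e * tM τ (tM τ e) = 1) :
    ∃ y : M2 F, IsUnit y ∧ e * tM τ y = y := by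
  obtain ⟨u, hu⟩ : ∃ u, phiV τ e u ≠ 0 := by
    by_contra hcon
    push Not at hcon
    have := phiV_functional τ hτ3 hτ1 e ![1, 0] (fun v => by rw [hcon v, dotProduct_zero])
    have h0 := congrFun this 0
    simp at h0
  set p := phiV τ e u with hp
  obtain ⟨v, hv⟩ : ∃ v, p 0 * phiV τ e v 1 - p 1 * phiV τ e v 0 ≠ 0 := by
    by_contra hcon
    push Not at hcon
    have h1 := phiV_functional τ hτ3 hτ1 e ![-(p 1), p 0] (fun v => by
      have := hcon v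
      simp only [dotProduct, Fin.sum_univ_two, Matrix.cons_val_zero, Matrix.cons_val_one]
      linear_combination this)
    apply hu
    have h0 := congrFun h1 0
    have h2 := congrFun h1 1
    simp only [Matrix.cons_val_zero, Matrix.cons_val_one, Pi.zero_apply] at h0 h2
    ext i
    fin_cases i
    · exact h2
    · exact neg_eq_zero.mp h0
  set q := phiV τ e v with hq
  let X : M2 F := !![u 0, v 0; u 1, v 1]
  let y : M2 F := X + e * tM τ X + e * tM τ e * tM τ (tM τ X)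
  have hy : y = !![p 0, q 0; p 1, q 1] := by
    ext i j
    fin_cases i <;> fin_cases j <;>
      simp [y, X, hp, hq, phiV, Fin.sum_univ_two, Matrix.mul_apply] <;> rfl
  refine ⟨y, ?_, ?_⟩
  · rw [Matrix.isUnit_iff_isUnit_det, isUnit_iff_ne_zero, hy, Matrix.det_fin_two_of]
    intro h
    apply hv
    linear_combination h
  · have hX3 : tM τ (tM τ (tM τ X)) = X := by
      ext i j
      simp [hτ3]
    show e * tM τ (X + e * tM τ X + e * tM τ e * tM τ (tM τ X)) =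
      X + e * tM τ X + e * tM τ e * tM τ (tM τ X)
    rw [map_add, map_add, map_mul, map_mul, map_mul, hX3, mul_add, mul_add]
    have : e * (tM τ e * tM τ (tM τ e) * X) = X := by
      rw [← mul_assoc, ← mul_assoc, hN, one_mul]
    rw [this]
    simp only [mul_assoc]
    abel

end Hilbert

section Compare

variable {F : Type*} [NormedField F] [IsUltrametricDist F] [CompleteSpace F] (τ : F ≃+* F)

theorem isThird_field (h3 : (3 : F) ≠ 0) : IsThird ((3 : F)⁻¹) where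
  three_mul := mul_inv_cancel₀ h3
  comm := fun _ => mul_comm _ _

theorem SS.cube_sub_one {ρ : ℝ} {k : M2 F} (hρ : ρ ≤ 1) (hk : SS ρ (k - 1)) : SS ρ (k ^ 3 - 1) := by
  set x := k - 1 with hx
  have hk1 : k = 1 + x := by rw [hx]; abel
  have hρ0 := hk.nonneg
  have e1 : k ^ 3 - 1 = (x + x + x) + (x * x + x * x + x * x) + x * (x * x) := by
    rw [hk1]; noncomm_ring
  have c1 : Commute x (x * x) := (Commute.refl x).mul_right (Commute.refl x)
  have c2 : Commute (x * x) (x * (x * x)) := c1.symm.mul_right (Commute.refl _)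
  have c3 : Commute x (x * (x * x)) := (Commute.refl x).mul_right c1
  have s2 : SS ρ (x * x) := (hk.mul hk rfl).mono (by nlinarith)
  have s3 : SS ρ (x * (x * x)) := (hk.mul s2 c1.eq).mono (by nlinarith)
  rw [e1]
  have dbl : ∀ z : M2 F, (z + z) * z = z * (z + z) := fun z =>
    ((Commute.refl z).add_left (Commute.refl z)).eq
  refine SS.add (SS.add (SS.add (SS.add hk hk rfl) hk (dbl _)) (SS.add (SS.add s2 s2 rfl) s2
    (dbl _)) ?_) s3 ?_
  · have c4 : Commute (x + x + x) (x * x) := (c1.add_left c1).add_left c1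
    exact ((c4.add_right c4).add_right c4).eq
  · exact ((((c3.add_left c3).add_left c3).add_left ((c2.add_left c2).add_left c2))).eq

/-- **Comparison of near cube roots up to a scalar.** -/
theorem compare_cube_roots (h3 : (3 : F) ≠ 0) (h2 : (2 : F) ≠ 0) {k k' : M2 F} {ν : F} {ρ : ℝ}
    (hρ : ‖(3 : F)⁻¹‖ ^ 2 * (‖(2 : F)⁻¹‖ * ρ) < 1)
    (hk : SS ρ (k - 1)) (hk' : SS ρ (k' - 1)) (hc : k * k' = k' * k)
    (he : k ^ 3 = ν • k' ^ 3) :
    ∃ s : F, s ≠ 0 ∧ s ^ 3 = ν ∧ ‖s - 1‖ ≤ ‖(3 : F)⁻¹‖ * (‖(2 : F)⁻¹‖ * ρ) ∧ k = s • k' := by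
  have ht := isThird_field h3
  have hC : 1 ≤ ‖(3 : F)⁻¹‖ := ht.one_le_norm
  have hD : 1 ≤ ‖(2 : F)⁻¹‖ := by
    rw [norm_inv]
    exact (one_le_inv₀ (norm_pos_iff.mpr h2)).mpr norm_two_le
  have hρ0 := hk.nonneg
  have hDρ : 0 ≤ ‖(2 : F)⁻¹‖ * ρ := by positivity
  obtain ⟨k1, k2, k3⟩ := radius_aux ht hDρ hρ
  have hρD : ρ ≤ ‖(2 : F)⁻¹‖ * ρ := by nlinarith
  have hρCD : ρ ≤ ‖(3 : F)⁻¹‖ * (‖(2 : F)⁻¹‖ * ρ) := by nlinarith
  have hρ1 : ρ < 1 := hρCD.trans_lt k1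
  have hDρ1 : ‖(2 : F)⁻¹‖ * ρ < 1 := by nlinarith
  have hρ2 : ρ < ‖(2 : F)‖ := by
    rw [norm_inv] at hDρ1
    have h2p : 0 < ‖(2 : F)‖ := norm_pos_iff.mpr h2
    rwa [inv_mul_lt_iff₀ h2p, mul_one] at hDρ1
  -- traces
  have s1 := hk.cube_sub_one hρ1.le
  have s2 := hk'.cube_sub_one hρ1.le
  have tr1 : (1 : M2 F).trace = 2 := by rw [Matrix.trace_fin_two]; norm_num
  set a := (k ^ 3 - 1).trace with ha
  set b := (k' ^ 3 - 1).trace with hb
  have ha' : (k ^ 3).trace = 2 + a := by rw [ha, Matrix.trace_sub, tr1]; ring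
  have hb' : (k' ^ 3).trace = 2 + b := by rw [hb, Matrix.trace_sub, tr1]; ring
  have hab : 2 + a = ν * (2 + b) := by
    rw [← ha', ← hb', he, Matrix.trace_smul, smul_eq_mul]
  have hnb : ‖2 + b‖ = ‖(2 : F)‖ := by
    have : ‖b‖ < ‖(2 : F)‖ := s2.1.trans_lt hρ2
    rw [norm_add_eq_max_of_norm_ne_norm this.ne', max_eq_left this.le]
  have hν : ‖ν - 1‖ ≤ ‖(2 : F)⁻¹‖ * ρ := by
    have h4 : (ν - 1) * (2 + b) = a - b := by linear_combination -hab
    have h5 : ‖ν - 1‖ * ‖(2 : F)‖ ≤ ρ := by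
      rw [← hnb, ← norm_mul, h4]
      exact (norm_sub_le_maxF _ _).trans (max_le s1.1 s2.1)
    rw [norm_inv, inv_mul_eq_div, le_div_iff₀ (norm_pos_iff.mpr h2)]
    exact h5
  obtain ⟨s, hs3, hs⟩ := exists_cube_root ht hρ hν
  have hs0 : s ≠ 0 := by
    rintro rfl
    rw [zero_sub, norm_neg, norm_one] at hs
    linarith
  refine ⟨s, hs0, hs3, hs, ?_⟩
  have hsn : ‖s‖ ≤ 1 := by
    rw [norm_eq_one_of_near k1 hs]
  have e5 : s • k' - 1 = s • (k' - 1) + (s - 1) • (1 : M2 F) := by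
    rw [smul_sub, sub_smul, one_smul]; abel
  have ss1 : SS (‖(3 : F)⁻¹‖ * (‖(2 : F)⁻¹‖ * ρ)) (s • (k' - 1)) :=
    (hk'.smul hsn).mono (by rw [one_mul]; exact hρCD)
  have ss2 : SS (‖(3 : F)⁻¹‖ * (‖(2 : F)⁻¹‖ * ρ)) ((s - 1) • (1 : M2 F)) := by
    have := ss_one (F := F) |>.smul hs
    rwa [mul_one] at this
  have ss3 : SS (‖(3 : F)⁻¹‖ * (‖(2 : F)⁻¹‖ * ρ)) (s • k' - 1) := by
    rw [e5]
    exact SS.add ss1 ss2 (by rw [mul_smul_comm, mul_one, smul_mul_assoc, one_mul])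
  have h6 : ‖(3 : F)⁻¹‖ * (‖(3 : F)⁻¹‖ * (‖(2 : F)⁻¹‖ * ρ)) < 1 := by
    have : ‖(3 : F)⁻¹‖ * (‖(3 : F)⁻¹‖ * (‖(2 : F)⁻¹‖ * ρ)) =
        ‖(3 : F)⁻¹‖ ^ 2 * (‖(2 : F)⁻¹‖ * ρ) := by ring
    rw [this]; exact hρ
  refine cube_root_unique_spec h6 h3 k1 (hk.mono hρCD) ss3 ?_ ?_
  · rw [mul_smul_comm, smul_mul_assoc, hc]
  · rw [smul_pow, hs3, he]

theorem fixed_of_cube (h3 : (3 : F) ≠ 0) (hτn : ∀ a, ‖τ a‖ = ‖a‖) {s ν : F} {σ : ℝ}
    (hσ : σ < 1) (hσ2 : ‖(3 : F)⁻¹‖ * σ ^ 2 < 1)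
    (hs : ‖s - 1‖ ≤ σ) (hs3 : s ^ 3 = ν) (hν : τ ν = ν) : τ s = s := by
  refine cube_root_unique (isThird_field h3) hσ hσ2 ?_ hs ?_
  · have : τ s - 1 = τ (s - 1) := by rw [map_sub, map_one]
    rw [this, hτn]; exact hs
  · rw [← map_pow, hs3, hν]

end Compare

end Fermat.Agent.LT.Near
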