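import Fermat.Agent.LT.Near.CubeRoot

/-!
# The sup norm on `2 × 2` matrices over an ultrametric field, and two facts on non-scalar matrices
-/

set_option autoImplicit false
set_option linter.unusedSectionVars false

open IsUltrametricDist Matrix

namespace Fermat.Agent.LT.Near

section Norm

variable {F : Type*} [NormedField F] [IsUltrametricDist F]

/-- the sup norm makes `M₂(F)` a normed ring, `F` ultrametric -/
@[reducible] noncomputable def matNormedRing : NormedRing (Matrix (Fin 2) (Fin 2) F) :=
  { Matrix.normedAddCommGroup, (inferInstance : Ring (Matrix (Fin 2) (Fin 2) F)) with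
    norm_mul_le := by
      intro A B
      let _ : NormedAddCommGroup (Matrix (Fin 2) (Fin 2) F) := Matrix.normedAddCommGroup
      rw [Matrix.norm_le_iff (by positivity)]
      intro i j
      rw [Matrix.mul_apply, Fin.sum_univ_two]
      refine (norm_add_le_max _ _).trans (max_le ?_ ?_)
      · rw [norm_mul]
        exact mul_le_mul (Matrix.norm_entry_le_entrywise_sup_norm A)
          (Matrix.norm_entry_le_entrywise_sup_norm B) (norm_nonneg _) (norm_nonneg _)
      · rw [norm_mul]
        exact mul_le_mul (Matrix.norm_entry_le_entrywise_sup_norm A)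
          (Matrix.norm_entry_le_entrywise_sup_norm B) (norm_nonneg _) (norm_nonneg _) }

attribute [local instance] matNormedRing

theorem mat_norm_le_iff {r : ℝ} (hr : 0 ≤ r) {A : Matrix (Fin 2) (Fin 2) F} :
    ‖A‖ ≤ r ↔ ∀ i j, ‖A i j‖ ≤ r := Matrix.norm_le_iff hr

theorem mat_entry_le (A : Matrix (Fin 2) (Fin 2) F) (i j : Fin 2) : ‖A i j‖ ≤ ‖A‖ :=
  Matrix.norm_entry_le_entrywise_sup_norm A

theorem matNormOne : NormOneClass (Matrix (Fin 2) (Fin 2) F) where
  norm_one := by
    apply le_antisymm
    · rw [mat_norm_le_iff zero_le_one]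
      intro i j
      fin_cases i <;> fin_cases j <;> simp
    · have := mat_entry_le (1 : Matrix (Fin 2) (Fin 2) F) 0 0
      simpa using this

theorem matUltra : IsUltrametricDist (Matrix (Fin 2) (Fin 2) F) :=
  inferInstanceAs (IsUltrametricDist (Fin 2 → Fin 2 → F))

theorem matComplete [CompleteSpace F] : @CompleteSpace (Matrix (Fin 2) (Fin 2) F)
    (matNormedRing (F := F)).toMetricSpace.toPseudoMetricSpace.toUniformSpace :=
  inferInstanceAs (CompleteSpace (Fin 2 → Fin 2 → F))

end Norm

end Fermat.Agent.LT.Near
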