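import Fermat.Agent.LT.Near.Mat

/-!
# Two facts on non-scalar `2 × 2` matrices: commutants and conjugacy over the fixed field
-/

set_option autoImplicit false
set_option linter.unusedSectionVars false

open Matrix

namespace Fermat.Agent.LT.Near

section Comm

variable {F : Type*} [Field F]

/-- `2 × 2` matrices -/
abbrev M2 (F : Type*) := Matrix (Fin 2) (Fin 2) F

/-- scalar matrices -/
def IsScalar (A : M2 F) : Prop := A 0 1 = 0 ∧ A 1 0 = 0 ∧ A 0 0 = A 1 1

theorem isScalar_iff {A : M2 F} : IsScalar A ↔ A = scalar (Fin 2) (A 0 0) := by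
  constructor
  · rintro ⟨h1, h2, h3⟩
    ext i j
    fin_cases i <;> fin_cases j <;> simp [h1, h2, h3]
  · intro h
    have h01 := congrFun (congrFun h 0) 1
    have h10 := congrFun (congrFun h 1) 0
    have h11 := congrFun (congrFun h 1) 1
    simp at h01 h10 h11
    exact ⟨h01, h10, h11.symm⟩

theorem commute_iff {A B : M2 F} : A * B = B * A ↔
    A 0 1 * B 1 0 = B 0 1 * A 1 0 ∧ (A 0 0 - A 1 1) * B 0 1 = (B 0 0 - B 1 1) * A 0 1 ∧
      (A 0 0 - A 1 1) * B 1 0 = (B 0 0 - B 1 1) * A 1 0 := by
  constructor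
  · intro h
    have h00 := congrFun (congrFun h 0) 0
    have h01 := congrFun (congrFun h 0) 1
    have h10 := congrFun (congrFun h 1) 0
    simp only [Matrix.mul_apply, Fin.sum_univ_two] at h00 h01 h10
    refine ⟨?_, ?_, ?_⟩
    · linear_combination h00
    · linear_combination h01
    · linear_combination -h10
  · rintro ⟨h1, h2, h3⟩
    ext i j
    simp only [Matrix.mul_apply, Fin.sum_univ_two]
    fin_cases i <;> fin_cases j <;> simp only [Fin.zero_eta, Fin.mk_one, Fin.isValue]
    · linear_combination h1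
    · linear_combination h2
    · linear_combination -h3
    · linear_combination -h1

/-- proportional vectors -/
theorem parallel_trans {u v w : Fin 3 → F} (hu : u ≠ 0) (hv : ∀ i j, v i * u j = v j * u i)
    (hw : ∀ i j, w i * u j = w j * u i) (i j : Fin 3) : v i * w j = v j * w i := by
  obtain ⟨k, hk⟩ := Function.ne_iff.mp hu
  apply mul_right_cancel₀ (show u k ≠ 0 from hk)
  linear_combination v i * hw j k + w k * hv i j + v j * hw k i

/-- the traceless part as a vector -/
def tl (A : M2 F) : Fin 3 → F := ![A 0 0 - A 1 1, A 0 1, A 1 0]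

theorem commute_iff_tl {A B : M2 F} : A * B = B * A ↔ ∀ i j, tl A i * tl B j = tl A j * tl B i := by
  rw [commute_iff]
  constructor
  · rintro ⟨h1, h2, h3⟩ i j
    fin_cases i <;> fin_cases j <;> simp only [tl, Fin.zero_eta, Fin.mk_one, Fin.isValue,
      Matrix.cons_val_zero, Matrix.cons_val_one, Fin.reduceFinMk, Matrix.cons_val]
    · linear_combination h2
    · linear_combination h3
    · linear_combination -h2
    · linear_combination h1
    · linear_combination -h3
    · linear_combination -h1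
  · intro h
    have h1 := h 0 1
    have h2 := h 0 2
    have h3 := h 1 2
    simp only [tl, Matrix.cons_val_zero, Matrix.cons_val_one, Matrix.cons_val] at h1 h2 h3
    exact ⟨by linear_combination h3, by linear_combination h1, by linear_combination h2⟩

theorem tl_ne_zero {A : M2 F} (hA : ¬ IsScalar A) : tl A ≠ 0 := by
  intro h
  have h0 := congrFun h 0
  have h1 := congrFun h 1
  have h2 := congrFun h 2
  simp only [tl, Matrix.cons_val_zero, Matrix.cons_val_one, Matrix.cons_val, Pi.zero_apply]
    at h0 h1 h2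
  exact hA ⟨h1, h2, sub_eq_zero.mp h0⟩

/-- The commutant of a non-scalar matrix is commutative. -/
theorem commute_of_nonscalar {γ A B : M2 F} (hγ : ¬ IsScalar γ) (hA : A * γ = γ * A)
    (hB : B * γ = γ * B) : A * B = B * A := by
  rw [commute_iff_tl] at hA hB ⊢
  exact parallel_trans (tl_ne_zero hγ) hA hB

/-- the companion matrix of `X² - t X + d` -/
def companion (t d : F) : M2 F := !![0, -d; 1, t]

/-- a non-scalar matrix has a cyclic vector with entries `0`, `1`; statement with a subfield-free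
formulation: the conjugating matrix has its columns `v`, `A v`. -/
theorem exists_cyclic {A : M2 F} (hA : ¬ IsScalar A) :
    ∃ a b : F, (a = 0 ∨ a = 1) ∧ (b = 0 ∨ b = 1) ∧
      (!![a, A 0 0 * a + A 0 1 * b; b, A 1 0 * a + A 1 1 * b] : M2 F).det ≠ 0 := by
  by_cases h1 : A 1 0 = 0
  · by_cases h2 : A 0 1 = 0
    · have h3 : A 0 0 ≠ A 1 1 := fun h => hA ⟨h2, h1, h⟩
      refine ⟨1, 1, Or.inr rfl, Or.inr rfl, ?_⟩
      rw [Matrix.det_fin_two_of, h1, h2]
      intro h
      apply h3
      linear_combination -h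
    · refine ⟨0, 1, Or.inl rfl, Or.inr rfl, ?_⟩
      rw [Matrix.det_fin_two_of]
      intro h
      apply h2
      linear_combination -h
  · refine ⟨1, 0, Or.inr rfl, Or.inl rfl, ?_⟩
    rw [Matrix.det_fin_two_of]
    intro h
    apply h1
    linear_combination h

theorem mul_cyclic (A : M2 F) (a b : F) :
    A * !![a, A 0 0 * a + A 0 1 * b; b, A 1 0 * a + A 1 1 * b] =
      !![a, A 0 0 * a + A 0 1 * b; b, A 1 0 * a + A 1 1 * b] * companion A.trace A.det := by
  rw [Matrix.trace_fin_two, Matrix.det_fin_two]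
  ext i j
  fin_cases i <;> fin_cases j <;>
    simp [companion, Matrix.mul_apply, Fin.sum_univ_two] <;> ring

variable (τ : F ≃+* F)

/-- the action of `τ` on matrices -/
abbrev tM : M2 F ≃+* M2 F := τ.mapMatrix

@[simp] theorem tM_apply (A : M2 F) (i j : Fin 2) : tM τ A i j = τ (A i j) := rfl

/-- Non-scalar fixed matrices with the same trace and determinant are conjugate by a fixed
matrix. -/
theorem exists_conj_fixed_of_trace {A B : M2 F} (hA : ¬ IsScalar A) (hB : ¬ IsScalar B)
    (hτA : tM τ A = A) (hτB : tM τ B = B) (ht : A.trace = B.trace) (hd : A.det = B.det) :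
    ∃ P : M2 F, IsUnit P ∧ tM τ P = P ∧ A * P = P * B := by
  have key : ∀ A : M2 F, ¬ IsScalar A → tM τ A = A →
      ∃ P : M2 F, IsUnit P ∧ tM τ P = P ∧ A * P = P * companion A.trace A.det := by
    intro A hA hτA
    obtain ⟨a, b, ha, hb, hdet⟩ := exists_cyclic hA
    refine ⟨_, ?_, ?_, mul_cyclic A a b⟩
    · rw [Matrix.isUnit_iff_isUnit_det]
      exact isUnit_iff_ne_zero.mpr hdet
    · have ha' : τ a = a := by rcases ha with rfl | rfl <;> simp
      have hb' : τ b = b := by rcases hb with rfl | rfl <;> simp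
      have hA' : ∀ i j, τ (A i j) = A i j := fun i j => congrFun (congrFun hτA i) j
      ext i j
      fin_cases i <;> fin_cases j <;> simp [ha', hb', hA', map_add, map_mul]
  obtain ⟨P, hP, hτP, h1⟩ := key A hA hτA
  obtain ⟨Q, hQ, hτQ, h2⟩ := key B hB hτB
  obtain ⟨Q', hQQ', hQ'Q⟩ : ∃ d : M2 F, Q * d = 1 ∧ d * Q = 1 := by
    obtain ⟨u, rfl⟩ := hQ
    exact ⟨(u⁻¹ : (M2 F)ˣ), u.mul_inv, u.inv_mul⟩
  have hτQ' : tM τ Q' = Q' := by
    have h3 : tM τ Q' * Q = 1 := by
      have : tM τ Q' * tM τ Q = 1 := by rw [← map_mul, hQ'Q, map_one]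
      rwa [hτQ] at this
    calc tM τ Q' = tM τ Q' * (Q * Q') := by rw [hQQ', mul_one]
      _ = (tM τ Q' * Q) * Q' := by rw [mul_assoc]
      _ = Q' := by rw [h3, one_mul]
  refine ⟨P * Q', ?_, ?_, ?_⟩
  · exact hP.mul ⟨⟨Q', Q, hQ'Q, hQQ'⟩, rfl⟩
  · rw [map_mul, hτP, hτQ']
  · have h4 : Q' * B = companion B.trace B.det * Q' := by
      calc Q' * B = Q' * B * (Q * Q') := by rw [hQQ', mul_one]
        _ = Q' * (B * Q) * Q' := by simp only [mul_assoc]
        _ = (Q' * Q) * companion B.trace B.det * Q' := by rw [h2]; simp only [mul_assoc]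
        _ = companion B.trace B.det * Q' := by rw [hQ'Q, one_mul]
    rw [← mul_assoc, h1, mul_assoc, mul_assoc, h4, ht, hd]

end Comm

end Fermat.Agent.LT.Near
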