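import Mathlib

/-!
# Push-forward at a bad place

Group theoretic part of the comparison at a place `v` of `K` which does not split in `L` and where the
test function is supported near the identity. `G = GL₂(L_w)`, `H = GL₂(K_v)`, `ι : H → G`, `τ` the
automorphism of `G`, `D.W` the level (it contains the centre), `W'` the big group of the near-identity
lemma, in which `D.W` is normal. The weight `x ↦ φ (x⁻¹ δ τ(x))` on `G ⧸ W` is pushed forward, along
a map which is equivariant under the centraliser, to the weight `y ↦ f (y⁻¹ γ y)` on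
`H ⧸ (H ∩ W)`; here `f (z h³) = ∑ φ (u⁻¹ h τ(u))`, the sum over representatives of
`(H ∩ W') \ W' / W`.
-/

set_option autoImplicit false

open scoped Classical in
section

namespace Fermat.Agent.LT.Near

/-- A test function on `G` of level `W`, with an endomorphism `τ` of `G` preserving `W`. -/
structure TwData (G : Type*) [Group G] where
  /-- the automorphism -/
  τ : G →* G
  /-- the level -/
  W : Subgroup G
  hτ : ∀ u ∈ W, τ u ∈ W
  /-- the test function -/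
  φ : G → ℂ
  left : ∀ u ∈ W, ∀ g, φ (u * g) = φ g
  right : ∀ u ∈ W, ∀ g, φ (g * u) = φ g

namespace TwData

variable {G : Type*} [Group G] (D : TwData G)

/-- The weight `x ↦ φ (x⁻¹ δ τ(x))` on `G ⧸ W`. -/
def tw (δ : G) : G ⧸ D.W → ℂ :=
  Quotient.lift (fun x : G => D.φ (x⁻¹ * δ * D.τ x)) (by
    intro a b hab
    obtain ⟨u, hu, h1⟩ : ∃ u, u = a⁻¹ * b ∧ u ∈ D.W :=
      ⟨_, rfl, QuotientGroup.leftRel_apply.mp hab⟩
    have hb : b = a * u := by rw [hu]; group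
    change D.φ (a⁻¹ * δ * D.τ a) = D.φ (b⁻¹ * δ * D.τ b)
    have h2 : b⁻¹ * δ * D.τ b = u⁻¹ * (a⁻¹ * δ * D.τ a * D.τ u) := by
      rw [hb, map_mul]; group
    rw [h2, D.left u⁻¹ (D.W.inv_mem h1), D.right (D.τ u) (D.hτ _ h1)])

@[simp] theorem tw_mk (δ x : G) : D.tw δ (x : G ⧸ D.W) = D.φ (x⁻¹ * δ * D.τ x) := rfl

/-- Change of variable. -/
theorem tw_smul (δ g : G) (s : G ⧸ D.W) : D.tw δ (g • s) = D.tw (g⁻¹ * δ * D.τ g) s := by
  obtain ⟨x, rfl⟩ := QuotientGroup.mk_surjective s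
  change D.φ ((g * x)⁻¹ * δ * D.τ (g * x)) = D.φ (x⁻¹ * (g⁻¹ * δ * D.τ g) * D.τ x)
  congr 1
  rw [map_mul]; group

/-- Central elements of the level do not matter. -/
theorem tw_central {z : G} (hz : z ∈ D.W) (hc : ∀ g, z * g = g * z) (δ : G) :
    D.tw (z * δ) = D.tw δ := by
  funext s
  obtain ⟨x, rfl⟩ := QuotientGroup.mk_surjective s
  rw [tw_mk, tw_mk, ← D.left z hz (x⁻¹ * δ * D.τ x)]
  congr 1
  rw [← mul_assoc, ← mul_assoc, ← mul_assoc, hc x⁻¹]

/-- The sum of the weight over a set of cosets. -/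
noncomputable def total (B : Set (G ⧸ D.W)) (δ : G) : ℂ := ∑ᶠ s ∈ B, D.tw δ s

/-- Sum over a translate. -/
theorem finsum_smul_image (B : Set (G ⧸ D.W)) (g δ : G) :
    ∑ᶠ s ∈ (fun s : G ⧸ D.W => g • s) '' B, D.tw δ s = D.total B (g⁻¹ * δ * D.τ g) := by
  rw [finsum_mem_image (fun a _ b _ h => MulAction.injective g h)]
  exact finsum_mem_congr rfl fun s _ => D.tw_smul δ g s

theorem total_central (B : Set (G ⧸ D.W)) {z : G} (hz : z ∈ D.W) (hc : ∀ g, z * g = g * z)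
    (δ : G) : D.total B (z * δ) = D.total B δ := by
  unfold total; rw [D.tw_central hz hc]

/-- The total vanishes off `W'`. -/
theorem total_eq_zero {W' : Subgroup G} (hτ' : ∀ u ∈ W', D.τ u ∈ W')
    (hsupp : ∀ g, D.φ g ≠ 0 → g ∈ W') {B : Set (G ⧸ D.W)}
    (hB : ∀ s ∈ B, ∃ u ∈ W', s = ((u : G) : G ⧸ D.W)) {δ : G} (hδ : δ ∉ W') :
    D.total B δ = 0 := by
  unfold total
  refine finsum_mem_eq_zero_of_forall_eq_zero fun s hs => ?_
  obtain ⟨x, hx, rfl⟩ := hB s hs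
  rw [tw_mk]
  by_contra h
  have h1 := hsupp _ h
  apply hδ
  have h2 : δ = x * (x⁻¹ * δ * D.τ x) * (D.τ x)⁻¹ := by group
  rw [h2]
  exact W'.mul_mem (W'.mul_mem hx h1) (W'.inv_mem (hτ' x hx))

end TwData

section Reps

variable {G H : Type*} [Group G] [Group H] (D : TwData G) (ι : H →* G) (W' : Subgroup G)

/-- The representative of a double coset `(H ∩ W') x W`. -/
noncomputable def rep (x : G) : G :=
  (DoubleCoset.mk ((W'.comap ι).map ι) D.W x : DoubleCoset.Quotient _ _).out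

variable {D ι W'}

theorem rep_spec (x : G) : ∃ h : H, ι h ∈ W' ∧ ∃ w ∈ D.W, rep D ι W' x = ι h * x * w := by
  obtain ⟨a, b, ha, hb, h⟩ := DoubleCoset.mk_out_eq_mul ((W'.comap ι).map ι) D.W x
  obtain ⟨h', hh', rfl⟩ := ha
  exact ⟨h', hh', b, hb, h⟩

theorem rep_eq {h : H} (hh : ι h ∈ W') {w : G} (hw : w ∈ D.W) (x : G) :
    rep D ι W' (ι h * x * w) = rep D ι W' x := by
  unfold rep
  congr 1
  refine (DoubleCoset.eq _ _ _ _).mpr ⟨(ι h)⁻¹, ?_, w⁻¹, D.W.inv_mem hw, by group⟩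
  exact Subgroup.inv_mem _ ⟨h, hh, rfl⟩

theorem rep_rep (x : G) : rep D ι W' (rep D ι W' x) = rep D ι W' x := by
  obtain ⟨h, hh, w, hw, he⟩ := rep_spec (D := D) (ι := ι) (W' := W') x
  conv_lhs => rw [he]
  exact rep_eq hh hw x

theorem rep_mem (hW : D.W ≤ W') {x : G} (hx : x ∈ W') : rep D ι W' x ∈ W' := by
  obtain ⟨h, hh, w, hw, he⟩ := rep_spec (D := D) (ι := ι) (W' := W') x
  rw [he]
  exact W'.mul_mem (W'.mul_mem hh hx) (hW hw)

variable (D ι W') in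
/-- The cosets of the representatives in `W'`. -/
def box : Set (G ⧸ D.W) :=
  {s | ∃ u ∈ W', rep D ι W' u = u ∧ s = ((u : G) : G ⧸ D.W)}

end Reps

section Push

variable {G H : Type*} [Group G] [Group H] (D : TwData G) (ι : H →* G) (W' : Subgroup G)
  (Z : Subgroup H)

/-- The transferred function: `f (z h³) = total h` for `h` near `1`, and `0` elsewhere. -/
noncomputable def cubeFun (a : H) : ℂ :=
  if h : ∃ b : H, ι b ∈ W' ∧ ∃ z ∈ Z, a = z * b ^ 3 then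
    D.total (box D ι W') (ι h.choose) else 0

variable {D ι W' Z}

/-- The standing hypotheses at the place. -/
structure PushSetup (D : TwData G) (ι : H →* G) (W' : Subgroup G) (Z : Subgroup H) : Prop where
  tauι : ∀ h, D.τ (ι h) = ι h
  le : D.W ≤ W'
  normal : ∀ u ∈ W', ∀ w ∈ D.W, u⁻¹ * w * u ∈ D.W
  tau : ∀ u ∈ W', D.τ u ∈ W'
  supp : ∀ g, D.φ g ≠ 0 → g ∈ W'
  central : ∀ z ∈ Z, ∀ h, z * h = h * z
  finite : (box D ι W').Finite

/-- What the near-identity lemma says about the pair `(δ, γ)`. -/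
structure PushData (D : TwData G) (ι : H →* G) (W' : Subgroup G) (Z : Subgroup H)
    (δ : G) (γ : H) (k : H) (y : G) : Prop where
  delta : ∃ z ∈ D.W, (∀ g, z * g = g * z) ∧ δ * D.τ y = z * (y * ι k)
  gamma : ∃ z ∈ Z, γ = z * k ^ 3
  supp : ∀ x, D.φ (x⁻¹ * δ * D.τ x) ≠ 0 → ∃ g : H, ∃ u ∈ W', x = y * ι g * u
  root : ∀ g b : H, ι b ∈ W' → ∀ z ∈ Z, g⁻¹ * γ * g = z * b ^ 3 →
    ∃ z' : H, ι z' ∈ D.W ∧ (∀ x, ι z' * x = x * ι z') ∧ b = z' * (g⁻¹ * k * g)

theorem box_sub {s : G ⧸ D.W} (hs : s ∈ box D ι W') : ∃ u ∈ W', s = ((u : G) : G ⧸ D.W) := by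
  obtain ⟨u, hu, -, rfl⟩ := hs
  exact ⟨u, hu, rfl⟩

/-- The equivariant map on the support. -/
noncomputable def proj (D : TwData G) (ι : H →* G) (W' : Subgroup G) (y : G) (s : G ⧸ D.W) :
    H ⧸ D.W.comap ι :=
  if h : ∃ g : H, ∃ u ∈ W', rep D ι W' u = u ∧ s = ((y * ι g * u : G) : G ⧸ D.W) then
    ((h.choose : H) : H ⧸ D.W.comap ι) else ((1 : H) : H ⧸ D.W.comap ι)

theorem proj_mk (S : PushSetup D ι W' Z) (y : G) (g : H) {u : G} (hu : u ∈ W')
    (hr : rep D ι W' u = u) :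
    proj D ι W' y ((y * ι g * u : G) : G ⧸ D.W) = ((g : H) : H ⧸ D.W.comap ι) := by
  have h : ∃ g' : H, ∃ u' ∈ W', rep D ι W' u' = u' ∧ ((y * ι g * u : G) : G ⧸ D.W) =
      ((y * ι g' * u' : G) : G ⧸ D.W) := ⟨g, u, hu, hr, rfl⟩
  rw [proj, dif_pos h]
  obtain ⟨u', hu', hr', he⟩ := h.choose_spec
  obtain ⟨g', hg'⟩ : ∃ g', g' = h.choose := ⟨_, rfl⟩
  rw [← hg'] at he ⊢
  have h1 := QuotientGroup.eq.mp he
  obtain ⟨w, hw⟩ : ∃ w, w = (y * ι g * u)⁻¹ * (y * ι g' * u') := ⟨_, rfl⟩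
  rw [← hw] at h1
  have h2 : ι (g⁻¹ * g') = u * w * u'⁻¹ := by rw [hw, map_mul, map_inv]; group
  have h3 : ι (g⁻¹ * g') ∈ W' := by
    rw [h2]; exact W'.mul_mem (W'.mul_mem hu (S.le h1)) (W'.inv_mem hu')
  have h4 : u = ι (g⁻¹ * g') * u' * w⁻¹ := by rw [h2]; group
  have h5 : u = u' := by
    rw [← hr, ← hr']
    conv_lhs => rw [h4]
    exact rep_eq h3 (D.W.inv_mem h1) u'
  refine (QuotientGroup.eq.mpr ?_).symm
  rw [Subgroup.mem_comap, h2, ← h5]
  have h6 := S.normal u⁻¹ (W'.inv_mem hu) w h1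
  rwa [inv_inv] at h6

/-- Every element of `y H W'` can be written with a representative. -/
theorem exists_rep (S : PushSetup D ι W' Z) (y : G) (g : H) {u : G} (hu : u ∈ W') :
    ∃ h : H, ι h ∈ W' ∧ ((y * ι g * u : G) : G ⧸ D.W) =
      ((y * ι (g * h) * rep D ι W' u : G) : G ⧸ D.W) := by
  obtain ⟨h, hh, w, hw, he⟩ := rep_spec (D := D) (ι := ι) (W' := W') u
  refine ⟨h⁻¹, by rw [map_inv]; exact W'.inv_mem hh, QuotientGroup.eq.mpr ?_⟩
  have h1 : (y * ι g * u)⁻¹ * (y * ι (g * h⁻¹) * rep D ι W' u) = w := by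
    rw [he, map_mul, map_inv]; group
  rw [h1]; exact hw

namespace PushData

variable {δ : G} {γ k : H} {y : G}

theorem total_eq (P : PushData D ι W' Z δ γ k y) (S : PushSetup D ι W' Z) (B : Set (G ⧸ D.W))
    (g : H) : D.total B ((y * ι g)⁻¹ * δ * D.τ (y * ι g)) = D.total B (ι (g⁻¹ * k * g)) := by
  obtain ⟨z, hz, hc, h⟩ := P.delta
  have h1 : (y * ι g)⁻¹ * δ * D.τ (y * ι g) = z * ι (g⁻¹ * k * g) := by
    calc (y * ι g)⁻¹ * δ * D.τ (y * ι g) = (ι g)⁻¹ * y⁻¹ * (δ * D.τ y) * ι g := by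
          rw [map_mul, S.tauι]; group
      _ = (ι g)⁻¹ * y⁻¹ * (z * (y * ι k)) * ι g := by rw [h]
      _ = ((ι g)⁻¹ * y⁻¹ * z) * y * ι k * ι g := by group
      _ = (z * ((ι g)⁻¹ * y⁻¹)) * y * ι k * ι g := by rw [← hc]
      _ = z * ((ι g)⁻¹ * ι k * ι g) := by group
      _ = z * ι (g⁻¹ * k * g) := by rw [map_mul, map_mul, map_inv]
  rw [h1, D.total_central B hz hc]

theorem cubeFun_eq (P : PushData D ι W' Z δ γ k y) (S : PushSetup D ι W' Z) (g : H) :
    cubeFun D ι W' Z (g⁻¹ * γ * g) = D.total (box D ι W') (ι (g⁻¹ * k * g)) := by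
  unfold cubeFun
  split_ifs with h
  · obtain ⟨hb, z, hz, hg⟩ := h.choose_spec
    obtain ⟨z', hz', hc, hb'⟩ := P.root g h.choose hb z hz hg
    conv_lhs => rw [hb']
    rw [map_mul, D.total_central _ hz' hc]
  · have h1 : ι (g⁻¹ * k * g) ∉ W' := by
      intro hmem
      apply h
      obtain ⟨z, hz, hγ⟩ := P.gamma
      refine ⟨g⁻¹ * k * g, hmem, z, hz, ?_⟩
      rw [hγ]
      calc g⁻¹ * (z * k ^ 3) * g = (g⁻¹ * z) * k ^ 3 * g := by group
        _ = (z * g⁻¹) * k ^ 3 * g := by rw [S.central z hz]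
        _ = z * (g⁻¹ * k * g) ^ 3 := by
          have : (g⁻¹ * k * g) ^ 3 = g⁻¹ * k ^ 3 * g := by
            simp only [pow_succ, pow_zero, one_mul]; group
          rw [this]; group
    rw [D.total_eq_zero S.tau S.supp (fun s hs => box_sub hs) h1]

theorem inter_support (P : PushData D ι W' Z δ γ k y) (S : PushSetup D ι W' Z) (g : H) :
    {s | proj D ι W' y s = ((g : H) : H ⧸ D.W.comap ι)} ∩ Function.support (D.tw δ) =
      (fun s : G ⧸ D.W => (y * ι g) • s) '' box D ι W' ∩ Function.support (D.tw δ) := by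
  ext s
  refine and_congr_left fun hs => ?_
  constructor
  · intro h
    obtain ⟨x, rfl⟩ := QuotientGroup.mk_surjective s
    obtain ⟨g₁, u₁, hu₁, rfl⟩ := P.supp x hs
    obtain ⟨h₁, -, he⟩ := exists_rep S y g₁ hu₁
    have hr := rep_rep (D := D) (ι := ι) (W' := W') u₁
    have hm : rep D ι W' u₁ ∈ W' := rep_mem S.le hu₁
    generalize hg' : g₁ * h₁ = g' at he
    generalize hu' : rep D ι W' u₁ = u at he hr hm
    rw [he] at h ⊢
    have h : proj D ι W' y ((y * ι g' * u : G) : G ⧸ D.W) = ((g : H) : H ⧸ D.W.comap ι) := h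
    rw [proj_mk S y g' hm hr] at h
    have h1 := QuotientGroup.eq.mp h
    rw [Subgroup.mem_comap] at h1
    refine ⟨((u : G) : G ⧸ D.W), ⟨u, hm, hr, rfl⟩, ?_⟩
    change ((y * ι g * u : G) : G ⧸ D.W) = _
    refine (QuotientGroup.eq.mpr ?_)
    have h2 : (y * ι g * u)⁻¹ * (y * ι g' * u) = u⁻¹ * (ι (g'⁻¹ * g))⁻¹ * u := by
      rw [map_mul, map_inv]; group
    rw [h2]
    exact S.normal u hm _ (D.W.inv_mem h1)
  · rintro ⟨_, ⟨u, hu, hr, rfl⟩, rfl⟩
    exact proj_mk S y g hu hr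

/-- **The push-forward.** -/
theorem finsum_proj (P : PushData D ι W' Z δ γ k y) (S : PushSetup D ι W' Z) (g : H) :
    ∑ᶠ s ∈ {s | proj D ι W' y s = ((g : H) : H ⧸ D.W.comap ι)}, D.tw δ s =
      cubeFun D ι W' Z (g⁻¹ * γ * g) := by
  rw [finsum_mem_inter_support_eq _ _ _ (P.inter_support S g), D.finsum_smul_image, P.total_eq S,
    P.cubeFun_eq S]

theorem proj_smul (P : PushData D ι W' Z δ γ k y) (S : PushSetup D ι W' Z) {t : H}
    (ht : ι t * y = y * ι t) {s : G ⧸ D.W} (hs : D.tw δ s ≠ 0) :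
    proj D ι W' y (ι t • s) = t • proj D ι W' y s := by
  obtain ⟨x, rfl⟩ := QuotientGroup.mk_surjective s
  obtain ⟨g₁, u₁, hu₁, rfl⟩ := P.supp x hs
  obtain ⟨h₁, -, he⟩ := exists_rep S y g₁ hu₁
  have hr := rep_rep (D := D) (ι := ι) (W' := W') u₁
  have hm : rep D ι W' u₁ ∈ W' := rep_mem S.le hu₁
  generalize hg' : g₁ * h₁ = g at he
  generalize hu' : rep D ι W' u₁ = u at he hr hm
  rw [he]
  have h1 : ι t • ((y * ι g * u : G) : G ⧸ D.W) = ((y * ι (t * g) * u : G) : G ⧸ D.W) := by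
    change ((ι t * (y * ι g * u) : G) : G ⧸ D.W) = _
    congr 1
    rw [← mul_assoc, ← mul_assoc, ht, map_mul]; group
  rw [h1, proj_mk S y _ hm hr, proj_mk S y _ hm hr]
  rfl

theorem finite_fibre (P : PushData D ι W' Z δ γ k y) (S : PushSetup D ι W' Z)
    (c : H ⧸ D.W.comap ι) : {s | proj D ι W' y s = c ∧ D.tw δ s ≠ 0}.Finite := by
  obtain ⟨g, rfl⟩ := QuotientGroup.mk_surjective c
  refine ((S.finite.image fun s : G ⧸ D.W => (y * ι g) • s)).subset fun s hs => ?_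
  exact ((P.inter_support S g).subset ⟨hs.1, hs.2⟩).1

end PushData

end Push

end Fermat.Agent.LT.Near

end
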