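import Fermat.Agent.LT.Near.Mat2

/-!
# Spectrally small matrices over an ultrametric field

`SS ρ X`: trace of norm at most `ρ` and determinant of norm at most `ρ²`.  This is conjugation
invariant, implied by `‖X‖ ≤ ρ`, and stable under sums and products of commuting matrices.
-/

set_option autoImplicit false
set_option linter.unusedSectionVars false

open Matrix IsUltrametricDist

namespace Fermat.Agent.LT.Near

section Spec

variable {F : Type*} [NormedField F] [IsUltrametricDist F]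

/-- spectrally small matrices -/
def SS (ρ : ℝ) (X : M2 F) : Prop := ‖X.trace‖ ≤ ρ ∧ ‖X.det‖ ≤ ρ ^ 2

theorem SS.nonneg {ρ : ℝ} {X : M2 F} (h : SS ρ X) : 0 ≤ ρ := (norm_nonneg _).trans h.1

theorem SS.mono {ρ σ : ℝ} {X : M2 F} (h : SS ρ X) (hρσ : ρ ≤ σ) : SS σ X :=
  ⟨h.1.trans hρσ, h.2.trans (pow_le_pow_left₀ h.nonneg hρσ 2)⟩

theorem SS.conj {ρ : ℝ} {X P Q : M2 F} (h : SS ρ X) (hPQ : P * Q = 1) : SS ρ (P * X * Q) := by
  have hQP : Q * P = 1 := mul_eq_one_comm.mp hPQ
  constructor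
  · rw [Matrix.trace_mul_comm, ← mul_assoc, hQP, one_mul]
    exact h.1
  · have h1 : P.det * Q.det = 1 := by rw [← Matrix.det_mul, hPQ, Matrix.det_one]
    rw [Matrix.det_mul, Matrix.det_mul, mul_comm P.det, mul_assoc, h1, mul_one]
    exact h.2

/-- the quadratic trick -/
theorem norm_le_of_sum_prod {A B : F} {ρ : ℝ} (hρ : 0 ≤ ρ) (hs : ‖A + B‖ ≤ ρ) (hp : ‖A * B‖ ≤ ρ ^ 2) :
    ‖A‖ ≤ ρ := by
  by_contra h
  push Not at h
  have hB : ‖B‖ = ‖A‖ := by
    have h1 : ‖A + B‖ < ‖-A‖ := by rw [norm_neg]; exact hs.trans_lt h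
    have h2 : B = (A + B) + (-A) := by ring
    rw [h2, norm_add_eq_max_of_norm_ne_norm h1.ne, max_eq_right h1.le, norm_neg]
  rw [norm_mul, hB] at hp
  nlinarith [norm_nonneg A]

theorem norm_two_le : ‖(2 : F)‖ ≤ 1 := by
  have : (2 : F) = 1 + 1 := by norm_num
  rw [this]
  exact (norm_add_le_max _ _).trans (by simp)

theorem norm_sub_le_maxF (a b : F) : ‖a - b‖ ≤ max ‖a‖ ‖b‖ := by
  rw [sub_eq_add_neg, ← norm_neg b]
  exact norm_add_le_max _ _

/-- commuting `2 × 2` matrices: with `S = tr X tr Y - tr (X Y)`,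
`S * tr (X Y) = (tr X ^ 2 - 2 det X) det Y + (tr Y ^ 2 - 2 det Y) det X`. -/
theorem trace_mul_identity {X Y : M2 F} (h : X * Y = Y * X) :
    (X.trace * Y.trace - (X * Y).trace) * (X * Y).trace =
      (X.trace ^ 2 - 2 * X.det) * Y.det + (Y.trace ^ 2 - 2 * Y.det) * X.det := by
  rw [commute_iff] at h
  obtain ⟨h1, h2, h3⟩ := h
  simp only [Matrix.trace_fin_two, Matrix.det_fin_two, Matrix.mul_apply, Fin.sum_univ_two]
  generalize X 0 0 = a at *
  generalize X 0 1 = b at *
  generalize X 1 0 = c at *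
  generalize X 1 1 = d at *
  generalize Y 0 0 = a' at *
  generalize Y 0 1 = b' at *
  generalize Y 1 0 = c' at *
  generalize Y 1 1 = d' at *
  -- `h1 : b * c' = b' * c`, `h2 : (a - d) * b' = (a' - d') * b`, `h3 : (a - d) * c' = (a' - d') * c`
  linear_combination (-1) * (b * c' - b' * c) * h1 + ((a - d) * c' - (a' - d') * c) * h2

theorem SS.trace_mul {ρ σ : ℝ} {X Y : M2 F} (hX : SS ρ X) (hY : SS σ Y) (h : X * Y = Y * X) :
    ‖(X * Y).trace‖ ≤ ρ * σ ∧ ‖X.trace * Y.trace - (X * Y).trace‖ ≤ ρ * σ := by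
  have hρ := hX.nonneg
  have hσ := hY.nonneg
  have hρσ : 0 ≤ ρ * σ := mul_nonneg hρ hσ
  set A := X.trace * Y.trace - (X * Y).trace with hA
  set B := (X * Y).trace with hB
  have hs : ‖A + B‖ ≤ ρ * σ := by
    have : A + B = X.trace * Y.trace := by rw [hA]; ring
    rw [this, norm_mul]
    exact mul_le_mul hX.1 hY.1 (norm_nonneg _) hρ
  have e1 : ∀ {ρ : ℝ} {X : M2 F}, SS ρ X → ‖X.trace ^ 2 - 2 * X.det‖ ≤ ρ ^ 2 := by
    intro ρ X hX
    refine (norm_sub_le_maxF _ _).trans (max_le ?_ ?_)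
    · rw [norm_pow]
      exact pow_le_pow_left₀ (norm_nonneg _) hX.1 2
    · rw [norm_mul]
      calc ‖(2 : F)‖ * ‖X.det‖ ≤ 1 * ρ ^ 2 :=
            mul_le_mul norm_two_le hX.2 (norm_nonneg _) zero_le_one
        _ = ρ ^ 2 := one_mul _
  have hp : ‖A * B‖ ≤ (ρ * σ) ^ 2 := by
    rw [hA, hB, trace_mul_identity h, mul_pow]
    refine (norm_add_le_max _ _).trans (max_le ?_ ?_)
    · rw [norm_mul]
      exact mul_le_mul (e1 hX) hY.2 (norm_nonneg _) (by positivity)
    · rw [norm_mul, mul_comm (ρ ^ 2)]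
      exact mul_le_mul (e1 hY) hX.2 (norm_nonneg _) (by positivity)
  exact ⟨norm_le_of_sum_prod hρσ (by rwa [add_comm] at hs) (by rwa [mul_comm] at hp),
    norm_le_of_sum_prod hρσ hs hp⟩

theorem SS.mul {ρ σ : ℝ} {X Y : M2 F} (hX : SS ρ X) (hY : SS σ Y) (h : X * Y = Y * X) :
    SS (ρ * σ) (X * Y) := by
  refine ⟨(hX.trace_mul hY h).1, ?_⟩
  rw [Matrix.det_mul, norm_mul, mul_pow]
  exact mul_le_mul hX.2 hY.2 (norm_nonneg _) (by have := hX.nonneg; positivity)

theorem det_add_eq (X Y : M2 F) :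
    (X + Y).det = X.det + Y.det + (X.trace * Y.trace - (X * Y).trace) := by
  simp only [Matrix.trace_fin_two, Matrix.det_fin_two, Matrix.mul_apply, Fin.sum_univ_two,
    Matrix.add_apply]
  ring

theorem SS.add {ρ : ℝ} {X Y : M2 F} (hX : SS ρ X) (hY : SS ρ Y) (h : X * Y = Y * X) :
    SS ρ (X + Y) := by
  constructor
  · rw [Matrix.trace_add]
    exact (norm_add_le_max _ _).trans (max_le hX.1 hY.1)
  · rw [det_add_eq]
    refine (norm_add_le_max _ _).trans (max_le ((norm_add_le_max _ _).trans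
      (max_le hX.2 hY.2)) ?_)
    rw [pow_two]
    exact (hX.trace_mul hY h).2

theorem SS.smul {ρ σ : ℝ} {c : F} {X : M2 F} (hX : SS ρ X) (hc : ‖c‖ ≤ σ) : SS (σ * ρ) (c • X) := by
  have hρ := hX.nonneg
  have hσ : 0 ≤ σ := (norm_nonneg _).trans hc
  constructor
  · rw [Matrix.trace_smul, smul_eq_mul, norm_mul]
    exact mul_le_mul hc hX.1 (norm_nonneg _) hσ
  · rw [Matrix.det_smul, Fintype.card_fin, norm_mul, norm_pow, mul_pow]
    exact mul_le_mul (pow_le_pow_left₀ (norm_nonneg _) hc 2) hX.2 (norm_nonneg _) (by positivity)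

theorem SS.neg {ρ : ℝ} {X : M2 F} (hX : SS ρ X) : SS ρ (-X) := by
  have := hX.smul (c := (-1 : F)) (σ := 1) (by simp)
  simpa using this

theorem ss_one : SS 1 (1 : M2 F) := by
  constructor
  · rw [Matrix.trace_fin_two]
    simp only [Matrix.one_apply_eq]
    exact (norm_add_le_max _ _).trans (by simp)
  · simp

theorem ss_zero {ρ : ℝ} (hρ : 0 ≤ ρ) : SS ρ (0 : M2 F) := by
  constructor
  · simpa using hρ
  · simp
    positivity

/-- one plus a small matrix is invertible -/
theorem SS.isUnit_one_add {ρ : ℝ} {X : M2 F} (hX : SS ρ X) (hρ : ρ < 1) : IsUnit (1 + X) := by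
  rw [Matrix.isUnit_iff_isUnit_det, isUnit_iff_ne_zero]
  intro h
  have h1 : (1 + X).det = 1 + (X.trace + X.det) := by
    simp only [Matrix.trace_fin_two, Matrix.det_fin_two, Matrix.add_apply, Matrix.one_apply_eq,
      Matrix.one_apply_ne (show (0 : Fin 2) ≠ 1 by decide),
      Matrix.one_apply_ne (show (1 : Fin 2) ≠ 0 by decide)]
    ring
  rw [h1] at h
  have h2 : ‖X.trace + X.det‖ ≤ ρ := by
    refine (norm_add_le_max _ _).trans (max_le hX.1 (hX.2.trans ?_))
    have := hX.nonneg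
    nlinarith
  have h3 : X.trace + X.det = -1 := by linear_combination h
  rw [h3, norm_neg, norm_one] at h2
  linarith

theorem SS.norm_det_one_add_sub {ρ : ℝ} {X : M2 F} (hX : SS ρ X) (hρ : ρ < 1) :
    ‖(1 + X).det - 1‖ ≤ ρ := by
  have h1 : (1 + X).det - 1 = X.trace + X.det := by
    simp only [Matrix.trace_fin_two, Matrix.det_fin_two, Matrix.add_apply, Matrix.one_apply_eq,
      Matrix.one_apply_ne (show (0 : Fin 2) ≠ 1 by decide),
      Matrix.one_apply_ne (show (1 : Fin 2) ≠ 0 by decide)]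
    ring
  rw [h1]
  refine (norm_add_le_max _ _).trans (max_le hX.1 (hX.2.trans ?_))
  have := hX.nonneg
  nlinarith

attribute [local instance] matNormedRing in
theorem ss_of_norm {ρ : ℝ} {X : M2 F} (h : ‖X‖ ≤ ρ) : SS ρ X := by
  have hρ : 0 ≤ ρ := (norm_nonneg _).trans h
  have h1 : ∀ i j, ‖X i j‖ ≤ ρ := (mat_norm_le_iff hρ).mp h
  constructor
  · rw [Matrix.trace_fin_two]
    exact (norm_add_le_max _ _).trans (max_le (h1 _ _) (h1 _ _))
  · rw [Matrix.det_fin_two, pow_two]
    refine (norm_sub_le_maxF _ _).trans (max_le ?_ ?_)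
    · rw [norm_mul]
      exact mul_le_mul (h1 _ _) (h1 _ _) (norm_nonneg _) hρ
    · rw [norm_mul]
      exact mul_le_mul (h1 _ _) (h1 _ _) (norm_nonneg _) hρ

/-- **Uniqueness of spectrally near cube roots.** -/
theorem cube_root_unique_spec {k k' : M2 F} {ρ : ℝ} (h3 : ‖(3 : F)⁻¹‖ * ρ < 1) (h3' : (3 : F) ≠ 0)
    (hρ : ρ < 1) (hk : SS ρ (k - 1)) (hk' : SS ρ (k' - 1)) (hc : k * k' = k' * k)
    (he : k ^ 3 = k' ^ 3) : k = k' := by
  set x := k - 1 with hx
  set y := k' - 1 with hy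
  have hk1 : k = 1 + x := by rw [hx]; abel
  have hk2 : k' = 1 + y := by rw [hy]; abel
  have hxy : x * y = y * x := by
    rw [hx, hy]
    simp only [mul_sub, sub_mul, mul_one, one_mul, hc]
    abel
  have hρ0 := hk.nonneg
  -- the second factor
  have hfac : (k - k') * (k ^ 2 + k * k' + k' ^ 2) = 0 := by
    have : (k - k') * (k ^ 2 + k * k' + k' ^ 2) = k ^ 3 - k' ^ 3 := by
      have e1 : k' * k ^ 2 = k ^ 2 * k' := by
        rw [pow_two, ← mul_assoc, ← hc, mul_assoc, ← hc, ← mul_assoc]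
      have e2 : k' * (k * k') = k * k' ^ 2 := by
        rw [← mul_assoc, ← hc, mul_assoc, pow_two]
      rw [sub_mul, mul_add, mul_add, mul_add, mul_add, e1, e2]
      have e3 : k * k ^ 2 = k ^ 3 := by rw [← pow_succ']
      have e4 : k' * k' ^ 2 = k' ^ 3 := by rw [← pow_succ']
      have e5 : k * (k * k') = k ^ 2 * k' := by rw [← mul_assoc, pow_two]
      rw [e3, e4, e5]
      abel
    rw [this, he, sub_self]
  have e6 : k ^ 2 + k * k' + k' ^ 2 =
      (3 : F) • (1 + (3 : F)⁻¹ • ((x + x + x * x) + ((x + y) + x * y) + (y + y + y * y))) := by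
    rw [smul_add, smul_smul, mul_inv_cancel₀ h3', one_smul, hk1, hk2]
    have : (3 : F) • (1 : M2 F) = 1 + 1 + 1 := by
      have h : (3 : F) = 1 + 1 + 1 := by norm_num
      rw [h, add_smul, add_smul, one_smul]
    rw [this]
    noncomm_ring
  have c1 : ∀ {a b : M2 F}, a * b = b * a → Commute a b := fun h => h
  have cxy : Commute x y := hxy
  have s1 : SS ρ (x * x) := by
    have := hk.mul hk rfl
    refine this.mono ?_
    nlinarith
  have s2 : SS ρ (x * y) := by
    have := hk.mul hk' hxy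
    refine this.mono ?_
    nlinarith
  have s3 : SS ρ (y * y) := by
    have := hk'.mul hk' rfl
    refine this.mono ?_
    nlinarith
  have cxx : Commute x (x * x) := (Commute.refl x).mul_right (Commute.refl x)
  have cx_xy : Commute x (x * y) := (Commute.refl x).mul_right cxy
  have cy_xy : Commute y (x * y) := cxy.symm.mul_right (Commute.refl y)
  have cyy : Commute y (y * y) := (Commute.refl y).mul_right (Commute.refl y)
  have cx_yy : Commute x (y * y) := cxy.mul_right cxy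
  have t1 : SS ρ (x + x + x * x) := by
    refine SS.add (SS.add hk hk rfl) s1 ?_
    exact (cxx.add_left cxx).eq
  have t2 : SS ρ ((x + y) + x * y) := by
    refine SS.add (SS.add hk hk' hxy) s2 ?_
    exact (cx_xy.add_left cy_xy).eq
  have t3 : SS ρ (y + y + y * y) := by
    refine SS.add (SS.add hk' hk' rfl) s3 ?_
    exact (cyy.add_left cyy).eq
  have cX : ∀ {z : M2 F}, Commute x z → Commute y z →
      Commute (x + x + x * x) z ∧ Commute ((x + y) + x * y) z ∧ Commute (y + y + y * y) z := by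
    intro z h1 h2
    exact ⟨(h1.add_left h1).add_left (h1.mul_left h1), (h1.add_left h2).add_left (h1.mul_left h2),
      (h2.add_left h2).add_left (h2.mul_left h2)⟩
  have cx2 : Commute x ((x + y) + x * y) := ((Commute.refl x).add_right cxy).add_right cx_xy
  have cy2 : Commute y ((x + y) + x * y) := (cxy.symm.add_right (Commute.refl y)).add_right cy_xy
  have cx3 : Commute x (y + y + y * y) := (cxy.add_right cxy).add_right cx_yy
  have cy3 : Commute y (y + y + y * y) :=
    ((Commute.refl y).add_right (Commute.refl y)).add_right cyy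
  have t12 := SS.add t1 t2 (cX cx2 cy2).1.eq
  have t123 := SS.add t12 t3 (((cX cx3 cy3).1).add_left (cX cx3 cy3).2.1).eq
  have hunit := (t123.smul (c := (3 : F)⁻¹) le_rfl).isUnit_one_add h3
  rw [e6, mul_smul_comm] at hfac
  have h7 : (k - k') * (1 + (3 : F)⁻¹ • ((x + x + x * x) + ((x + y) + x * y) + (y + y + y * y)))
      = 0 := (smul_eq_zero.mp hfac).resolve_left h3'
  obtain ⟨u, hu⟩ := hunit
  rw [← hu] at h7
  exact sub_eq_zero.mp ((Units.mul_left_eq_zero u).mp h7)

end Spec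

end Fermat.Agent.LT.Near
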